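import Fermat.Agent.H07.Z2.SelC
import Fermat.Agent.TW.Local1

set_option autoImplicit false
set_option linter.all false

/-!
# PROGRAM Z, package Z2: finiteness of the Selmer groups and the first prime
-/

namespace Fermat.Agent.H07.Z2

open Fermat.Agent.CC Fermat.Agent.TW
open Matrix
open scoped Pointwise

variable {ρ0 : GQ →* M22}

open Classical in
/-- restriction to the kernel of `ρ0`, extended by zero -/
noncomputable def rs (ρ0 : GQ →* M22) (x : GQ → V2) : GQ → V2 := fun k => if ρ0 k = 1 then x k else 0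

theorem rs_add (x y : GQ → V2) : rs ρ0 (fun g => x g + y g) = rs ρ0 x + rs ρ0 y := by
  funext k
  simp only [rs, Pi.add_apply]
  split_ifs <;> simp

/-- the restrictions of the Selmer cocycles -/
def RS (ρ0 : GQ →* M22) (S : Finset Nat.Primes) : Set (GQ → V2) := rs ρ0 '' {x | SelC ρ0 S x}

theorem zero_mem_RS (S : Finset Nat.Primes) : (0 : GQ → V2) ∈ RS ρ0 S := by
  refine ⟨fun _ => 0, SelC.zero, ?_⟩
  funext k
  simp [rs]

/-- the component characters -/
noncomputable def chr {x : GQ → V2} (hx : IsC ρ0 x) (i : Fin 2) :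
    ρ0.ker →* Multiplicative (ZMod 2) where
  toFun k := Multiplicative.ofAdd (x k i)
  map_one' := by
    have h := hx.one
    change Multiplicative.ofAdd (x 1 i) = 1
    rw [h]; rfl
  map_mul' k l := by
    have hk : ρ0 (k : GQ) = 1 := k.2
    have h := hx (k : GQ) (l : GQ)
    rw [hk, Matrix.one_mulVec] at h
    change Multiplicative.ofAdd (x ((k : GQ) * (l : GQ)) i) = _
    rw [h]; rfl

theorem RS_finite (hop : ∃ U : Subgroup GQ, IsOpen (U : Set GQ) ∧ ∀ u ∈ U, ρ0 u = 1)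
    (S : Finset Nat.Primes) : (RS ρ0 S).Finite := by
  classical
  have hK : IsOpen (ρ0.ker : Set GQ) := by
    obtain ⟨U, hU, hU1⟩ := hop
    exact Subgroup.isOpen_mono (fun u hu => hU1 u hu) hU
  let C := {χ : ρ0.ker →* Multiplicative (ZMod 2) | IsOpen (χ.ker : Set ρ0.ker) ∧
      ∀ p : ℕ, p.Prime → p ∉ (S.image (fun q : Nat.Primes => (q : ℕ))) →
        ∀ A : ValuationSubring (AlgebraicClosure ℚ), A.LiesOverPrime p →
        ∀ σ : ρ0.ker, (σ : AlgebraicClosure ℚ ≃ₐ[ℚ] AlgebraicClosure ℚ) ∈ A.inertiaSubgroupIn ℚ →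
          χ σ = 1}
  have hC : C.Finite := WMW.finite_quadratic ρ0.ker hK _
  -- the map
  let F : (Fin 2 → C) → (GQ → V2) := fun χ k => if h : k ∈ ρ0.ker then
    (fun i => Multiplicative.toAdd ((χ i).1 ⟨k, h⟩)) else 0
  haveI : Finite C := hC
  haveI : Finite (Fin 2 → C) := inferInstance
  refine (Set.finite_range F).subset ?_
  rintro _ ⟨x, hx, rfl⟩
  have hmem : ∀ i, chr hx.isC i ∈ C := by
    intro i
    refine ⟨?_, ?_⟩
    · obtain ⟨U, hU, hxU⟩ := hx.lc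
      have h1 : IsOpen ((U.subgroupOf ρ0.ker : Subgroup ρ0.ker) : Set ρ0.ker) :=
        hU.preimage continuous_subtype_val
      refine Subgroup.isOpen_mono (fun k hk => ?_) h1
      rw [MonoidHom.mem_ker]
      change Multiplicative.ofAdd (x k i) = 1
      rw [hxU _ (Subgroup.mem_subgroupOf.mp hk)]
      rfl
    · intro p hp hpS A hA σ hσ
      change Multiplicative.ofAdd (x σ i) = 1
      rw [hx.unr ⟨p, hp⟩ (fun hh => hpS (Finset.mem_image_of_mem (fun q : Nat.Primes => (q : ℕ)) hh))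
        A hA σ hσ]
      rfl
  refine ⟨fun i => ⟨chr hx.isC i, hmem i⟩, ?_⟩
  funext k
  by_cases hk : k ∈ ρ0.ker
  · have hk' : ρ0 k = 1 := hk
    simp only [F, dif_pos hk, rs, if_pos hk']
    funext i
    rfl
  · have hk' : ¬ ρ0 k = 1 := hk
    simp only [F, dif_neg hk, rs, if_neg hk']

/-- cocycles which are trivial on the kernel are coboundaries -/
theorem cob_of_rs {x : GQ → V2} (hx : IsC ρ0 x) (h0 : ∀ k, ρ0 k = 1 → x k = 0)
    {σ : GQ} (hσ : ρ0 σ = !![1, 1; 0, 1])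
    (htr : ∀ v w : V2, v ≠ 0 → w ≠ 0 → ∃ g, ρ0 g *ᵥ v = w) :
    ∃ w, ∀ g, x g = cb ρ0 w g := by
  obtain ⟨g0, hg0⟩ := htr ![1, 0] ![0, 1] (by decide) (by decide)
  refine isCob_of (ρ0 := ρ0) (ρm := ρ0) (f := RingHom.id (ZMod 2)) ?_ ?_ ?_ hx h0 hσ (g0 := g0) ?_ ?_
  · intro a ha
    exact isUnit_iff_ne_zero.mpr ha
  · intro t
    exact ⟨t.val, ZMod.natCast_zmod_val t⟩
  · intro g
    ext i j
    simp
  · intro h0
    have h1 := congrFun hg0 1
    simp [Matrix.mulVec, dotProduct, Fin.sum_univ_two] at h1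
    rw [h0] at h1
    exact zero_ne_one h1
  · intro g
    set τ := g * σ * g⁻¹ with hτ
    have hσ2 : ρ0 σ * ρ0 σ = 1 := by rw [hσ]; decide
    have hτρ : ρ0 τ = ρ0 g * ρ0 σ * ρ0 g⁻¹ := by rw [hτ, map_mul, map_mul]
    have hgg : ρ0 g⁻¹ * ρ0 g = 1 := by rw [← map_mul, inv_mul_cancel, map_one]
    have hgg' : ρ0 g * ρ0 g⁻¹ = 1 := by rw [← map_mul, mul_inv_cancel, map_one]
    have hτ2 : ρ0 τ * ρ0 τ = 1 := by
      rw [hτρ]
      calc ρ0 g * ρ0 σ * ρ0 g⁻¹ * (ρ0 g * ρ0 σ * ρ0 g⁻¹)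
          = ρ0 g * ρ0 σ * (ρ0 g⁻¹ * ρ0 g) * ρ0 σ * ρ0 g⁻¹ := by noncomm_ring
        _ = ρ0 g * (ρ0 σ * ρ0 σ) * ρ0 g⁻¹ := by rw [hgg]; noncomm_ring
        _ = 1 := by rw [hσ2, mul_one, hgg']
    have hτ1 : ρ0 τ ≠ 1 := by
      intro h1
      have h2 : ρ0 σ = ρ0 g⁻¹ * ρ0 τ * ρ0 g := by
        rw [← map_mul, ← map_mul]; congr 1; rw [hτ]; group
      rw [h1, mul_one, hgg, hσ] at h2
      exact absurd h2 (by decide)
    have h1 : x (τ * τ) = 0 := h0 _ (by rw [map_mul, hτ2])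
    rw [hx] at h1
    have h2 := V2_add_self (x τ)
    have h3 : x τ + ρ0 τ *ᵥ x τ = x τ + x τ := by rw [h2, h1]
    have h4 := add_left_cancel h3
    obtain ⟨i, hi⟩ : ∃ i : Fin 3, ρ0 τ *ᵥ ev i = ev i := by
      have key : ∀ M : M22, M * M = 1 → ∃ i : Fin 3, M *ᵥ ev i = ev i := by
        intro M
        rw [Matrix.eta_fin_two M]
        generalize M 0 0 = m00
        generalize M 0 1 = m01
        generalize M 1 0 = m10
        generalize M 1 1 = m11
        revert m00 m01 m10 m11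
        decide
      exact key _ hτ2
    have h5 := fix_line (ρ0 τ) (det_rho ρ0 τ) hτ1 i hi _ h4
    rw [← range_sub (ρ0 τ) (det_rho ρ0 τ) hτ1 i hi] at h5
    exact h5

/-- a Selmer cocycle for `S ∪ {q}` which is unramified at `q` -/
theorem SelC.of_unr {S : Finset Nat.Primes} {q : Nat.Primes} {A : ValuationSubring Qb}
    (hA : A.LiesOverPrime (q : ℕ)) (hI : ∀ i ∈ A.inertiaSubgroupIn ℚ, ρ0 i = 1) {y : GQ → V2}
    (hy : SelC ρ0 (insert q S) y) (hyI : ∀ i ∈ A.inertiaSubgroupIn ℚ, y i = 0) : SelC ρ0 S y := by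
  haveI := H51.isGalois_Qbar
  refine ⟨hy.isC, hy.lc, ?_, fun p hp => hy.loc p (Finset.mem_insert_of_mem hp)⟩
  intro p hp A' hA' i hi
  by_cases hpq : p = q
  · subst hpq
    obtain ⟨g, rfl⟩ := H05.exists_smul_eq p.2 hA hA'
    have h1 := H09.inertia_conj hi
    have h2 : i = g * (g⁻¹ * i * g) * g⁻¹ := by group
    rw [h2, hy.isC.conj_ker g _ (hI _ h1), hyI _ h1, Matrix.mulVec_zero]
  · refine hy.unr p ?_ A' hA' i hi
    intro hmem
    rcases Finset.mem_insert.mp hmem with h' | h'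
    · exact hpq h'
    · exact hp h'

/-- **The first prime.** -/
theorem RS_insert {S : Finset Nat.Primes}
    (hop : ∃ U : Subgroup GQ, IsOpen (U : Set GQ) ∧ ∀ u ∈ U, ρ0 u = 1) {q : Nat.Primes}
    (hq2 : (q : ℕ) ≠ 2) {A : ValuationSubring Qb} (hA : A.LiesOverPrime (q : ℕ))
    (hI : ∀ i ∈ A.inertiaSubgroupIn ℚ, ρ0 i = 1) (hgood : Good2 ρ0 (q : ℕ)) :
    (RS ρ0 (insert q S)).ncard ≤ 2 * (RS ρ0 S).ncard := by
  classical
  obtain ⟨π, τ, hπ, hτI, hτπ⟩ := exists_pi_tau q.2 hA Nat.prime_two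
  obtain ⟨⟨e, he, hfix⟩, hg⟩ := hgood A hA
  have hfin := RS_finite hop S
  -- values at the tame element
  have htau : ∀ y, SelC ρ0 (insert q S) y → y τ = 0 ∨ y τ = e := by
    intro y hy
    obtain ⟨w, hw⟩ := hy.line (Finset.mem_insert_self q S) hA he hfix hg
    have h1 := hw τ (inertia_le_decomposition A hτI)
    have h2 : cb ρ0 w τ = 0 := by unfold cb; rw [hI τ hτI, Matrix.one_mulVec, sub_self]
    rwa [h2, add_zero] at h1
  have hzero : ∀ y, SelC ρ0 (insert q S) y → y τ = 0 → SelC ρ0 S y := by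
    intro y hy h0
    refine hy.of_unr hA hI ?_
    obtain ⟨U, hU, hyU⟩ := hy.lc
    letI : DistribMulAction GQ V2 :=
      { smul := fun _ v => v
        one_smul := fun _ => rfl
        mul_smul := fun _ _ _ => rfl
        smul_zero := fun _ => rfl
        smul_add := fun _ _ _ => rfl }
    have h1 := (tame_values q.2 hA Nat.prime_two (fun h => hq2 h.symm)
      (M := V2) (fun m => by rw [two_nsmul]; exact V2_add_self m) π hπ τ hτI hτπ
      (fun σ => y σ) (fun σ σ' => by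
        change y ((σ : GQ) * (σ' : GQ)) = _
        rw [hy.isC, hI _ σ.2, Matrix.one_mulVec]) U (lev_isOpen_iff.mpr hU)
      (fun σ hσ => hyU _ hσ)).1 h0
    exact fun i hi => h1 ⟨i, hi⟩
  by_cases hall : ∀ y, SelC ρ0 (insert q S) y → y τ = 0
  · have hsub : RS ρ0 (insert q S) ⊆ RS ρ0 S := by
      rintro _ ⟨y, hy, rfl⟩
      exact ⟨y, hzero y hy (hall y hy), rfl⟩
    have := Set.ncard_le_ncard hsub hfin
    omega
  · push Not at hall
    obtain ⟨y0, hy0, hy0τ⟩ := hall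
    have hy0e : y0 τ = e := (htau y0 hy0).resolve_left hy0τ
    have hsub : RS ρ0 (insert q S) ⊆ RS ρ0 S ∪ (fun r => r + rs ρ0 y0) '' RS ρ0 S := by
      rintro _ ⟨y, hy, rfl⟩
      rcases htau y hy with h0 | h0
      · left
        exact ⟨y, hzero y hy h0, rfl⟩
      · right
        have h1 : SelC ρ0 S (fun g => y g + y0 g) := by
          apply hzero _ (hy.add hy0)
          change y τ + y0 τ = 0
          rw [h0, hy0e]
          exact V2_add_self e
        refine ⟨rs ρ0 (fun g => y g + y0 g), ⟨_, h1, rfl⟩, ?_⟩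
        change rs ρ0 (fun g => y g + y0 g) + rs ρ0 y0 = rs ρ0 y
        rw [rs_add, add_assoc]
        have h2 : rs ρ0 y0 + rs ρ0 y0 = 0 := by
          funext k
          exact V2_add_self _
        rw [h2, add_zero]
    have h1 := Set.ncard_le_ncard hsub (hfin.union (hfin.image _))
    have h2 := Set.ncard_union_le (RS ρ0 S) ((fun r => r + rs ρ0 y0) '' RS ρ0 S)
    have h3 := Set.ncard_image_le (f := fun r => r + rs ρ0 y0) hfin
    omega

/-- **The next primes.** -/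
theorem RS_step {S : Finset Nat.Primes} (h : Env ρ0 S) {σ : GQ} (hσ : ρ0 σ = !![1, 1; 0, 1])
    {x : GQ → V2} (hx : SelC ρ0 S x)
    {q : Nat.Primes} (hq : q ∉ S) {A : ValuationSubring Qb} (hA : A.LiesOverPrime (q : ℕ))
    {φ : GQ} (hφ : A.IsFrobeniusAt φ (q : ℕ)) (hφ1 : ρ0 φ ≠ 1) (hφ2 : ρ0 φ * ρ0 φ = 1)
    (hxφ : ¬ ∃ w, x φ = ρ0 φ *ᵥ w - w) :
    (RS ρ0 (insert q S)).ncard < (RS ρ0 S).ncard := by
  classical
  apply Set.ncard_lt_ncard _ (RS_finite h.hop S)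
  refine ⟨?_, fun hsub => ?_⟩
  · rintro _ ⟨y, hy, rfl⟩
    exact ⟨y, (sel_step h hx hq hA hφ hφ1 hφ2 hxφ hy).1, rfl⟩
  · obtain ⟨y, hy, hxy⟩ := hsub ⟨x, hx, rfl⟩
    obtain ⟨hyS, w, hw⟩ := sel_step h hx hq hA hφ hφ1 hφ2 hxφ hy
    have h1 : IsC ρ0 (fun g => x g + y g) := hx.isC.add hy.isC
    have h2 : ∀ k, ρ0 k = 1 → x k + y k = 0 := by
      intro k hk
      have h3 := congrFun hxy k
      simp only [rs, if_pos hk] at h3
      rw [h3]
      exact V2_add_self _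
    obtain ⟨w', hw'⟩ := cob_of_rs h1 h2 hσ h.htr
    apply hxφ
    refine ⟨w' + w, ?_⟩
    have h4 : x φ = (x φ + y φ) + y φ := by
      rw [add_assoc, V2_add_self, add_zero]
    have h5 : x φ + y φ = cb ρ0 w' φ := hw' φ
    rw [h4, h5, hw, ← cb_add]
    rfl

end Fermat.Agent.H07.Z2
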