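import Fermat.Agent.H07.Z2.ExQ
import Fermat.Agent.H07.Z2.Fin
import Fermat.Agent.H27.Z4Bound
import Fermat.Agent.H25.LocComp

set_option autoImplicit false
set_option linter.all false

/-!
# PROGRAM Z, package Z2: choice of `Q`
-/

namespace Fermat.Agent.H07.Z2

open Fermat.Agent.CC Fermat.Agent.TW
open Matrix
open WeierstrassCurve WeierstrassCurve.Affine WeierstrassCurve.Affine.Point
open Fermat.Agent.H08 Fermat.Agent.Frob Fermat.Agent.Ell
open Fermat.Agent.EGal hiding Qb GQ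
open scoped Pointwise

variable {W : WeierstrassCurve ℤ}

section

variable [(WQ W).IsElliptic] {b : Module.Basis (Fin 2) ℤ_[2] (TT (WQ W) 2)}

theorem env_of (h : ZCurve W) {S : Finset Nat.Primes} (hS : bad W ⊆ S)
    (hgood : ∀ p ∈ S, Good2 (rho0 b) (p : ℕ)) : Env (rho0 b) S where
  hop := rho0_open h
  htr := rho0_trans h.irr
  hcc := rho0_cc_ne h.neg
  two := hS (two_mem_bad h)
  unr := fun p hp A hA => rho0_unr h (fun hb => hp (hS hb)) hA
  good := hgood

theorem good_q (h : ZCurve W) {q : Nat.Primes} (hq : q ∉ bad W) {A : ValuationSubring Qb}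
    (hA : A.LiesOverPrime (q : ℕ)) {φ : GQ} (hφ : A.IsFrobeniusAt φ (q : ℕ))
    (hφ1 : rho0 b φ ≠ 1) (hφ2 : rho0 b φ * rho0 b φ = 1) : Good2 (rho0 b) (q : ℕ) := by
  obtain ⟨e, he, -, hfix⟩ := frob_fix q.2 hA hφ hφ2 hφ1 (rho0_open h) (rho0_unr h hq hA)
  exact good2_of q.2 hA ⟨e, he, hfix⟩ ⟨φ, hφ.mem_decompositionSubgroup, hφ1⟩

theorem induct (h : ZCurve W) {l : Nat.Primes} {A : ValuationSubring Qb} {σ : GQ}
    (hl : l ∈ bad W) (hA : A.LiesOverPrime (l : ℕ)) (hσ : σ ∈ A.inertiaSubgroupIn ℚ)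
    (hσb : mtx b (rr (WQ W) 2 σ) = !![1, 1; 0, 1]) {m : ℕ} (hm : m ≠ 0) (n : ℕ) :
    ∀ S : Finset Nat.Primes, bad W ⊆ S → (∀ p ∈ S, Good2 (rho0 b) (p : ℕ)) →
      (RS (rho0 b) S).ncard ≤ n →
      ∃ Q : Finset Nat.Primes, Q.card ≤ n ∧ (∀ q ∈ Q, CTy W m q) ∧
        ∀ x, SelC (rho0 b) (S ∪ Q) x → ∃ w, ∀ g, x g = cb (rho0 b) w g := by
  classical
  have hρσ : rho0 b σ = !![1, 1; 0, 1] := by
    rw [rho0_apply, hσb]
    ext i j
    fin_cases i <;> fin_cases j <;> simp
  induction n with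
  | zero =>
    intro S hS hgood hn
    exfalso
    have h1 := Set.ncard_pos (RS_finite (rho0_open (b := b) h) S) |>.mpr ⟨0, zero_mem_RS S⟩
    omega
  | succ n ih =>
    intro S hS hgood hn
    by_cases hall : ∀ x, SelC (rho0 b) S x → ∃ w, ∀ g, x g = cb (rho0 b) w g
    · refine ⟨∅, by simp, by simp, ?_⟩
      rw [Finset.union_empty]
      exact hall
    · push Not at hall
      obtain ⟨x, hx, hxn⟩ := hall
      have h1 : ∃ n ∈ torsFix W (2 ^ m), x n ≠ 0 := by
        by_contra hcon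
        push Not at hcon
        obtain ⟨w, hw⟩ := cob_of_torsFix h hl hA hσ hσb hm hS hx hcon
        obtain ⟨g, hg⟩ := hxn w
        exact hg (hw g)
      obtain ⟨q, hqS, A', hA', φ, hφ, hC, hφ1, hφ2, hxφ⟩ := exists_q (b := b) h hm hx.isC hx.lc h1 S
      have hqb : q ∉ bad W := fun hh => hqS (hS hh)
      have h2 := RS_step (env_of h hS hgood) hρσ hx hqS hA' hφ hφ1 hφ2 hxφ
      have hgood' : ∀ p ∈ insert q S, Good2 (rho0 b) (p : ℕ) := by
        intro p hp
        rcases Finset.mem_insert.mp hp with rfl | hp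
        · exact good_q h hqb hA' hφ hφ1 hφ2
        · exact hgood p hp
      obtain ⟨Q, hQc, hQ, hfin⟩ := ih (insert q S) (hS.trans (Finset.subset_insert q S)) hgood'
        (by omega)
      refine ⟨insert q Q, (Finset.card_insert_le _ _).trans (by omega), ?_, ?_⟩
      · intro q' hq'
        rcases Finset.mem_insert.mp hq' with rfl | hq'
        · exact cty_of h hqb hA' hφ hC
        · exact hQ q' hq'
      · intro y hy
        apply hfin
        have e : S ∪ insert q Q = insert q S ∪ Q := by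
          ext p
          simp only [Finset.mem_union, Finset.mem_insert]
          constructor
          · rintro (h | h | h)
            · exact Or.inl (Or.inr h)
            · exact Or.inl (Or.inl h)
            · exact Or.inr h
          · rintro ((h | h) | h)
            · exact Or.inr (Or.inl h)
            · exact Or.inl h
            · exact Or.inr (Or.inr h)
        rwa [e] at hy

/-- the statement for the fixed basis -/
theorem exists_Q_aux (h : ZCurve W) {l : Nat.Primes} {A : ValuationSubring Qb} {σ : GQ}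
    (hl : l ∈ bad W) (hA : A.LiesOverPrime (l : ℕ)) (hσ : σ ∈ A.inertiaSubgroupIn ℚ)
    (hσb : mtx b (rr (WQ W) 2 σ) = !![1, 1; 0, 1]) {m : ℕ} (hm : m ≠ 0) :
    ∃ Q : Finset Nat.Primes, Q.Nonempty ∧ Q.card ≤ 2 * (RS (rho0 b) (bad W)).ncard + 1 ∧
      (∀ q ∈ Q, CTy W m q) ∧
      ∀ x, SelC (rho0 b) (bad W ∪ Q) x → ∃ w, ∀ g, x g = cb (rho0 b) w g := by
  classical
  obtain ⟨q, hqb, A', hA', φ, hφ, hC, hφ1, hφ2⟩ := exists_q0 (b := b) h hm (bad W)
  have hgq : Good2 (rho0 b) (q : ℕ) := good_q h hqb hA' hφ hφ1 hφ2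
  have hq2 : (q : ℕ) ≠ 2 := by
    intro h2
    apply hqb
    have : q = ⟨2, Nat.prime_two⟩ := Subtype.ext h2
    rw [this]; exact two_mem_bad h
  have h1 := RS_insert (S := bad W) (rho0_open (b := b) h) hq2 hA' (rho0_unr h hqb hA') hgq
  obtain ⟨Q, hQc, hQ, hfin⟩ := induct h hl hA hσ hσb hm (2 * (RS (rho0 b) (bad W)).ncard)
    (insert q (bad W)) (Finset.subset_insert _ _) (by
      intro p hp
      rcases Finset.mem_insert.mp hp with rfl | hp
      · exact hgq
      · exact good_bad h hp) h1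
  refine ⟨insert q Q, Finset.insert_nonempty _ _, (Finset.card_insert_le _ _).trans (by omega),
    ?_, ?_⟩
  · intro q' hq'
    rcases Finset.mem_insert.mp hq' with rfl | hq'
    · exact cty_of h hqb hA' hφ hC
    · exact hQ q' hq'
  · intro y hy
    apply hfin
    have e : bad W ∪ insert q Q = insert q (bad W) ∪ Q := by
      ext p
      simp only [Finset.mem_union, Finset.mem_insert]
      constructor
      · rintro (h | h | h)
        · exact Or.inl (Or.inr h)
        · exact Or.inl (Or.inl h)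
        · exact Or.inr h
      · rintro ((h | h) | h)
        · exact Or.inr (Or.inl h)
        · exact Or.inl h
        · exact Or.inr (Or.inr h)
    rwa [e] at hy

/-- the change of coordinates -/
theorem exists_change (b b' : Module.Basis (Fin 2) ℤ_[2] (TT (WQ W) 2)) :
    ∃ P : V2 ≃+ V2, ∀ g v, P (rho0 b' g *ᵥ v) = rho0 b g *ᵥ P v := by
  let e (c : Module.Basis (Fin 2) ℤ_[2] (TT (WQ W) 2)) : VV (WQ W) 2 ≃+ V2 :=
    ((redBasis c).equivFun).toAddEquiv
  have he : ∀ c x, e c x = co c x := fun c x => rfl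
  refine ⟨(e b').symm.trans (e b), fun g v => ?_⟩
  obtain ⟨x, rfl⟩ := (e b').surjective v
  rw [AddEquiv.trans_apply, AddEquiv.trans_apply, AddEquiv.symm_apply_apply, he b', he b x, co_rho,
    co_rho, ← he b' (rho (WQ W) 2 g x), AddEquiv.symm_apply_apply, he b]

end

/-- transfer to the geometric data -/
theorem sel0_of (h : ZCurve W) [(WQ W).IsElliptic]
    {b : Module.Basis (Fin 2) ℤ_[2] (TT (WQ W) 2)} {m : ℕ} {Q : Finset Nat.Primes}
    (hfin : ∀ x, SelC (rho0 b) (bad W ∪ Q) x → ∃ w, ∀ g, x g = cb (rho0 b) w g)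
    {Y : Z34.GDat} {b' : Module.Basis (Fin 2) ℤ_[2] (TT (WQ W) 2)} (hY : IsZ W m Q Y b') :
    Z34.Sel0 Y.toDat := by
  haveI := H51.isGalois_Qbar
  obtain ⟨P, hP⟩ := exists_change b b'
  intro x hx hxU hloc
  have hρ : ∀ g, Y.toDat.ρ0 g = rho0 b' g := hY.ρ0
  simp only [hρ] at hx hloc ⊢
  have hC : IsC (rho0 b) (fun g => P (x g)) := by
    intro g g'
    change P (x (g * g')) = _
    rw [hx, map_add, hP]
  obtain ⟨U, hU, hxU⟩ := hxU
  have hU' : (levS Y.Sg).isOpen U := hU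
  have hsel : SelC (rho0 b) (bad W ∪ Q) (fun g => P (x g)) := by
    refine ⟨hC, ⟨U, ZC.isOpen_of_levS hU', fun u hu => ?_⟩, ?_, ?_⟩
    · change P (x u) = 0
      rw [hxU u hu, _root_.map_zero]
    · intro p hp A hA i hi
      change P (x i) = 0
      rw [← hY.Sg] at hp
      rw [hxU i (H25.TR.inertia_le_of_levS hU' hp hA hi), _root_.map_zero]
    · intro p hp A hA
      obtain ⟨g, rfl⟩ := H05.exists_smul_eq p.2 (Y.hA p) hA
      have hp' : p ∈ Y.Sg := by rw [hY.Sg]; exact hp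
      refine ⟨P (x g), fun d hd d' hd' => ?_⟩
      have hd1 := dec_conj hd
      have hd1' := dec_conj hd'
      have e1 : d = g * (g⁻¹ * d * g) * g⁻¹ := by group
      have h1 := hC.conj g (g⁻¹ * d * g)
      rw [← e1] at h1
      change P (x d) + cb (rho0 b) (P (x g)) d = rho0 b g *ᵥ P (x (g⁻¹ * d * g)) at h1
      change rho0 b d' *ᵥ (P (x d) + cb (rho0 b) (P (x g)) d) =
        P (x d) + cb (rho0 b) (P (x g)) d
      rw [h1, Matrix.mulVec_mulVec, ← map_mul]
      have e2 : d' * g = g * (g⁻¹ * d' * g) := by group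
      rw [e2, map_mul, ← Matrix.mulVec_mulVec, ← hP]
      rw [hloc ⟨p, hp'⟩ _ hd1 _ hd1']
  obtain ⟨w, hw⟩ := hfin _ hsel
  refine ⟨P.symm w, fun g => ?_⟩
  apply P.injective
  have h1 := hw g
  change P (x g) = rho0 b g *ᵥ w - w at h1
  rw [h1, _root_.map_sub, hP, AddEquiv.apply_symm_apply]

/-- **PROGRAM Z, package Z2: the choice of `Q`.** -/
theorem exists_Q (h : ZCurve W) :
    ∃ B : ℕ, ∀ m : ℕ, m ≠ 0 → ∃ Q : Finset Nat.Primes, Q.Nonempty ∧ Q.card ≤ B ∧
      (∀ q ∈ Q, CTy W m q) ∧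
      ∀ (Y : Z34.GDat) (b : Module.Basis (Fin 2) ℤ_[2] (TT (WQ W) 2)), IsZ W m Q Y b →
        Z34.Sel0 Y.toDat := by
  have hell := isElliptic_WQ h.neg.ne
  obtain ⟨b, l, A, σ, hl, hA, hσ, hσb⟩ := exists_base h hell
  refine ⟨2 * (RS (rho0 b) (bad W)).ncard + 1, fun m hm => ?_⟩
  obtain ⟨Q, h1, h2, h3, h4⟩ := exists_Q_aux h hl hA hσ hσb hm
  exact ⟨Q, h1, h2, h3, fun Y b' hY => sel0_of h h4 hY⟩

end Fermat.Agent.H07.Z2
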