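import Fermat.Agent.H07.Z2.SelC
import Fermat.Agent.Ell.ZDat
import Fermat.Agent.ZC.CFTForm

set_option autoImplicit false
set_option linter.all false

/-!
# PROGRAM Z, package Z2: the residual representation
-/

namespace Fermat.Agent.H07.Z2

open Fermat.Agent.CC Fermat.Agent.TW
open Matrix
open WeierstrassCurve WeierstrassCurve.Affine WeierstrassCurve.Affine.Point
open Fermat.Agent.H08 Fermat.Agent.Frob Fermat.Agent.Ell
open Fermat.Agent.EGal hiding Qb GQ
open scoped Pointwise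

variable {W : WeierstrassCurve ℤ}

/-- complex conjugation moves a two-torsion point -/
theorem cc_moves (hneg : W.Δ < 0) :
    ∃ P : Pts (WQ W), 2 • P = 0 ∧ complexConjugation • P ≠ P := by
  have hell := isElliptic_WQ hneg.ne
  obtain ⟨δ, hδ, hδσ⟩ := exists_sqrt_disc (E := WQ W)
  by_contra hcon
  push Not at hcon
  have h1 := hδσ complexConjugation hcon
  have hΔ' : ((WQ W)⁄Qb).Δ = (W.Δ : Qb) := by
    rw [← map_WQ, WeierstrassCurve.map_Δ]; simp
  rw [hΔ'] at hδ
  have h2 := complexEmbedding_complexConjugation δ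
  rw [h1] at h2
  obtain ⟨r, hr⟩ := Complex.conj_eq_iff_real.mp h2.symm
  have h3 : (complexEmbedding δ) ^ 2 = ((W.Δ : ℤ) : ℂ) := by
    rw [← map_pow, hδ, map_intCast]
  rw [hr, ← Complex.ofReal_pow, ← Complex.ofReal_intCast] at h3
  have h4 : r ^ 2 = (W.Δ : ℝ) := Complex.ofReal_injective h3
  have h5 : (W.Δ : ℝ) < 0 := by exact_mod_cast hneg
  nlinarith [sq_nonneg r]

section

variable [(WQ W).IsElliptic] {b : Module.Basis (Fin 2) ℤ_[2] (TT (WQ W) 2)}

/-- coordinates of the two-torsion points -/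
noncomputable def co (b : Module.Basis (Fin 2) ℤ_[2] (TT (WQ W) 2)) (x : VV (WQ W) 2) : V2 :=
  fun i => (redBasis b).repr x i

theorem co_rho (g : GQ) (x : VV (WQ W) 2) :
    rho0 b g *ᵥ co b x = co b (rho (WQ W) 2 g x) := by
  rw [rho0_eq_mtx]
  exact LinearMap.toMatrix_mulVec_repr (redBasis b) (redBasis b) _ x

theorem co_injective : Function.Injective (co b) := by
  intro x y h
  apply (redBasis b).repr.injective
  ext i
  exact congrFun h i

theorem co_zero : co b 0 = 0 := by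
  funext i
  simp [co]

theorem co_surjective : Function.Surjective (co b) := by
  intro v
  refine ⟨∑ i, v i • redBasis b i, ?_⟩
  funext i
  change (redBasis b).repr (∑ i, v i • redBasis b i) i = v i
  rw [(redBasis b).repr_sum_self]

theorem rho0_cc_ne (hneg : W.Δ < 0) : rho0 b complexConjugation ≠ 1 := by
  obtain ⟨P, hP, h⟩ := cc_moves hneg
  exact rho0_ne_one b hP h

/-- no nonzero vector is fixed -/
theorem exists_moves (hirr : W.ModRepIsIrreducible 2) {v : V2} (hv : v ≠ 0) :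
    ∃ g, rho0 b g *ᵥ v ≠ v := by
  obtain ⟨e, rfl⟩ := co_surjective (b := b) v
  have he : e ≠ 0 := by rintro rfl; exact hv co_zero
  by_contra hcon
  push Not at hcon
  obtain ⟨hnt, hir⟩ := hirr
  have h2 : Module.finrank (ZMod 2) (VV (WQ W) 2) = 2 := finrank_torsionBy (K := Qb) (WQ W) 2
  have hcon' : ∀ g, rho (WQ W) 2 g e = e := fun g => by
    have := hcon g
    rw [co_rho] at this
    exact co_injective this
  have hstab : IsGaloisStable ℚ (Submodule.span (ZMod 2) {e}) := by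
    intro g x hx
    obtain ⟨c, rfl⟩ := Submodule.mem_span_singleton.mp hx
    have : g • (c • e) = c • e := by
      change rho (WQ W) 2 g (c • e) = _
      rw [map_smul, hcon' g]
    rw [this]
    exact hx
  rcases hir _ hstab with hN | hN
  · rw [Submodule.span_singleton_eq_bot] at hN
    exact he hN
  · have h3 : Module.finrank (ZMod 2) (Submodule.span (ZMod 2) {e}) = 1 :=
      finrank_span_singleton he
    rw [hN, finrank_top, h2] at h3
    omega

/-- the third vector -/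
theorem third : ∀ v w u : V2, v ≠ 0 → w ≠ 0 → u ≠ 0 → v ≠ w → u ≠ v → u ≠ w → u = v + w := by
  decide

theorem mulVec_ne_zero (g : GQ) {ρ0 : GQ →* M22} {v : V2} (hv : v ≠ 0) : ρ0 g *ᵥ v ≠ 0 := by
  intro h
  apply hv
  have : ρ0 g⁻¹ *ᵥ (ρ0 g *ᵥ v) = 0 := by rw [h, Matrix.mulVec_zero]
  rwa [Matrix.mulVec_mulVec, ← map_mul, inv_mul_cancel, map_one, Matrix.one_mulVec] at this

/-- transitivity -/
theorem rho0_trans (hirr : W.ModRepIsIrreducible 2) (v w : V2) (hv : v ≠ 0) (hw : w ≠ 0) :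
    ∃ g, rho0 b g *ᵥ v = w := by
  by_cases hvw : v = w
  · exact ⟨1, by rw [map_one, Matrix.one_mulVec, hvw]⟩
  obtain ⟨g, hg⟩ := exists_moves (b := b) hirr hv
  by_cases hgw : rho0 b g *ᵥ v = w
  · exact ⟨g, hgw⟩
  have hgv : rho0 b g *ᵥ v = v + w := third v w _ hv hw (mulVec_ne_zero g hv) hvw hg hgw
  obtain ⟨g', hg'⟩ := exists_moves (b := b) hirr hw
  by_cases hgw' : rho0 b g' *ᵥ w = v
  · refine ⟨g'⁻¹, ?_⟩
    rw [← hgw', Matrix.mulVec_mulVec, ← map_mul, inv_mul_cancel, map_one, Matrix.one_mulVec]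
  have hgv' : rho0 b g' *ᵥ w = v + w := third v w _ hv hw (mulVec_ne_zero g' hw) hvw hgw' hg'
  refine ⟨g'⁻¹ * g, ?_⟩
  rw [map_mul, ← Matrix.mulVec_mulVec, hgv, ← hgv', Matrix.mulVec_mulVec, ← map_mul,
    inv_mul_cancel, map_one, Matrix.one_mulVec]

theorem two_mem_bad (h : ZCurve W) : (⟨2, Nat.prime_two⟩ : Nat.Primes) ∈ bad W :=
  (mem_bad h.neg.ne).mpr h.two

theorem rho0_unr (h : ZCurve W) {p : Nat.Primes} (hp : p ∉ bad W) {A : ValuationSubring Qb}
    (hA : A.LiesOverPrime (p : ℕ)) : ∀ i ∈ A.inertiaSubgroupIn ℚ, rho0 b i = 1 := by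
  intro i hi
  rw [rho0_eq_one_iff]
  intro P hP
  refine smul_eq_of_good p.2 (fun hh => hp ((mem_bad h.neg.ne).mpr hh)) hA hi ?_ hP
  intro h2
  have h3 : (p : ℕ) = 2 := (Nat.prime_dvd_prime_iff_eq p.2 Nat.prime_two).mp h2
  apply hp
  have : p = ⟨2, Nat.prime_two⟩ := Subtype.ext h3
  rw [this]
  exact two_mem_bad h

theorem rho0_open (h : ZCurve W) :
    ∃ U : Subgroup GQ, IsOpen (U : Set GQ) ∧ ∀ u ∈ U, rho0 b u = 1 := by
  refine ⟨torsFix W 2, ZC.isOpen_of_levS (S := bad W) (torsFix_open h.neg.ne two_ne_zero ?_), ?_⟩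
  · intro q hq
    rw [mem_bad h.neg.ne] at hq
    refine ⟨hq, fun h2 => hq ?_⟩
    rw [(Nat.prime_dvd_prime_iff_eq q.2 Nat.prime_two).mp h2]
    exact h.two
  · exact fun u hu => (rho0_eq_one_iff b u).mpr hu

theorem good_bad (h : ZCurve W) {p : Nat.Primes} (hp : p ∈ bad W) :
    Good2 (rho0 b) (p : ℕ) := by
  have hΔ := h.neg.ne
  have hpΔ := (mem_bad hΔ).mp hp
  obtain ⟨A, hA⟩ := H05.exists_liesOverPrime Qb p.2
  refine good2_of p.2 hA ?_ ?_
  · have hns := exists_nonscalar_of_irr (p := 2) hΔ h.irr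
    obtain ⟨b', s, h1, h2, h3, h4, h5⟩ := exists_mult_structure 2 hΔ p.2 hpΔ
      (h.ss _ p.2 hpΔ) hns hA
    refine ⟨co b (redBasis b' 0), ?_, ?_⟩
    · intro h0
      rw [← co_zero (b := b)] at h0
      exact (redBasis b').ne_zero 0 (co_injective h0)
    · intro d hd
      rw [ValuationSubring.decompositionSubgroup, MulAction.mem_stabilizer_iff] at hd
      rw [co_rho, redBasis_apply, ← lev1_rr, h4 d hd, lev1_smul]
      have h6 : ∀ a : ZMod 2, a = 0 ∨ a = 1 := by decide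
      rcases h6 (PadicInt.toZMod (LinearMap.det (rr (WQ W) 2 d) * (s d : ℤ_[2]))) with h7 | h7
      · exfalso
        have h8 : rho0 b' d *ᵥ co b' (redBasis b' 0) = 0 := by
          rw [co_rho, redBasis_apply, ← lev1_rr, h4 d hd, lev1_smul, h7, zero_smul, co_zero]
        refine mulVec_ne_zero d ?_ h8
        intro h0
        rw [← co_zero (b := b')] at h0
        exact (redBasis b').ne_zero 0 (co_injective h0)
      · rw [h7, one_smul]
  · obtain ⟨σ, hσ, P, hP, hσP⟩ := exists_inertia_moves hΔ p.2 (h.odd p p.2 hpΔ) hA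
    exact ⟨σ, Z34.inertia_le_decomp A hσ, rho0_ne_one b hP hσP⟩

end

end Fermat.Agent.H07.Z2
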