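import Fermat.Agent.H07.Z2.Base
import Fermat.Agent.Ell.ZComp

set_option autoImplicit false
set_option linter.all false

/-!
# PROGRAM Z, package Z2: existence of the primes `q`
-/

namespace Fermat.Agent.H07.Z2

open Fermat.Agent.CC Fermat.Agent.TW
open Matrix
open WeierstrassCurve WeierstrassCurve.Affine WeierstrassCurve.Affine.Point
open Fermat.Agent.H08 Fermat.Agent.Frob Fermat.Agent.Ell
open Fermat.Agent.EGal hiding Qb GQ
open scoped Pointwise

variable {W : WeierstrassCurve ℤ}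

/-- The chosen basis. -/
theorem exists_base (h : ZCurve W) (_hell : (WQ W).IsElliptic) :
    ∃ (b : Module.Basis (Fin 2) ℤ_[2] (TT (WQ W) 2)) (l : Nat.Primes) (A : ValuationSubring Qb)
      (σ : GQ), l ∈ bad W ∧ A.LiesOverPrime (l : ℕ) ∧ σ ∈ A.inertiaSubgroupIn ℚ ∧
      mtx b (rr (WQ W) 2 σ) = !![1, 1; 0, 1] := by
  have hΔ := h.neg.ne
  obtain ⟨l0, hl0, hl4, hlΔ⟩ := h.three
  obtain ⟨A, hA⟩ := H05.exists_liesOverPrime Qb hl0
  have hl2 : l0 ≠ 2 := by rintro rfl; omega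
  have hns := exists_nonscalar_of_irr (p := 2) hΔ h.irr
  obtain ⟨σ, hσ, P, hP, hσP⟩ := exists_inertia_moves hΔ hl0 (h.odd l0 hl0 hlΔ) hA
  have hun := rr_unipotent (p := 2) hns hΔ hl0 hl2 (h.ss l0 hl0) hA hσ
  obtain ⟨w, hw⟩ := TateMod.exists_lift (pts_div (WQ W) 2) (n := 1) (x := P)
    (by rw [pow_one]; exact hP)
  set v := rr (WQ W) 2 σ w - w with hv
  have hσv : rr (WQ W) 2 σ v = v := by
    have h1 := congrArg (fun f : Module.End ℤ_[2] (TT (WQ W) 2) => f w) hun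
    change rr (WQ W) 2 σ (rr (WQ W) 2 σ w - w) - (rr (WQ W) 2 σ w - w) = 0 at h1
    exact sub_eq_zero.mp h1
  have hσw : rr (WQ W) 2 σ w = v + w := by rw [hv]; abel
  have hv0 : lev1 (WQ W) 2 v ≠ 0 := by
    intro h
    apply hσP
    have h1 : σ • w.1 1 - w.1 1 = 0 := congrArg Subtype.val h
    rw [← hw]
    exact sub_eq_zero.mp h1
  have hli : LinearIndependent (ZMod 2) ![lev1 (WQ W) 2 v, lev1 (WQ W) 2 w] := by
    rw [LinearIndependent.pair_iff]
    intro s t hst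
    have h1 := congrArg (rho (WQ W) 2 σ) hst
    rw [map_add, map_smul, map_smul, ← lev1_rr, ← lev1_rr, hσv, hσw, map_add, smul_add,
      _root_.map_zero] at h1
    have h2 : t • lev1 (WQ W) 2 v = 0 := by
      have : s • lev1 (WQ W) 2 v + (t • lev1 (WQ W) 2 v + t • lev1 (WQ W) 2 w) -
        (s • lev1 (WQ W) 2 v + t • lev1 (WQ W) 2 w) = 0 := by rw [h1, hst, sub_self]
      rw [← this]; abel
    have ht : t = 0 := (smul_eq_zero.mp h2).resolve_right hv0
    rw [ht, zero_smul, add_zero] at hst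
    exact ⟨(smul_eq_zero.mp hst).resolve_right hv0, ht⟩
  obtain ⟨b, hb0, hb1⟩ := exists_basis_of_lev1 hli
  have hσb0 : rr (WQ W) 2 σ (b 0) = b 0 := by rw [hb0, hσv]
  have hσb1 : rr (WQ W) 2 σ (b 1) = b 0 + b 1 := by rw [hb0, hb1, hσw]
  refine ⟨b, ⟨l0, hl0⟩, A, σ, (mem_bad hΔ).mpr hlΔ, hA, hσ, ?_⟩
  ext i j
  rw [mtx_apply]
  fin_cases j
  · change b.repr (rr (WQ W) 2 σ (b 0)) i = _
    rw [hσb0, b.repr_self]
    fin_cases i <;> simp
  · change b.repr (rr (WQ W) 2 σ (b 1)) i = _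
    rw [hσb1, map_add, b.repr_self, b.repr_self]
    fin_cases i <;> simp

section

variable [(WQ W).IsElliptic] {b : Module.Basis (Fin 2) ℤ_[2] (TT (WQ W) 2)}

/-- elements trivial modulo `2^m` fix the `2^m`-torsion -/
theorem mem_torsFix_of {m : ℕ} {g : GQ} (hg : rhoP (PadicInt.toZModPow m) b g = 1) :
    g ∈ torsFix W (2 ^ m) := by
  rw [mem_torsFix]
  intro P hP
  obtain ⟨w, hw⟩ := TateMod.exists_lift (pts_div (WQ W) 2) (n := m) (x := P) hP
  -- `g` is trivial mod `2 ^ m`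
  have h1 : ∀ j, ∃ v : TT (WQ W) 2, rr (WQ W) 2 g (b j) = b j + (2 : ℤ_[2]) ^ m • v := by
    intro j
    have h2 : ∀ i, ∃ c : ℤ_[2], b.repr (rr (WQ W) 2 g (b j)) i - b.repr (b j) i =
        (2 : ℤ_[2]) ^ m * c := by
      intro i
      have h3 := congrFun (congrFun hg i) j
      rw [rhoP_apply] at h3
      have h4 : b.repr (rr (WQ W) 2 g (b j)) i - b.repr (b j) i ∈
          RingHom.ker (PadicInt.toZModPow (p := 2) m) := by
        rw [RingHom.mem_ker, _root_.map_sub, h3, b.repr_self, Finsupp.single_apply,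
          Matrix.one_apply]
        by_cases hij : i = j
        · subst hij; simp
        · rw [if_neg hij, if_neg (fun h => hij h.symm), _root_.map_zero, sub_zero]
      rw [PadicInt.ker_toZModPow, Ideal.mem_span_singleton] at h4
      exact_mod_cast h4
    choose c hc using h2
    refine ⟨∑ i, c i • b i, ?_⟩
    apply b.repr.injective
    ext i
    rw [map_add, map_smul, Finsupp.add_apply, Finsupp.smul_apply, b.repr_sum_self, smul_eq_mul,
      ← hc i]
    ring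
  choose v hv using h1
  obtain ⟨a0, a1, h6⟩ : ∃ a0 a1 : ℤ_[2], w = a0 • b 0 + a1 • b 1 := by
    refine ⟨b.repr w 0, b.repr w 1, ?_⟩
    have := (b.sum_repr w).symm
    rwa [Fin.sum_univ_two] at this
  have h5 : rr (WQ W) 2 g w = w + (2 : ℤ_[2]) ^ m • (a0 • v 0 + a1 • v 1) := by
    rw [h6, map_add, map_smul, map_smul, hv 0, hv 1]
    module
  have h7 : g • w.1 m = (rr (WQ W) 2 g w).1 m := rfl
  rw [← hw, h7, h5]
  change w.1 m + ((2 : ℤ_[2]) ^ m • (a0 • v 0 + a1 • v 1)).1 m = w.1 m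
  have h8 : ((2 : ℤ_[2]) ^ m • (a0 • v 0 + a1 • v 1)).1 m = 0 := by
    have h9 : ((2 : ℤ_[2]) ^ m) = (((2 ^ m : ℕ)) : ℤ_[2]) := by push_cast; rfl
    rw [h9, TateMod.natCast_smul]
    exact TateMod.tors _ m
  rw [h8, add_zero]

theorem hom_unique (f g : ℤ_[2] →+* ZMod 2) (a : ℤ_[2]) : f a = g a := by
  have h1 : a - ((PadicInt.toZMod a).val : ℤ_[2]) ∈ RingHom.ker (PadicInt.toZMod (p := 2)) := by
    rw [RingHom.mem_ker, _root_.map_sub, map_natCast, ZMod.natCast_zmod_val, sub_self]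
  rw [PadicInt.ker_toZMod, PadicInt.maximalIdeal_eq_span_p, Ideal.mem_span_singleton] at h1
  obtain ⟨c, hc⟩ := h1
  have h2 : a = ((PadicInt.toZMod a).val : ℤ_[2]) + ((2 : ℕ) : ℤ_[2]) * c := by rw [← hc]; ring
  have h3 : ((2 : ℕ) : ZMod 2) = 0 := rfl
  rw [h2, map_add, map_add, map_mul, map_mul, map_natCast, map_natCast, map_natCast, map_natCast,
    h3, zero_mul, zero_mul]

/-- a Selmer cocycle which vanishes on the kernel of `ρ_m` is a coboundary -/
theorem cob_of_torsFix (h : ZCurve W) {l : Nat.Primes} {A : ValuationSubring Qb} {σ : GQ}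
    (hl : l ∈ bad W) (hA : A.LiesOverPrime (l : ℕ)) (hσ : σ ∈ A.inertiaSubgroupIn ℚ)
    (hσb : mtx b (rr (WQ W) 2 σ) = !![1, 1; 0, 1]) {m : ℕ} (hm : m ≠ 0)
    {S : Finset Nat.Primes} (hS : bad W ⊆ S) {x : GQ → V2} (hx : SelC (rho0 b) S x)
    (hx0 : ∀ n ∈ torsFix W (2 ^ m), x n = 0) :
    ∃ w, ∀ g, x g = cb (rho0 b) w g := by
  have hf : ∀ a : ZMod (2 ^ m), ZMod.castHom (dvd_pow_self 2 hm) (ZMod 2) a ≠ 0 → IsUnit a := by
    intro a ha
    haveI : NeZero (2 ^ m) := ⟨pow_ne_zero _ two_ne_zero⟩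
    rw [← ZMod.natCast_zmod_val a, map_natCast] at ha
    rw [← ZMod.natCast_zmod_val a, ZMod.isUnit_iff_coprime]
    apply Nat.Coprime.pow_right
    rw [Nat.coprime_two_right]
    rw [Nat.odd_iff]
    by_contra h2
    apply ha
    have h3 : 2 ∣ a.val := by omega
    exact (ZMod.natCast_eq_zero_iff _ _).mpr h3
  have hρσ : rho0 b σ = !![1, 1; 0, 1] := by
    rw [rho0_apply, hσb]
    ext i j
    fin_cases i <;> fin_cases j <;> simp
  obtain ⟨g0, hg0⟩ := rho0_trans (b := b) h.irr ![1, 0] ![0, 1] (by decide) (by decide)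
  refine isCob_of (ρ0 := rho0 b) (ρm := rhoP (PadicInt.toZModPow m) b)
    (f := ZMod.castHom (dvd_pow_self 2 hm) (ZMod 2)) hf ?_ ?_ hx.isC ?_ (σ := σ) (g0 := g0) ?_ ?_ ?_
  · intro t
    haveI : NeZero (2 ^ m) := ⟨pow_ne_zero _ two_ne_zero⟩
    exact ⟨t.val, ZMod.natCast_zmod_val t⟩
  · intro g
    ext i j
    rw [Matrix.map_apply, rhoP_apply, rho0_apply, Matrix.map_apply, mtx_apply]
    exact hom_unique _ ((ZMod.castHom (dvd_pow_self 2 hm) (ZMod 2)).comp (PadicInt.toZModPow m)) _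
  · intro g hg
    exact hx0 g (mem_torsFix_of hg)
  · change (mtx b (rr (WQ W) 2 σ)).map (PadicInt.toZModPow m) = _
    rw [hσb]
    ext i j
    fin_cases i <;> fin_cases j <;> simp
  · intro h0
    have h1 := congrFun hg0 1
    simp [Matrix.mulVec, dotProduct, Fin.sum_univ_two] at h1
    rw [h0] at h1
    exact zero_ne_one h1
  · intro g
    have hgA : (g • A).LiesOverPrime (l : ℕ) := (H05.liesOverPrime_smul_iff g A l).mpr hA
    obtain ⟨⟨e, he, hfix⟩, hg⟩ := good_bad (b := b) h hl _ hgA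
    obtain ⟨w, hw⟩ := hx.line (hS hl) hgA he hfix hg
    have hτ : g * σ * g⁻¹ ∈ (g • A).decompositionSubgroup ℚ :=
      dec_conj' g (Z34.inertia_le_decomp A hσ)
    have hτ1 : rho0 b (g * σ * g⁻¹) ≠ 1 := by
      intro h1
      have h2 : rho0 b σ = rho0 b g⁻¹ * rho0 b (g * σ * g⁻¹) * rho0 b g := by
        rw [← map_mul, ← map_mul]; congr 1; group
      rw [h1, mul_one, ← map_mul, inv_mul_cancel, map_one, hρσ] at h2
      exact absurd h2 (by decide)
    obtain ⟨i, rfl⟩ := exists_ev e he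
    have h1 := hw _ hτ
    rw [← range_sub (rho0 b (g * σ * g⁻¹)) (det_rho _ _) hτ1 i (hfix _ hτ)] at h1
    obtain ⟨w', hw'⟩ := h1
    refine ⟨w + w', ?_⟩
    rw [cb_add]
    have h2 : x (g * σ * g⁻¹) = cb (rho0 b) w (g * σ * g⁻¹) +
        (x (g * σ * g⁻¹) + cb (rho0 b) w (g * σ * g⁻¹)) := by
      have := V2_add_self (cb (rho0 b) w (g * σ * g⁻¹))
      calc x (g * σ * g⁻¹) = x (g * σ * g⁻¹) + (cb (rho0 b) w (g * σ * g⁻¹) +
          cb (rho0 b) w (g * σ * g⁻¹)) := by rw [this, add_zero]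
        _ = _ := by abel
    rw [h2, hw']
    rfl

theorem torsFix_le {m : ℕ} (hm : m ≠ 0) {n : GQ} (hn : n ∈ torsFix W (2 ^ m)) :
    rho0 b n = 1 := by
  rw [rho0_eq_one_iff]
  intro P hP
  apply hn
  obtain ⟨k, rfl⟩ := Nat.exists_eq_succ_of_ne_zero hm
  rw [pow_succ, mul_smul, hP, nsmul_zero]

theorem torsFix_isOpen (h : ZCurve W) (m : ℕ) : IsOpen (torsFix W (2 ^ m) : Set GQ) := by
  refine ZC.isOpen_of_levS (S := bad W) (torsFix_open h.neg.ne (pow_ne_zero _ two_ne_zero) ?_)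
  intro q hq
  rw [mem_bad h.neg.ne] at hq
  refine ⟨hq, fun h2 => hq ?_⟩
  rw [(Nat.prime_dvd_prime_iff_eq q.2 Nat.prime_two).mp (q.2.dvd_of_dvd_pow h2)]
  exact h.two

theorem nsmul_smul' (g : GQ) (n : ℕ) (P : Pts (WQ W)) : n • (g • P) = g • (n • P) :=
  (N4.smul_nsmul_pt g n P).symm

theorem nsmul_smul0 (g : GQ) {n : ℕ} {P : Pts (WQ W)} (h : n • P = 0) : n • (g • P) = 0 := by
  rw [nsmul_smul', h]
  exact H09.smul_zero_pt g

/-- **Chebotarev step** -/
theorem frob_of (h : ZCurve W) {m : ℕ} (hm : m ≠ 0) {U : Subgroup GQ}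
    (hU : IsOpen (U : Set GQ)) {n : GQ} (hn : n ∈ torsFix W (2 ^ m)) (T : Finset Nat.Primes) :
    ∃ q : Nat.Primes, q ∉ T ∧ ∃ A : ValuationSubring Qb, A.LiesOverPrime (q : ℕ) ∧
      ∃ φ : GQ, A.IsFrobeniusAt φ (q : ℕ) ∧ CFrob W m φ ∧
      rho0 b φ = rho0 b complexConjugation ∧
      ∃ (k : ℕ) (u : GQ), u ∈ U ∧ rho0 b u = 1 ∧
        φ = (n * complexConjugation) ^ (2 * k + 1) * u := by
  classical
  set c := complexConjugation with hc
  have hcc : c * c = 1 := complexConjugation_mul_self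
  set g := n * c with hg
  have hV : IsOpen ((U ⊓ torsFix W (2 ^ m) : Subgroup GQ) : Set GQ) := by
    rw [Subgroup.coe_inf]
    exact hU.inter (torsFix_isOpen h m)
  obtain ⟨F, hF, hFV⟩ := lev_isOpen_iff.mpr hV
  haveI := hF
  obtain ⟨q, hq, hqT, A, hA, φ, hφ, a, a', h1, h2⟩ :=
    H25.exists_frobenius F (T.image (fun q : Nat.Primes => (q : ℕ))) g
  have hu : (g ^ a)⁻¹ * φ ∈ F.fixingSubgroup := by
    rw [IntermediateField.mem_fixingSubgroup_iff]
    intro x hx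
    rw [AlgEquiv.mul_apply, h1 x hx, ← AlgEquiv.mul_apply, inv_mul_cancel, AlgEquiv.one_apply]
  have hu' : (φ ^ a')⁻¹ * g ∈ F.fixingSubgroup := by
    rw [IntermediateField.mem_fixingSubgroup_iff]
    intro x hx
    rw [AlgEquiv.mul_apply, h2 x hx, ← AlgEquiv.mul_apply, inv_mul_cancel, AlgEquiv.one_apply]
  obtain ⟨huU, huN⟩ := hFV hu
  obtain ⟨-, huN'⟩ := hFV hu'
  set u := (g ^ a)⁻¹ * φ with hu_def
  have hφu : φ = g ^ a * u := by rw [hu_def]; group
  have hρu : rho0 b u = 1 := torsFix_le hm huN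
  have hρg : rho0 b g = rho0 b c := by rw [hg, map_mul, torsFix_le hm hn, one_mul]
  have hρcc : rho0 b c * rho0 b c = 1 := by rw [← map_mul, hcc, map_one]
  have hρφ : rho0 b φ = rho0 b c ^ a := by rw [hφu, map_mul, hρu, mul_one, map_pow, hρg]
  have hρg' : rho0 b c = rho0 b φ ^ a' := by
    have h3 := torsFix_le (b := b) hm huN'
    have h4 : g = φ ^ a' * ((φ ^ a')⁻¹ * g) := by group
    have h5 : rho0 b g = rho0 b φ ^ a' := by
      conv_lhs => rw [h4]
      rw [map_mul, h3, mul_one, map_pow]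
    rw [← hρg, h5]
  have hodd : ¬ Even a := by
    rintro ⟨j, hj⟩
    have h3 : rho0 b φ = 1 := by
      rw [hρφ, hj, ← two_mul, pow_mul, pow_two, hρcc, one_pow]
    rw [h3, one_pow] at hρg'
    exact rho0_cc_ne h.neg hρg'
  rw [Nat.not_even_iff_odd] at hodd
  obtain ⟨k, rfl⟩ := hodd
  have hρφ' : rho0 b φ = rho0 b c := by
    rw [hρφ, pow_succ, pow_mul, pow_two, hρcc, one_pow, one_mul]
  refine ⟨⟨q, hq⟩, ?_, A, hA, φ, hφ, ⟨c, hcc, cc_moves h.neg, ?_⟩, hρφ', k, u, huU, hρu, hφu⟩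
  · intro hmem
    exact hqT (Finset.mem_image_of_mem (fun q : Nat.Primes => (q : ℕ)) hmem)
  · intro P hP
    have h3 : ∀ P : Pts (WQ W), 2 ^ m • P = 0 → g • P = c • P := by
      intro P hP
      rw [hg, mul_smul]
      apply hn
      exact nsmul_smul0 c hP
    have h4 : ∀ (j : ℕ) (P : Pts (WQ W)), 2 ^ m • P = 0 → g ^ (2 * j) • P = P := by
      intro j
      induction j with
      | zero => intro P _; rw [mul_zero, pow_zero, one_smul]
      | succ j ih =>
        intro P hP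
        have hcP : 2 ^ m • (c • P) = 0 := nsmul_smul0 c hP
        rw [mul_add, mul_one, pow_add, mul_smul, pow_two, mul_smul, h3 P hP, h3 _ hcP,
          ← mul_smul c c P, hcc, one_smul]
        exact ih P hP
    rw [hφu, mul_smul, huN P hP, pow_succ, mul_smul, h3 P hP]
    exact h4 k _ (nsmul_smul0 c hP)

end

end Fermat.Agent.H07.Z2
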