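import Fermat.Agent.H07.Z2.LocF
import Fermat.Agent.H05_Frob
import Fermat.Prelude.Def_GaloisRep_ComplexConjugation

set_option autoImplicit false
set_option linter.all false

/-!
# PROGRAM Z, package Z2: the embeddings `Fix(D_A) → ℚ_p` and `Fix(c) → ℝ`
-/

namespace Fermat.Agent.H07.Z2

open Fermat.Agent.L00.HilbQ Fermat.Agent.CC
open scoped Pointwise NNReal

/-- existence of a place and an embedding. -/
theorem exists_place_emb (p : ℕ) [hp : Fact p.Prime] :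
    ∃ (A : ValuationSubring Qb) (ι : Qb →+* PadicAlgCl p), A.LiesOverPrime p ∧
      ∀ x, x ∈ A ↔ ‖ι x‖ ≤ 1 := by
  let ι0 : Qb →ₐ[ℚ] PadicAlgCl p := IsAlgClosed.lift
  let ι : Qb →+* PadicAlgCl p := ι0
  let V : ValuationSubring (PadicAlgCl p) := (Valued.v : Valuation (PadicAlgCl p) ℝ≥0).valuationSubring
  have hV : ∀ x, x ∈ V ↔ ‖x‖ ≤ 1 := by
    intro x
    change Valued.v x ≤ 1 ↔ _
    rw [← NNReal.coe_le_coe, PadicAlgCl.valuation_coe]; rfl
  refine ⟨V.comap ι, ι, ?_, fun x => by rw [ValuationSubring.mem_comap, hV]⟩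
  have h1 : (p : Qb) ∈ V.comap ι := by
    rw [ValuationSubring.mem_comap, hV, map_natCast]
    have : ((p : PadicAlgCl p)) = algebraMap ℚ_[p] (PadicAlgCl p) (p : ℚ_[p]) := by
      rw [map_natCast]
    rw [this]
    have h2 := PadicAlgCl.norm_extends p (p : ℚ_[p])
    rw [h2]
    exact (Padic.norm_p_lt_one).le
  change (p : Qb) ∈ (V.comap ι).nonunits
  rw [ValuationSubring.mem_nonunits_iff_exists_mem_maximalIdeal]
  refine ⟨h1, ?_⟩
  rw [IsLocalRing.mem_maximalIdeal, mem_nonunits_iff]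
  intro hu
  have h3 : ((p : Qb))⁻¹ ∈ V.comap ι := by
    obtain ⟨u, hu⟩ := hu
    have h4 : ((u⁻¹ : (V.comap ι)ˣ) : Qb) = ((p : Qb))⁻¹ := by
      have h5 : ((u : V.comap ι) : Qb) * ((u⁻¹ : (V.comap ι)ˣ) : V.comap ι) = 1 := by
        rw [← MulMemClass.coe_mul, ← Units.val_mul, mul_inv_cancel]; rfl
      rw [hu] at h5
      exact eq_inv_of_mul_eq_one_right h5
    rw [← h4]
    exact ((u⁻¹ : (V.comap ι)ˣ) : V.comap ι).2
  rw [ValuationSubring.mem_comap, hV, map_inv₀, map_natCast] at h3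
  have : ((p : PadicAlgCl p)) = algebraMap ℚ_[p] (PadicAlgCl p) (p : ℚ_[p]) := by
    rw [map_natCast]
  rw [this, norm_inv] at h3
  have h2 := PadicAlgCl.norm_extends p (p : ℚ_[p])
  rw [h2] at h3
  have h6 := Padic.norm_p_lt_one (p := p)
  have h7 : 0 < ‖(p : ℚ_[p])‖ := norm_pos_iff.mpr (by exact_mod_cast hp.out.ne_zero)
  have h8 : (1 : ℝ) < ‖(p : ℚ_[p])‖⁻¹ := (one_lt_inv₀ h7).mpr h6
  linarith

theorem exists_padic_emb {p : ℕ} [hp : Fact p.Prime] {A : ValuationSubring Qb}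
    (hA : A.LiesOverPrime p) : ∃ ι : Qb →+* PadicAlgCl p, (∀ x, x ∈ A ↔ ‖ι x‖ ≤ 1) ∧
      IsLoc ℚ_[p] (A.decompositionSubgroup ℚ) ι := by
  haveI := H51.isGalois_Qbar
  obtain ⟨A0, ι0, hA0, h0⟩ := exists_place_emb p
  obtain ⟨σ, hσ⟩ := H05.exists_smul_eq hp.out hA hA0
  -- x ∈ A ↔ σ x ∈ A0
  have h1 : ∀ x, x ∈ A ↔ ‖ι0 (σ x)‖ ≤ 1 := by
    intro x
    rw [← h0, ← hσ]
    exact (ValuationSubring.smul_mem_pointwise_smul_iff (g := σ) (S := A) (x := x)).symm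
  refine ⟨ι0.comp (σ : Qb →+* Qb), h1, ?_⟩
  intro z hz
  set ι : Qb →+* PadicAlgCl p := ι0.comp (σ : Qb →+* Qb) with hι
  have hgal : IsGalois ℚ_[p] (PadicAlgCl p) := by
    haveI : Normal ℚ_[p] (PadicAlgCl p) := IsAlgClosure.normal ℚ_[p] (AlgebraicClosure ℚ_[p])
    exact ⟨⟩
  have h2 : (ι z) ∈ Set.range (algebraMap ℚ_[p] (PadicAlgCl p)) := by
    rw [InfiniteGalois.mem_range_algebraMap_iff_fixed]
    intro g
    -- restriction of g to Qb
    letI : Algebra Qb (PadicAlgCl p) := ι.toAlgebra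
    haveI : IsScalarTower ℚ Qb (PadicAlgCl p) := IsScalarTower.of_algebraMap_eq' (Subsingleton.elim _ _)
    haveI : Normal ℚ Qb := inferInstance
    let g' : PadicAlgCl p ≃ₐ[ℚ] PadicAlgCl p := AlgEquiv.ofRingEquiv (f := (g : PadicAlgCl p ≃+* PadicAlgCl p))
      fun x => by simp
    let d : GQ := g'.restrictNormal Qb
    have hd : ∀ x, ι (d x) = g (ι x) := fun x => AlgEquiv.restrictNormal_commutes g' Qb x
    have hdD : d ∈ A.decompositionSubgroup ℚ := by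
      rw [ValuationSubring.decompositionSubgroup, MulAction.mem_stabilizer_iff]
      ext x
      rw [ValuationSubring.mem_pointwise_smul_iff_inv_smul_mem, AlgEquiv.smul_def]
      rw [h1, h1]
      change ‖ι (d⁻¹ x)‖ ≤ 1 ↔ ‖ι x‖ ≤ 1
      have h3 : ‖ι (d⁻¹ x)‖ = ‖ι x‖ := by
        have h4 : ι x = g (ι (d⁻¹ x)) := by
          rw [← hd, ← AlgEquiv.mul_apply, mul_inv_cancel, AlgEquiv.one_apply]
        rw [h4]
        exact spectralNorm_eq_of_equiv g (ι (d⁻¹ x))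
      rw [h3]
    rw [← hd, hz d hdD]
  exact h2

/-- the real place -/
theorem isLoc_real : IsLoc ℝ (Subgroup.zpowers complexConjugation)
    (complexEmbedding : Qb →+* ℂ) := by
  intro z hz
  have h1 := complexEmbedding_complexConjugation z
  rw [hz _ (Subgroup.mem_zpowers _)] at h1
  obtain ⟨r, hr⟩ := Complex.conj_eq_iff_real.mp h1.symm
  exact ⟨r, hr.symm⟩

end Fermat.Agent.H07.Z2
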