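import Fermat.Agent.H07.Z2.Tw
import Fermat.Agent.H12.Hilbert90

set_option autoImplicit false
set_option linter.all false

/-!
# PROGRAM Z, package Z2: existence of the twisted vectors
-/

namespace Fermat.Agent.H07.Z2

open Fermat.Agent.L00.HilbQ Fermat.Agent.CC

variable {π : GQ →* Equiv.Perm (Fin 3)}

/-- the roots -/
theorem exists_T (htr : ∀ i, ∃ σ, π σ 0 = i) (hop : IsOpen (π.ker : Set GQ)) :
    ∃ T : Fin 3 → Qb, Function.Injective T ∧ ∀ (σ : GQ) i, σ (T i) = T (π σ i) := by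
  haveI := H51.isGalois_Qbar
  set H : Subgroup GQ := (MulAction.stabilizer (Equiv.Perm (Fin 3)) (0 : Fin 3)).comap π with hH
  have hmem : ∀ σ, σ ∈ H ↔ π σ 0 = 0 := fun σ => Iff.rfl
  have hle : π.ker ≤ H := fun σ hσ => by
    rw [hmem]; rw [MonoidHom.mem_ker] at hσ; rw [hσ]; rfl
  have hHo : IsOpen (H : Set GQ) := Subgroup.isOpen_mono hle hop
  have hHc : IsClosed (H : Set GQ) := Subgroup.isClosed_of_isOpen H hHo
  set F : IntermediateField ℚ Qb := IntermediateField.fixedField H with hF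
  have hFix : F.fixingSubgroup = H := InfiniteGalois.fixingSubgroup_fixedField ⟨H, hHc⟩
  haveI hfd : FiniteDimensional ℚ F := by
    rw [← InfiniteGalois.isOpen_iff_finite, hFix]
    exact hHo
  obtain ⟨θ, hθ⟩ := Field.exists_primitive_element ℚ F
  have hstab : ∀ σ : GQ, σ (θ : Qb) = θ → σ ∈ H := by
    intro σ hσ
    rw [← hFix, IntermediateField.mem_fixingSubgroup_iff]
    intro x hx
    have h1 : (⟨x, hx⟩ : F) ∈ IntermediateField.adjoin ℚ {θ} := by rw [hθ]; trivial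
    have h2 : ∀ y : F, y ∈ IntermediateField.adjoin ℚ {θ} → σ (y : Qb) = y := by
      intro y hy
      induction hy using IntermediateField.adjoin_induction with
      | mem x hx =>
        rw [Set.mem_singleton_iff] at hx
        rw [hx, hσ]
      | algebraMap x => exact AlgEquiv.commutes σ x
      | add x y _ _ hx hy => rw [AddMemClass.coe_add, map_add, hx, hy]
      | inv x _ hx =>
        rw [show ((x⁻¹ : F) : Qb) = (x : Qb)⁻¹ from rfl, map_inv₀, hx]
      | mul x y _ _ hx hy => rw [MulMemClass.coe_mul, map_mul, hx, hy]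
    exact h2 _ h1
  have hfixθ : ∀ σ ∈ H, σ (θ : Qb) = θ := fun σ hσ => θ.2 ⟨σ, hσ⟩
  choose s hs using htr
  refine ⟨fun i => s i θ, ?_, ?_⟩
  · intro i j hij
    have h1 : (s j)⁻¹ * s i ∈ H := by
      apply hstab
      rw [AlgEquiv.mul_apply]
      change (s j)⁻¹ (s i θ) = θ
      rw [show s i θ = s j θ from hij, ← AlgEquiv.mul_apply, inv_mul_cancel, AlgEquiv.one_apply]
    rw [hmem, map_mul, Equiv.Perm.mul_apply, hs, map_inv, Equiv.Perm.inv_eq_iff_eq, hs] at h1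
    exact h1
  · intro σ i
    have h1 : (s (π σ i))⁻¹ * (σ * s i) ∈ H := by
      rw [hmem, map_mul, Equiv.Perm.mul_apply, map_mul, Equiv.Perm.mul_apply, hs, map_inv,
        Equiv.Perm.inv_eq_iff_eq, hs]
    have h2 := hfixθ _ h1
    rw [AlgEquiv.mul_apply] at h2
    have h3 := congrArg (s (π σ i)) h2
    rw [← AlgEquiv.mul_apply, mul_inv_cancel, AlgEquiv.one_apply, AlgEquiv.mul_apply] at h3
    exact h3

/-- twisted cocycle -/
structure Coc (π : GQ →* Equiv.Perm (Fin 3)) (ε : GQ → Fin 3 → Qb) : Prop where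
  sgn : ∀ σ, Sgn (ε σ)
  mul : ∀ σ τ i, ε (σ * τ) (π σ i) = ε σ (π σ i) * ε τ i
  cont : ∃ U : Subgroup GQ, IsOpen (U : Set GQ) ∧ ∀ u ∈ U, ∀ i, ε u i = 1

theorem Coc.one : Coc π (fun _ _ => 1) :=
  ⟨fun _ => Sgn.one, fun _ _ _ => by simp, ⊤, isOpen_univ, fun _ _ _ => rfl⟩

theorem Coc.mulC {ε ε' : GQ → Fin 3 → Qb} (h : Coc π ε) (h' : Coc π ε') :
    Coc π (fun σ i => ε σ i * ε' σ i) where
  sgn σ := (h.sgn σ).mul (h'.sgn σ)
  mul σ τ i := by
    rw [h.mul, h'.mul]; ring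
  cont := by
    obtain ⟨U, hU, h1⟩ := h.cont
    obtain ⟨U', hU', h1'⟩ := h'.cont
    exact ⟨U ⊓ U', hU.inter hU', fun u hu i => by rw [h1 u hu.1, h1' u hu.2, mul_one]⟩

/-- Hilbert 90 -/
theorem Coc.exists_b {ε : GQ → Fin 3 → Qb} (h : Coc π ε) (htr : ∀ i, ∃ σ, π σ 0 = i) :
    ∃ b : Fin 3 → Qb, (∀ i, b i ≠ 0) ∧ Tw π ⊤ ε b := by
  haveI := H51.isGalois_Qbar
  set H : Subgroup GQ := (MulAction.stabilizer (Equiv.Perm (Fin 3)) (0 : Fin 3)).comap π with hH
  have hmem : ∀ σ, σ ∈ H ↔ π σ 0 = 0 := fun σ => Iff.rfl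
  obtain ⟨U, hU, hU1⟩ := h.cont
  obtain ⟨u, hu0, hu⟩ := H12.hilbert90' (K := ℚ) (L := Qb) H (fun σ => ε σ 0)
    (fun σ _ => (h.sgn σ).ne_zero 0) (by
      intro σ hσ τ hτ
      have := h.mul σ τ 0
      rw [(hmem σ).mp hσ] at this
      rw [this, (h.sgn τ).map]) U hU (fun σ _ hσ => hU1 σ hσ 0)
  choose s hs using htr
  refine ⟨fun i => ε (s i) i * s i u, ?_, ?_⟩
  · intro i
    exact mul_ne_zero ((h.sgn _).ne_zero i) ((map_ne_zero (s i)).mpr hu0)
  · intro σ _ i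
    simp only
    set j := π σ i with hj
    set t := (s j)⁻¹ * (σ * s i) with ht
    have ht0 : t ∈ H := by
      rw [hmem, ht, map_mul, Equiv.Perm.mul_apply, map_mul, Equiv.Perm.mul_apply, hs, map_inv,
        Equiv.Perm.inv_eq_iff_eq, hs]
    have h1 : σ * s i = s j * t := by rw [ht, mul_inv_cancel_left]
    have h2 : σ (s i u) = ε t 0 * s j u := by
      rw [← AlgEquiv.mul_apply, h1, AlgEquiv.mul_apply, hu t ht0, map_mul, (h.sgn t).map]
    have h3 := h.mul σ (s i) i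
    have h4 := h.mul (s j) t 0
    rw [hs j] at h4
    rw [h1, ← hj, h4] at h3
    rw [map_mul, (h.sgn _).map, h2]
    have e1 := (h.sgn (s i)).sq i
    have e2 := (h.sgn (s j)).sq j
    linear_combination (ε t 0 * (s j) u * ε (s i) i) * (-e2) + (ε (s j) j * (s j) u * ε (s i) i) * h3
      + (ε σ j * ε (s j) j * (s j) u) * e1

section Exist

variable {T : Fin 3 → Qb} (hT : ∀ (σ : GQ) i, σ (T i) = T (π σ i)) (hTi : Function.Injective T)

include hT in
theorem tw_pow {ε : GQ → Fin 3 → Qb} {b : Fin 3 → Qb} {D : Subgroup GQ} (hb : Tw π D ε b) (n : ℕ) :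
    Tw π D ε (fun i => b i * T i ^ n) := by
  intro d hd i
  simp only
  rw [map_mul, map_pow, hb d hd, hT]; ring

/-- the Gram determinant -/
theorem gram_ne {b : Fin 3 → Qb} (hb : ∀ i, b i ≠ 0) (hTi : Function.Injective T) :
    (Matrix.of fun m n : Fin 3 => B (wt T) (fun i => b i * T i ^ (m : ℕ))
      (fun i => b i * T i ^ (n : ℕ))).det ≠ 0 := by
  have h1 : (Matrix.of fun m n : Fin 3 => B (wt T) (fun i => b i * T i ^ (m : ℕ))
      (fun i => b i * T i ^ (n : ℕ))).det = wt T 0 * wt T 1 * wt T 2 *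
        (b 0 * b 1 * b 2) ^ 2 * (dl T) ^ 2 := by
    rw [Matrix.det_fin_three]
    simp only [Matrix.of_apply, B, Fin.sum_univ_three, dl, Fin.val_zero, Fin.val_one, Fin.val_two]
    ring
  rw [h1]
  refine mul_ne_zero (mul_ne_zero (mul_ne_zero (mul_ne_zero ?_ ?_) ?_) ?_) ?_
  · exact wt_ne hTi 0
  · exact wt_ne hTi 1
  · exact wt_ne hTi 2
  · exact pow_ne_zero _ (mul_ne_zero (mul_ne_zero (hb 0) (hb 1)) (hb 2))
  · exact pow_ne_zero _ (dl_ne hTi)

theorem B_eq_zero_of {g : Fin 3 → Qb} {y : Fin 3 → Fin 3 → Qb} (h1 : ∀ m, B g (y m) (y m) = 0)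
    (h2 : ∀ m n, B g (y m + y n) (y m + y n) = 0) (m n : Fin 3) : B g (y m) (y n) = 0 := by
  have := h2 m n
  rw [B_add_left, B_add_right, B_add_right, h1, h1, B_comm g (y n) (y m)] at this
  have h3 : (2 : Qb) * B g (y m) (y n) = 0 := by linear_combination this
  exact (mul_eq_zero.mp h3).resolve_left two_ne_zero

include hT hTi in
theorem exists_aniso {ε : GQ → Fin 3 → Qb} {b : Fin 3 → Qb} {D : Subgroup GQ} (hb : Tw π D ε b)
    (hb0 : ∀ i, b i ≠ 0) : ∃ z, Tw π D ε z ∧ B (wt T) z z ≠ 0 := by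
  by_contra hcon
  push Not at hcon
  set y : Fin 3 → Fin 3 → Qb := fun m i => b i * T i ^ (m : ℕ) with hy
  have hyt : ∀ m, Tw π D ε (y m) := fun m => tw_pow hT hb m
  have h1 := B_eq_zero_of (g := wt T) (fun m => hcon _ (hyt m))
    (fun m n => hcon _ ((hyt m).add (hyt n)))
  apply gram_ne hb0 hTi
  have h2 : (Matrix.of fun m n : Fin 3 => B (wt T) (fun i => b i * T i ^ (m : ℕ))
      (fun i => b i * T i ^ (n : ℕ))) = 0 := by
    ext m n
    exact h1 m n
  rw [h2, Matrix.det_zero]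

include hT hTi in
theorem exists_second {ε : GQ → Fin 3 → Qb} (hε : ∀ d, Sgn (ε d)) {b : Fin 3 → Qb}
    {D : Subgroup GQ} (hb : Tw π D ε b)
    (hb0 : ∀ i, b i ≠ 0) {z : Fin 3 → Qb} (hz : Tw π D ε z) (hz0 : B (wt T) z z ≠ 0) :
    ∃ z', Tw π D ε z' ∧ B (wt T) z z' = 0 ∧ B (wt T) z' z' ≠ 0 := by
  by_contra hcon
  push Not at hcon
  set e : Fin 3 → Fin 3 → Qb := fun m i => b i * T i ^ (m : ℕ) with he
  have het : ∀ m, Tw π D ε (e m) := fun m => tw_pow hT hb m
  set y : Fin 3 → Fin 3 → Qb := fun m => e m - (B (wt T) (e m) z / B (wt T) z z) • z with hy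
  have hyt : ∀ m, Tw π D ε (y m) := fun m => (het m).sub (hz.smul (by
    intro d hd
    rw [map_div₀, Tw.B_fixed hT hε (het m) hz d hd, Tw.B_fixed hT hε hz hz d hd]))
  have hyo : ∀ m, B (wt T) z (y m) = 0 := by
    intro m
    rw [hy]
    simp only
    rw [B_sub_right, B_smul_right, B_comm _ z (e m), div_mul_cancel₀ _ hz0, sub_self]
  have h1 := B_eq_zero_of (g := wt T) (fun m => hcon _ (hyt m) (hyo m))
    (fun m n => hcon _ ((hyt m).add (hyt n)) (by rw [B_add_right, hyo, hyo, add_zero]))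
  apply gram_ne hb0 hTi
  have h2 : ∀ m n, B (wt T) (e m) (e n) =
      B (wt T) (e m) z * B (wt T) (e n) z / B (wt T) z z := by
    intro m n
    have := h1 m n
    rw [hy] at this
    simp only at this
    rw [B_sub_left, B_sub_right, B_sub_right, B_smul_left, B_smul_left, B_smul_right,
      B_smul_right, B_comm _ z (e n)] at this
    field_simp at this ⊢
    linear_combination this
  rw [Matrix.det_fin_three]
  simp only [Matrix.of_apply]
  change B (wt T) (e 0) (e 0) * B (wt T) (e 1) (e 1) * B (wt T) (e 2) (e 2) -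
    B (wt T) (e 0) (e 0) * B (wt T) (e 1) (e 2) * B (wt T) (e 2) (e 1) -
    B (wt T) (e 0) (e 1) * B (wt T) (e 1) (e 0) * B (wt T) (e 2) (e 2) +
    B (wt T) (e 0) (e 1) * B (wt T) (e 1) (e 2) * B (wt T) (e 2) (e 0) +
    B (wt T) (e 0) (e 2) * B (wt T) (e 1) (e 0) * B (wt T) (e 2) (e 1) -
    B (wt T) (e 0) (e 2) * B (wt T) (e 1) (e 1) * B (wt T) (e 2) (e 0) = 0
  simp only [h2]
  ring

end Exist

end Fermat.Agent.H07.Z2
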