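import Fermat.Agent.H07.Z2.Cheb

set_option autoImplicit false
set_option linter.all false

/-!
# PROGRAM Z, package Z2: a prime detecting a given cocycle
-/

namespace Fermat.Agent.H07.Z2

open Fermat.Agent.CC Fermat.Agent.TW
open Matrix
open WeierstrassCurve WeierstrassCurve.Affine WeierstrassCurve.Affine.Point
open Fermat.Agent.H08 Fermat.Agent.Frob Fermat.Agent.Ell
open Fermat.Agent.EGal hiding Qb GQ
open scoped Pointwise

theorem exists_fix : ∀ M : M22, M * M = 1 → ∃ i : Fin 3, M *ᵥ ev i = ev i := by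
  intro M
  rw [Matrix.eta_fin_two M]
  generalize M 0 0 = m00
  generalize M 0 1 = m01
  generalize M 1 0 = m10
  generalize M 1 1 = m11
  revert m00 m01 m10 m11
  decide

variable {ρ0 : GQ →* M22}

/-- values of a cocycle on odd powers -/
theorem val_odd {x : GQ → V2} (hx : IsC ρ0 x) {g : GQ} (hg : ρ0 g * ρ0 g = 1) (k : ℕ) :
    ρ0 (g ^ (2 * k)) = 1 ∧ ρ0 g *ᵥ x (g ^ (2 * k)) = x (g ^ (2 * k)) := by
  induction k with
  | zero => rw [mul_zero, pow_zero, map_one, hx.one, Matrix.mulVec_zero]; exact ⟨rfl, rfl⟩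
  | succ k ih =>
    have h1 : ρ0 (g ^ (2 * (k + 1))) = 1 := by
      rw [mul_add, mul_one, pow_add, map_mul, ih.1, one_mul, pow_two, map_mul, hg]
    refine ⟨h1, ?_⟩
    have h2 : x (g ^ (2 * (k + 1))) = x (g ^ (2 * k)) + (x g + ρ0 g *ᵥ x g) := by
      rw [mul_add, mul_one, pow_add, hx, ih.1, Matrix.one_mulVec, pow_two, hx]
    rw [h2, Matrix.mulVec_add, ih.2, Matrix.mulVec_add, Matrix.mulVec_mulVec, hg,
      Matrix.one_mulVec, add_comm (ρ0 g *ᵥ x g)]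

theorem not_cob_of {x : GQ → V2} (hx : IsC ρ0 x) {g u : GQ} (hg : ρ0 g * ρ0 g = 1)
    (hxg : ρ0 g *ᵥ x g ≠ x g) (hu : x u = 0) (k : ℕ) :
    ¬ ∃ w, x (g ^ (2 * k + 1) * u) = ρ0 g *ᵥ w - w := by
  rintro ⟨w, hw⟩
  obtain ⟨h1, h2⟩ := val_odd hx hg k
  rw [hx, hu, Matrix.mulVec_zero, add_zero, pow_succ, hx, h1, Matrix.one_mulVec] at hw
  have h3 := congrArg (fun v => ρ0 g *ᵥ v) hw
  simp only [Matrix.mulVec_add, h2, Matrix.mulVec_sub, Matrix.mulVec_mulVec, hg,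
    Matrix.one_mulVec] at h3
  apply hxg
  have h4 : w - ρ0 g *ᵥ w = ρ0 g *ᵥ w - w := by
    rw [V2_sub, V2_sub, add_comm]
  rw [h4, ← hw] at h3
  exact add_left_cancel h3

variable {W : WeierstrassCurve ℤ}

section

variable [(WQ W).IsElliptic] {b : Module.Basis (Fin 2) ℤ_[2] (TT (WQ W) 2)}

theorem torsFix_conj {m : ℕ} (g : GQ) {n : GQ} (hn : n ∈ torsFix W (2 ^ m)) :
    g * n * g⁻¹ ∈ torsFix W (2 ^ m) := by
  rw [mem_torsFix] at hn ⊢
  intro P hP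
  rw [mul_smul, mul_smul, hn _ (nsmul_smul0 _ hP), smul_inv_smul]

/-- **A prime detecting `x`.** -/
theorem exists_q (h : ZCurve W) {m : ℕ} (hm : m ≠ 0) {x : GQ → V2} (hx : IsC (rho0 b) x)
    (hxc : LC x) (hxn : ∃ n ∈ torsFix W (2 ^ m), x n ≠ 0) (T : Finset Nat.Primes) :
    ∃ q : Nat.Primes, q ∉ T ∧ ∃ A : ValuationSubring Qb, A.LiesOverPrime (q : ℕ) ∧
      ∃ φ : GQ, A.IsFrobeniusAt φ (q : ℕ) ∧ CFrob W m φ ∧ rho0 b φ ≠ 1 ∧
      rho0 b φ * rho0 b φ = 1 ∧ ¬ ∃ w, x φ = rho0 b φ *ᵥ w - w := by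
  set c := complexConjugation with hc
  have hcc : c * c = 1 := complexConjugation_mul_self
  have hρcc : rho0 b c * rho0 b c = 1 := by rw [← map_mul, hcc, map_one]
  have hc1 : rho0 b c ≠ 1 := rho0_cc_ne h.neg
  obtain ⟨i, hi⟩ := exists_fix _ hρcc
  obtain ⟨n, hn, hxn⟩ := hxn
  have hij : i + 1 ≠ i := by clear hi; revert i; decide
  obtain ⟨g0, hg0⟩ := rho0_trans (b := b) h.irr (x n) (ev (i + 1)) hxn (ev_ne _)
  have hxn' : x (g0 * n * g0⁻¹) = ev (i + 1) := by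
    rw [hx.conj_ker g0 n (torsFix_le hm hn), hg0]
  have hn' := torsFix_conj g0 hn
  obtain ⟨U, hU, hxU⟩ := hxc
  obtain ⟨q, hqT, A, hA, φ, hφ, hCφ, hρφ, k, u, huU, hρu, hφu⟩ :=
    frob_of (b := b) h hm hU hn' T
  rw [← hc] at hρφ hφu
  have hρg : rho0 b (g0 * n * g0⁻¹ * c) = rho0 b c := by
    rw [map_mul, torsFix_le hm hn', one_mul]
  refine ⟨q, hqT, A, hA, φ, hφ, hCφ, by rw [hρφ]; exact hc1, by rw [hρφ]; exact hρcc, ?_⟩
  have hxcc : rho0 b c *ᵥ x c = x c := by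
    have h1 := hx c c
    rw [hcc, hx.one] at h1
    have h2 := V2_add_self (x c)
    have h3 : x c + rho0 b c *ᵥ x c = x c + x c := by rw [h2, ← h1]
    exact add_left_cancel h3
  have hxg : x (g0 * n * g0⁻¹ * c) = ev (i + 1) + x c := by
    rw [hx, hxn', torsFix_le hm hn', Matrix.one_mulVec]
  have := not_cob_of hx (g := g0 * n * g0⁻¹ * c) (u := u) (by rw [hρg]; exact hρcc) ?_
    (hxU u huU) k
  · rw [hρφ, ← hρg, hφu]
    exact this
  · rw [hρg, hxg, Matrix.mulVec_add, hxcc]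
    intro h1
    have h2 := add_right_cancel h1
    rcases fix_line _ (det_rho _ c) hc1 i hi _ h2 with h3 | h3
    · exact ev_ne _ h3
    · exact hij (ev_inj h3)

/-- auxiliary primes exist -/
theorem exists_q0 (h : ZCurve W) {m : ℕ} (hm : m ≠ 0) (T : Finset Nat.Primes) :
    ∃ q : Nat.Primes, q ∉ T ∧ ∃ A : ValuationSubring Qb, A.LiesOverPrime (q : ℕ) ∧
      ∃ φ : GQ, A.IsFrobeniusAt φ (q : ℕ) ∧ CFrob W m φ ∧ rho0 b φ ≠ 1 ∧
      rho0 b φ * rho0 b φ = 1 := by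
  obtain ⟨q, hqT, A, hA, φ, hφ, hCφ, hρφ, -⟩ :=
    frob_of (b := b) h hm (U := ⊤) isOpen_univ (one_mem (torsFix W (2 ^ m))) T
  refine ⟨q, hqT, A, hA, φ, hφ, hCφ, by rw [hρφ]; exact rho0_cc_ne h.neg, ?_⟩
  rw [hρφ, ← map_mul, complexConjugation_mul_self, map_one]

end

/-- auxiliary primes are good -/
theorem cty_of (h : ZCurve W) {m : ℕ} {q : Nat.Primes} (hq : q ∉ bad W)
    {A : ValuationSubring Qb} (hA : A.LiesOverPrime (q : ℕ)) {φ : GQ}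
    (hφ : A.IsFrobeniusAt φ (q : ℕ)) (hC : CFrob W m φ) : CTy W m q :=
  ⟨fun hd => hq ((mem_bad h.neg.ne).mpr hd), A, hA, φ, hφ, hC⟩

end Fermat.Agent.H07.Z2
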