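import Mathlib
import Fermat.Agent.L00.HilbQ1

set_option autoImplicit false
set_option linter.all false

/-!
# PROGRAM Z, package Z2: the twisted ternary forms (linear algebra)
-/

namespace Fermat.Agent.H07.Z2

open Fermat.Agent.L00.HilbQ

section Alg

variable {K : Type*} [Field K]

/-- diagonal bilinear form with weights `g`. -/
def B (g u v : Fin 3 → K) : K := ∑ i, g i * u i * v i

theorem B_comm (g u v : Fin 3 → K) : B g u v = B g v u := by
  unfold B; refine Finset.sum_congr rfl fun i _ => by ring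

theorem B_add_left (g u u' v : Fin 3 → K) : B g (u + u') v = B g u v + B g u' v := by
  simp only [B, Fin.sum_univ_three, Pi.add_apply]; ring

theorem B_add_right (g u v v' : Fin 3 → K) : B g u (v + v') = B g u v + B g u v' := by
  simp only [B, Fin.sum_univ_three, Pi.add_apply]; ring

theorem B_smul_left (g : Fin 3 → K) (c : K) (u v : Fin 3 → K) : B g (c • u) v = c * B g u v := by
  simp only [B, Fin.sum_univ_three, Pi.smul_apply, smul_eq_mul]; ring

theorem B_smul_right (g : Fin 3 → K) (c : K) (u v : Fin 3 → K) : B g u (c • v) = c * B g u v := by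
  simp only [B, Fin.sum_univ_three, Pi.smul_apply, smul_eq_mul]; ring

theorem B_sub_left (g u u' v : Fin 3 → K) : B g (u - u') v = B g u v - B g u' v := by
  simp only [B, Fin.sum_univ_three, Pi.sub_apply]; ring

theorem B_sub_right (g u v v' : Fin 3 → K) : B g u (v - v') = B g u v - B g u v' := by
  simp only [B, Fin.sum_univ_three, Pi.sub_apply]; ring

theorem parseval (g : Fin 3 → K) (w : Fin 3 → Fin 3 → K)
    (ho : ∀ i j, i ≠ j → B g (w i) (w j) = 0) (hn : ∀ i, B g (w i) (w i) ≠ 0) (u v : Fin 3 → K) :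
    B g u v = ∑ i, B g u (w i) * B g v (w i) / B g (w i) (w i) := by
  classical
  set M : Matrix (Fin 3) (Fin 3) K := Matrix.of fun i k => (B g (w i) (w i))⁻¹ * (w i k * g k)
  set N : Matrix (Fin 3) (Fin 3) K := Matrix.of fun k j => w j k
  have h1 : M * N = 1 := by
    ext i j
    rw [Matrix.mul_apply]
    have h2 : ∑ k, M i k * N k j = (B g (w i) (w i))⁻¹ * B g (w i) (w j) := by
      simp only [B, M, N, Matrix.of_apply, Fin.sum_univ_three]; ring
    rw [h2]
    by_cases hij : i = j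
    · subst hij
      rw [Matrix.one_apply_eq, inv_mul_cancel₀ (hn i)]
    · rw [Matrix.one_apply_ne hij, ho i j hij, mul_zero]
  have h2 : N * M = 1 := mul_eq_one_comm.mp h1
  have h3 : ∀ k l, ∑ i, w i k * ((B g (w i) (w i))⁻¹ * (w i l * g l)) = if k = l then 1 else 0 := by
    intro k l
    have := congrFun (congrFun h2 k) l
    rw [Matrix.mul_apply, Matrix.one_apply] at this
    exact this
  have h4 : ∑ i, B g u (w i) * B g v (w i) / B g (w i) (w i) =
      ∑ k, ∑ l, (g k * u k * v l) * ∑ i, w i k * ((B g (w i) (w i))⁻¹ * (w i l * g l)) := by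
    simp only [B, Fin.sum_univ_three, div_eq_mul_inv]; ring
  rw [h4]
  simp only [h3, mul_ite, mul_one, mul_zero, Finset.sum_ite_eq, Finset.mem_univ, if_true]
  rfl

/-- the third orthogonal vector -/
def cr (g : Fin 3 → K) (δ : K) (z z' : Fin 3 → K) : Fin 3 → K :=
  fun i => (z (i + 1) * z' (i + 2) - z (i + 2) * z' (i + 1)) / (g i * δ)

theorem B_cr_left (g : Fin 3 → K) (hg : ∀ i, g i ≠ 0) {δ : K} (hδ : δ ≠ 0) (z z' : Fin 3 → K) :
    B g z (cr g δ z z') = 0 := by
  have h0 := hg 0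
  have h1 := hg 1
  have h2 := hg 2
  simp only [B, cr, Fin.sum_univ_three]
  simp only [show (0 : Fin 3) + 1 = 1 from rfl, show (0 : Fin 3) + 2 = 2 from rfl,
    show (1 : Fin 3) + 1 = 2 from rfl, show (1 : Fin 3) + 2 = 0 from rfl,
    show (2 : Fin 3) + 1 = 0 from rfl, show (2 : Fin 3) + 2 = 1 from rfl]
  field_simp
  ring

theorem B_cr_right (g : Fin 3 → K) (hg : ∀ i, g i ≠ 0) {δ : K} (hδ : δ ≠ 0) (z z' : Fin 3 → K) :
    B g z' (cr g δ z z') = 0 := by
  have h0 := hg 0
  have h1 := hg 1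
  have h2 := hg 2
  simp only [B, cr, Fin.sum_univ_three]
  simp only [show (0 : Fin 3) + 1 = 1 from rfl, show (0 : Fin 3) + 2 = 2 from rfl,
    show (1 : Fin 3) + 1 = 2 from rfl, show (1 : Fin 3) + 2 = 0 from rfl,
    show (2 : Fin 3) + 1 = 0 from rfl, show (2 : Fin 3) + 2 = 1 from rfl]
  field_simp
  ring

theorem B_cr_cr (g : Fin 3 → K) (hg : ∀ i, g i ≠ 0) {δ : K} (hδ : δ ≠ 0)
    (hgδ : g 0 * g 1 * g 2 * δ ^ 2 = -1) (z z' : Fin 3 → K) (ho : B g z z' = 0) :
    B g (cr g δ z z') (cr g δ z z') = -(B g z z * B g z' z') := by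
  have h0 := hg 0
  have h1 := hg 1
  have h2 := hg 2
  have key : B g (cr g δ z z') (cr g δ z z') * (g 0 * g 1 * g 2 * δ ^ 2) =
      B g z z * B g z' z' - (B g z z') ^ 2 := by
    simp only [B, cr, Fin.sum_univ_three]
    simp only [show (0 : Fin 3) + 1 = 1 from rfl, show (0 : Fin 3) + 2 = 2 from rfl,
      show (1 : Fin 3) + 1 = 2 from rfl, show (1 : Fin 3) + 2 = 0 from rfl,
      show (2 : Fin 3) + 1 = 0 from rfl, show (2 : Fin 3) + 2 = 1 from rfl]
    field_simp
    ring
  rw [hgδ, ho] at key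
  linear_combination -key

/-- weights attached to three distinct elements: `1/f'(T_i)` -/
def wt (T : Fin 3 → K) (i : Fin 3) : K := ((T i - T (i + 1)) * (T i - T (i + 2)))⁻¹

/-- square root of the discriminant -/
def dl (T : Fin 3 → K) : K := (T 0 - T 1) * (T 1 - T 2) * (T 2 - T 0)

theorem ne_succ (i : Fin 3) : i ≠ i + 1 ∧ i ≠ i + 2 := by revert i; decide

theorem wt_ne {T : Fin 3 → K} (hT : Function.Injective T) (i : Fin 3) : wt T i ≠ 0 := by
  unfold wt
  refine inv_ne_zero (mul_ne_zero ?_ ?_)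
  · exact sub_ne_zero.mpr (hT.ne (ne_succ i).1)
  · exact sub_ne_zero.mpr (hT.ne (ne_succ i).2)

theorem dl_ne {T : Fin 3 → K} (hT : Function.Injective T) : dl T ≠ 0 := by
  unfold dl
  refine mul_ne_zero (mul_ne_zero ?_ ?_) ?_
  · exact sub_ne_zero.mpr (hT.ne (by decide))
  · exact sub_ne_zero.mpr (hT.ne (by decide))
  · exact sub_ne_zero.mpr (hT.ne (by decide))

theorem wt_dl {T : Fin 3 → K} (hT : Function.Injective T) :
    wt T 0 * wt T 1 * wt T 2 * (dl T) ^ 2 = -1 := by
  have h1 : T 0 - T 1 ≠ 0 := sub_ne_zero.mpr (hT.ne (by decide))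
  have h2 : T 1 - T 2 ≠ 0 := sub_ne_zero.mpr (hT.ne (by decide))
  have h3 : T 2 - T 0 ≠ 0 := sub_ne_zero.mpr (hT.ne (by decide))
  have h1' : T 1 - T 0 = -(T 0 - T 1) := by ring
  have h2' : T 2 - T 1 = -(T 1 - T 2) := by ring
  have h3' : T 0 - T 2 = -(T 2 - T 0) := by ring
  simp only [wt, dl, show (0 : Fin 3) + 1 = 1 from rfl, show (0 : Fin 3) + 2 = 2 from rfl,
    show (1 : Fin 3) + 1 = 2 from rfl, show (1 : Fin 3) + 2 = 0 from rfl,
    show (2 : Fin 3) + 1 = 0 from rfl, show (2 : Fin 3) + 2 = 1 from rfl]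
  rw [h1', h2', h3']
  field_simp

theorem wt_sum {T : Fin 3 → K} (hT : Function.Injective T) : ∑ i, wt T i = 0 := by
  have h1 : T 0 - T 1 ≠ 0 := sub_ne_zero.mpr (hT.ne (by decide))
  have h2 : T 1 - T 2 ≠ 0 := sub_ne_zero.mpr (hT.ne (by decide))
  have h3 : T 2 - T 0 ≠ 0 := sub_ne_zero.mpr (hT.ne (by decide))
  have h1' : T 1 - T 0 = -(T 0 - T 1) := by ring
  have h2' : T 2 - T 1 = -(T 1 - T 2) := by ring
  have h3' : T 0 - T 2 = -(T 2 - T 0) := by ring
  simp only [Fin.sum_univ_three, wt, show (0 : Fin 3) + 1 = 1 from rfl, show (0 : Fin 3) + 2 = 2 from rfl,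
    show (1 : Fin 3) + 1 = 2 from rfl, show (1 : Fin 3) + 2 = 0 from rfl,
    show (2 : Fin 3) + 1 = 0 from rfl, show (2 : Fin 3) + 2 = 1 from rfl]
  rw [h1', h2', h3']
  field_simp
  ring

/-- diagonal isotropy versus `Iso` -/
theorem iso_iff_diag {a b : K} (ha : a ≠ 0) (hb : b ≠ 0) :
    Iso a b ↔ ∃ s : Fin 3 → K, s ≠ 0 ∧ a * s 0 ^ 2 + b * s 1 ^ 2 + -(a * b) * s 2 ^ 2 = 0 := by
  constructor
  · rintro ⟨x, y, z, h0, h1⟩
    refine ⟨![y / a, x / b, z / (a * b)], ?_, ?_⟩
    · intro h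
      have e0 := congrFun h 0
      have e1 := congrFun h 1
      have e2 := congrFun h 2
      simp only [Matrix.cons_val_zero, Matrix.cons_val_one, Pi.zero_apply, Matrix.cons_val] at e0 e1 e2
      rw [div_eq_zero_iff] at e0 e1 e2
      rcases h0 with h | h | h
      · exact h (e1.resolve_right hb)
      · exact h (e0.resolve_right ha)
      · exact h (e2.resolve_right (mul_ne_zero ha hb))
    · simp only [Matrix.cons_val_zero, Matrix.cons_val_one, Matrix.cons_val]
      field_simp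
      linear_combination h1
  · rintro ⟨s, hs, h⟩
    refine ⟨b * s 1, a * s 0, a * b * s 2, ?_, by linear_combination a * b * h⟩
    by_contra h'
    push Not at h'
    obtain ⟨h1, h2, h3⟩ := h'
    apply hs
    ext i
    fin_cases i
    · exact (mul_eq_zero.mp h2).resolve_left ha
    · exact (mul_eq_zero.mp h1).resolve_left hb
    · exact (mul_eq_zero.mp h3).resolve_left (mul_ne_zero ha hb)

end Alg

end Fermat.Agent.H07.Z2
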