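import Fermat.Agent.H07.Z2.Sym

set_option autoImplicit false
set_option linter.all false

/-!
# PROGRAM Z, package Z2: group theory
-/

namespace Fermat.Agent.H07.Z2

open Fermat.Agent.CC
open Matrix

section SL

variable {R : Type*} [CommRing R] (f : R →+* ZMod 2) (hf : ∀ a, f a ≠ 0 → IsUnit a)

include hf in
theorem sl2_gen (P : Matrix (Fin 2) (Fin 2) R → Prop) (hmul : ∀ M N, P M → P N → P (M * N))
    (h12 : ∀ t, P !![1, t; 0, 1]) (h21 : ∀ t, P !![1, 0; t, 1])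
    (M : Matrix (Fin 2) (Fin 2) R) (hM : M.det = 1) : P M := by
  have case1 : ∀ M : Matrix (Fin 2) (Fin 2) R, M.det = 1 → IsUnit (M 1 0) → P M := by
    intro M hM hc
    obtain ⟨c', hc'⟩ := hc.exists_right_inv
    have hM' : M = !![1, (M 0 0 - 1) * c'; 0, 1] * (!![1, 0; M 1 0, 1] *
        !![1, (M 1 1 - 1) * c'; 0, 1]) := by
      rw [Matrix.det_fin_two] at hM
      rw [Matrix.eta_fin_two M]
      ext i j
      fin_cases i <;> fin_cases j <;>
        simp only [Matrix.mul_apply, Fin.sum_univ_two, Matrix.of_apply, Matrix.cons_val',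
          Matrix.cons_val_zero, Matrix.cons_val_one, Matrix.cons_val_fin_one, Fin.zero_eta,
          Fin.mk_one, Fin.isValue, Matrix.empty_val']
      · linear_combination (1 - M 0 0) * hc'
      · linear_combination (-M 0 1 - (M 0 0 - 1) * (M 1 1 - 1) * c') * hc' - c' * hM
      · ring
      · linear_combination (1 - M 1 1) * hc'
    rw [hM']
    exact hmul _ _ (h12 _) (hmul _ _ (h21 _) (h12 _))
  by_cases hc : IsUnit (M 1 0)
  · exact case1 M hM hc
  · have hc0 : f (M 1 0) = 0 := by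
      by_contra h; exact hc (hf _ h)
    have ha0 : f (M 0 0) ≠ 0 := by
      intro h
      have h1 := congrArg f hM
      rw [Matrix.det_fin_two, map_sub, map_mul, map_mul, hc0, h, zero_mul, mul_zero, map_one,
        sub_zero] at h1
      exact absurd h1 (by decide)
    have hM2 : M = !![1, 0; -1, 1] * (!![1, 0; 1, 1] * M) := by
      rw [← Matrix.mul_assoc]
      have : !![(1 : R), 0; -1, 1] * !![1, 0; 1, 1] = 1 := by
        ext i j
        fin_cases i <;> fin_cases j <;> simp [Matrix.mul_apply, Fin.sum_univ_two]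
      rw [this, Matrix.one_mul]
    rw [hM2]
    refine hmul _ _ (h21 _) (case1 _ ?_ ?_)
    · rw [Matrix.det_mul, hM, Matrix.det_fin_two_of]; ring
    · have e : (!![(1 : R), 0; 1, 1] * M) 1 0 = M 0 0 + M 1 0 := by
        simp [Matrix.mul_apply, Fin.sum_univ_two]
      rw [e]
      apply hf
      rw [map_add, hc0, add_zero]
      exact ha0

end SL

section GT

variable {R : Type*} [CommRing R] {f : R →+* ZMod 2} (hf : ∀ a, f a ≠ 0 → IsUnit a)
  (hnat : ∀ t : R, ∃ n : ℕ, (n : R) = t)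
  {ρ0 : GQ →* M22} {ρm : GQ →* Matrix (Fin 2) (Fin 2) R} (hcomp : ∀ g, ρ0 g = (ρm g).map f)

theorem pow12 {R : Type*} [CommRing R] (a : R) (n : ℕ) :
    (!![1, a; 0, 1] : Matrix (Fin 2) (Fin 2) R) ^ n = !![1, n * a; 0, 1] := by
  induction n with
  | zero => simp [Matrix.one_fin_two]
  | succ n ih =>
    rw [pow_succ, ih]
    ext i j
    fin_cases i <;> fin_cases j <;> simp [Matrix.mul_apply, Fin.sum_univ_two]
    ring

theorem pow21 {R : Type*} [CommRing R] (a : R) (n : ℕ) :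
    (!![1, 0; a, 1] : Matrix (Fin 2) (Fin 2) R) ^ n = !![1, 0; n * a, 1] := by
  induction n with
  | zero => simp [Matrix.one_fin_two]
  | succ n ih =>
    rw [pow_succ, ih]
    ext i j
    fin_cases i <;> fin_cases j <;> simp [Matrix.mul_apply, Fin.sum_univ_two]
    ring

theorem IsC.pow_zero {x : GQ → V2} (hx : IsC ρ0 x) {g : GQ} (h : x g = 0) (n : ℕ) :
    x (g ^ n) = 0 := by
  induction n with
  | zero => rw [_root_.pow_zero]; exact hx.one
  | succ n ih => rw [pow_succ, hx, ih, h, Matrix.mulVec_zero, add_zero]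

theorem IsC.inv {x : GQ → V2} (hx : IsC ρ0 x) (g : GQ) : x g⁻¹ = ρ0 g⁻¹ *ᵥ x g := by
  have h := hx g⁻¹ g
  rw [inv_mul_cancel, hx.one] at h
  have h2 := eq_neg_of_add_eq_zero_left h.symm
  rw [V2_neg] at h2
  exact h2

theorem aux1 : ∀ (v : V2) (a : ZMod 2), v 1 = 0 →
    v + (!![1, 1; 0, 1] *ᵥ ![a, v 0] - ![a, v 0]) = 0 := by decide

theorem aux2 : ∀ (v : V2) (a : ZMod 2), v 0 = 0 →
    v + (!![1, 0; 1, 1] *ᵥ ![v 1, a] - ![v 1, a]) = 0 := by decide

include hf hnat hcomp in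
/-- **Group theory**: a cocycle which is killed by the kernel of `ρ_m` and which is locally a
coboundary at the conjugates of a transvection is a coboundary. -/
theorem isCob_of {x : GQ → V2} (hx : IsC ρ0 x) (hker : ∀ g, ρm g = 1 → x g = 0)
    {σ g0 : GQ} (hσ : ρm σ = !![1, 1; 0, 1]) (hg0 : ρ0 g0 1 0 ≠ 0)
    (hloc : ∀ g, ∃ w, x (g * σ * g⁻¹) = cb ρ0 w (g * σ * g⁻¹)) :
    ∃ w, ∀ g, x g = cb ρ0 w g := by
  have hρσ : ρ0 σ = !![1, 1; 0, 1] := by
    rw [hcomp, hσ]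
    ext i j
    fin_cases i <;> fin_cases j <;> simp
  have hβu : IsUnit (ρm g0 1 0) := hf _ (by rw [hcomp] at hg0; exact hg0)
  obtain ⟨β', hβ'⟩ := hβu.exists_right_inv
  obtain ⟨k, hk⟩ := hnat (-(ρm g0 0 0) * β')
  set g := σ ^ k * g0 with hg
  have hρg : ρm g = !![1, (k : R) * 1; 0, 1] * ρm g0 := by
    rw [hg, map_mul, map_pow, hσ, pow12]
  have hg00 : ρm g 0 0 = 0 := by
    rw [hρg]
    simp only [Matrix.mul_apply, Fin.sum_univ_two, Matrix.of_apply, Matrix.cons_val',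
      Matrix.cons_val_zero, Matrix.cons_val_one, Matrix.cons_val_fin_one]
    rw [hk]
    linear_combination (-ρm g0 0 0) * hβ'
  have hg10 : ρm g 1 0 = ρm g0 1 0 := by
    rw [hρg]
    simp [Matrix.mul_apply, Fin.sum_univ_two]
  -- b is a unit
  have hinv : ρm g * ρm g⁻¹ = 1 := by rw [← map_mul, mul_inv_cancel, map_one]
  have hb : IsUnit (ρm g 0 1) := by
    have h1 := congrFun (congrFun hinv 0) 0
    rw [Matrix.mul_apply, Fin.sum_univ_two, hg00, zero_mul, zero_add, Matrix.one_apply_eq] at h1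
    exact IsUnit.of_mul_eq_one _ h1
  obtain ⟨b', hb'⟩ := hb.exists_right_inv
  set τ := g * σ * g⁻¹ with hτ
  set γ := ρm g 1 0 * b' with hγ
  have hρτ : ρm τ = !![1, 0; γ, 1] := by
    have h1 : !![1, 0; γ, 1] * ρm g = ρm g * ρm σ := by
      rw [hσ, Matrix.eta_fin_two (ρm g), hg00]
      ext i j
      fin_cases i <;> fin_cases j <;>
        simp only [Matrix.mul_apply, Fin.sum_univ_two, Matrix.of_apply, Matrix.cons_val',
          Matrix.cons_val_zero, Matrix.cons_val_one, Matrix.cons_val_fin_one, Fin.zero_eta,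
          Fin.mk_one, Fin.isValue]
      · ring
      · ring
      · ring
      · rw [hγ]
        linear_combination (ρm g 1 0) * hb'
    rw [hτ, map_mul, map_mul, ← h1, Matrix.mul_assoc, hinv, Matrix.mul_one]
  have hγf : f γ = 1 := by
    have h1 : IsUnit γ := by
      rw [hγ, hg10]
      exact hβu.mul (IsUnit.of_mul_eq_one (ρm g 0 1) (by rw [mul_comm]; exact hb'))
    have h2 : IsUnit (f γ) := h1.map f
    rcases zmod2_cases (f γ) with h | h
    · rw [h] at h2; exact absurd h2 (by decide)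
    · exact h
  have hρ0τ : ρ0 τ = !![1, 0; 1, 1] := by
    rw [hcomp, hρτ]
    ext i j
    fin_cases i <;> fin_cases j <;> simp [hγf]
  -- adjust by a coboundary
  obtain ⟨w1, hw1⟩ := hloc 1
  rw [one_mul, inv_one, mul_one] at hw1
  obtain ⟨w2, hw2⟩ := hloc g
  have hxσ : x σ 1 = 0 := by
    rw [hw1]
    simp [cb, hρσ, Matrix.mulVec, dotProduct, Fin.sum_univ_two]
  have hxτ : x τ 0 = 0 := by
    rw [hτ, hw2, ← hτ]
    simp [cb, hρ0τ, Matrix.mulVec, dotProduct, Fin.sum_univ_two]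
  set w : V2 := ![x τ 1, x σ 0] with hw
  refine ⟨w, ?_⟩
  set y : GQ → V2 := fun g => x g + cb ρ0 w g with hy
  have hyC : IsC ρ0 y := hx.add (isC_cb w)
  have hyσ : y σ = 0 := by
    change x σ + (ρ0 σ *ᵥ w - w) = 0
    rw [hρσ]
    exact aux1 _ _ hxσ
  have hyτ : y τ = 0 := by
    change x τ + (ρ0 τ *ᵥ w - w) = 0
    rw [hρ0τ]
    exact aux2 _ _ hxτ
  have hyker : ∀ g, ρm g = 1 → y g = 0 := by
    intro g hg
    have h1 : ρ0 g = 1 := by
      rw [hcomp, hg]
      ext i j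
      fin_cases i <;> fin_cases j <;> simp
    rw [hy]
    simp only
    rw [hker g hg, cb, h1, Matrix.one_mulVec, sub_self, add_zero]
  have key : ∀ M : Matrix (Fin 2) (Fin 2) R, M.det = 1 → ∃ h, ρm h = M ∧ y h = 0 := by
    intro M hM
    refine sl2_gen f hf (fun M => ∃ h, ρm h = M ∧ y h = 0) ?_ ?_ ?_ M hM
    · rintro _ _ ⟨h, rfl, h1⟩ ⟨h', rfl, h1'⟩
      exact ⟨h * h', map_mul _ _ _, by rw [hyC, h1, h1', Matrix.mulVec_zero, add_zero]⟩
    · intro t
      obtain ⟨n, rfl⟩ := hnat t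
      exact ⟨σ ^ n, by rw [map_pow, hσ, pow12, mul_one], hyC.pow_zero hyσ n⟩
    · intro t
      have hγu : IsUnit γ := hf _ (by rw [hγf]; decide)
      obtain ⟨γ', hγ'⟩ := hγu.exists_right_inv
      obtain ⟨n, hn⟩ := hnat (t * γ')
      refine ⟨τ ^ n, ?_, hyC.pow_zero hyτ n⟩
      rw [map_pow, hρτ, pow21, hn, mul_assoc, mul_comm γ', hγ', mul_one]
  have key2 : ∀ h, (ρm h).det = 1 → y h = 0 := by
    intro h hh
    obtain ⟨h', h1, h2⟩ := key _ hh
    have h3 : ρm (h'⁻¹ * h) = 1 := by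
      rw [map_mul, ← h1, ← map_mul, inv_mul_cancel, map_one]
    have h4 : h = h' * (h'⁻¹ * h) := by group
    rw [h4, hyC, h2, hyker _ h3, Matrix.mulVec_zero, add_zero]
  have hdetσ : (ρm σ).det = 1 := by rw [hσ, Matrix.det_fin_two_of]; ring
  have hdetτ : (ρm τ).det = 1 := by rw [hρτ, Matrix.det_fin_two_of]; ring
  have hdetc : ∀ g s, (ρm s).det = 1 → (ρm (g * s * g⁻¹)).det = 1 := by
    intro g s hs
    rw [map_mul, map_mul, Matrix.det_mul, Matrix.det_mul, hs, mul_one, ← Matrix.det_mul, ← map_mul,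
      mul_inv_cancel, map_one, Matrix.det_one]
  intro g
  have hstab : ∀ s, y s = 0 → (ρm s).det = 1 → ρ0 s *ᵥ (ρ0 g⁻¹ *ᵥ y g) = ρ0 g⁻¹ *ᵥ y g := by
    intro s hs hds
    have h1 := key2 _ (hdetc g s hds)
    have h2 : g * s = (g * s * g⁻¹) * g := by group
    have h3 := hyC g s
    rw [h2, hyC, h1, hs, Matrix.mulVec_zero, add_zero, zero_add] at h3
    have h4 : ρ0 g⁻¹ *ᵥ (ρ0 (g * s * g⁻¹) *ᵥ y g) = ρ0 g⁻¹ *ᵥ y g := by rw [h3]
    rw [Matrix.mulVec_mulVec, ← map_mul] at h4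
    rw [Matrix.mulVec_mulVec, ← map_mul]
    have h5 : g⁻¹ * (g * s * g⁻¹) = s * g⁻¹ := by group
    rw [h5] at h4
    exact h4
  have e1 := hstab σ hyσ hdetσ
  have e2 := hstab τ hyτ hdetτ
  rw [hρσ] at e1
  rw [hρ0τ] at e2
  have hz : ρ0 g⁻¹ *ᵥ y g = 0 := by
    generalize ρ0 g⁻¹ *ᵥ y g = v at e1 e2
    revert v
    decide
  have hy0 : y g = 0 := by
    have h1 : ρ0 g *ᵥ (ρ0 g⁻¹ *ᵥ y g) = ρ0 g *ᵥ 0 := by rw [hz]
    rw [Matrix.mulVec_mulVec, ← map_mul, mul_inv_cancel, map_one, Matrix.one_mulVec,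
      Matrix.mulVec_zero] at h1
    exact h1
  have h5 : x g + cb ρ0 w g = 0 := hy0
  rw [← V2_neg (cb ρ0 w g)]
  exact eq_neg_of_add_eq_zero_left h5

end GT

end Fermat.Agent.H07.Z2
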