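import Fermat.Agent.H07.Z2.Ex

set_option autoImplicit false
set_option linter.all false

/-!
# PROGRAM Z, package Z2: the local formula
-/

namespace Fermat.Agent.H07.Z2

open Fermat.Agent.L00.HilbQ Fermat.Agent.CC

variable {π : GQ →* Equiv.Perm (Fin 3)} {T : Fin 3 → Qb}
  (hT : ∀ (σ : GQ) i, σ (T i) = T (π σ i)) (hTi : Function.Injective T)
  {D : Subgroup GQ}
  {L Ω : Type*} [Field L] [Field Ω] [Algebra L Ω] {ι : Qb →+* Ω} (hι : IsLoc L D ι)

theorem tw_single {ε : GQ → Fin 3 → Qb} {i0 : Fin 3} (hfix : ∀ d ∈ D, π d i0 = i0) {s : Qb}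
    (hs : ∀ d ∈ D, d s = ε d i0 * s) : Tw π D ε (Pi.single i0 s) := by
  intro d hd i
  by_cases hi : i = i0
  · subst hi
    rw [hfix d hd, Pi.single_eq_same, hs d hd]
  · have h1 : π d i ≠ i0 := fun h => hi (by
      apply (π d).injective; rw [h, hfix d hd])
    rw [Pi.single_eq_of_ne hi, Pi.single_eq_of_ne h1, map_zero, mul_zero]

theorem B_single (g : Fin 3 → Qb) (i0 : Fin 3) (s : Qb) (v : Fin 3 → Qb) :
    B g (Pi.single i0 s) v = g i0 * s * v i0 := by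
  unfold B
  rw [Finset.sum_eq_single i0]
  · rw [Pi.single_eq_same]
  · intro j _ hj
    rw [Pi.single_eq_of_ne hj]; ring
  · intro h; exact absurd (Finset.mem_univ i0) h

theorem tw_mul_r {ε ε' : GQ → Fin 3 → Qb} {i0 : Fin 3} (hfix : ∀ d ∈ D, π d i0 = i0) {r : Qb}
    (hr : ∀ d ∈ D, ∀ j, j ≠ i0 → d r = ε' d j * r) {z : Fin 3 → Qb} (hz : Tw π D ε z)
    (hz0 : z i0 = 0) : Tw π D (fun σ i => ε σ i * ε' σ i) (r • z) := by
  intro d hd i
  by_cases hi : i = i0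
  · subst hi
    rw [hfix d hd, Pi.smul_apply, hz0, smul_zero, map_zero, mul_zero]
  · have h1 : π d i ≠ i0 := fun h => hi (by
      apply (π d).injective; rw [h, hfix d hd])
    rw [Pi.smul_apply, smul_eq_mul, map_mul, hz d hd, hr d hd _ h1, Pi.smul_apply, smul_eq_mul]
    ring

theorem prop_aux {X A XY C Y E F G I N : Prop} (J1 : X ↔ A) (J2 : XY ↔ C) (J4 : Y ↔ E)
    (K2 : C ↔ (F ↔ A)) (K4 : E ↔ (G ↔ I)) (K5 : F ↔ (G ↔ N)) (I3 : I) :
    XY ↔ ((N ↔ Y) ↔ X) := by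
  rw [J1, J2, J4, K2, K4, K5]
  by_cases h1 : A <;> by_cases h2 : G <;> by_cases h3 : N <;> simp [h1, h2, h3, I3]

include hT hTi hι in
theorem local_formula
    (hBL : ∀ u a b : L, u ≠ 0 → a ≠ 0 → b ≠ 0 → (Iso u (a * b) ↔ (Iso u a ↔ Iso u b)))
    {εx εy : GQ → Fin 3 → Qb} (hx : Coc π εx) (hy : Coc π εy) (htr : ∀ i, ∃ σ, π σ 0 = i)
    {i0 : Fin 3} (hfix : ∀ d ∈ D, π d i0 = i0)
    {r : Qb} (hr0 : r ≠ 0) (hr : ∀ d ∈ D, ∀ j, j ≠ i0 → d r = εy d j * r)
    (hy0 : ∀ d ∈ D, εy d i0 = 1)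
    {s : Qb} (hs0 : s ≠ 0) (hs : ∀ d ∈ D, d s = εx d i0 * s)
    {ν a : L} (hν : algebraMap L Ω ν = ι (s ^ 2)) (ha : algebraMap L Ω a = ι (r ^ 2))
    {ax bx ay by' axy bxy : L} (hpx : Pair π T D εx ι ax bx) (hpy : Pair π T D εy ι ay by')
    (hpxy : Pair π T D (fun σ i => εx σ i * εy σ i) ι axy bxy) :
    Iso axy bxy ↔ ((Iso ν a ↔ Iso ay by') ↔ Iso ax bx) := by
  have hν0 : ν ≠ 0 := fun h => by
    rw [h, map_zero] at hν
    exact pow_ne_zero 2 hs0 ((map_eq_zero ι).mp hν.symm)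
  have ha0 : a ≠ 0 := fun h => by
    rw [h, map_zero] at ha
    exact pow_ne_zero 2 hr0 ((map_eq_zero ι).mp ha.symm)
  -- the weight
  have hg : ∀ d ∈ D, d (wt T i0) = wt T i0 := fun d hd => by rw [wt_map hT, hfix d hd]
  obtain ⟨g, hgL⟩ := hι _ hg
  have hgw : wt T i0 ≠ 0 := wt_ne hTi i0
  have hg0 : g ≠ 0 := fun h => by
    rw [h, map_zero] at hgL
    exact hgw ((map_eq_zero ι).mp hgL.symm)
  -- the pair for x
  obtain ⟨b, hb0, hb⟩ := hx.exists_b htr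
  have hbD : Tw π D εx b := hb.mono le_top
  have hz : Tw π D εx (Pi.single i0 s) := tw_single hfix hs
  have hzv : B (wt T) (Pi.single i0 s) (Pi.single i0 s) = wt T i0 * s ^ 2 := by
    rw [B_single, Pi.single_eq_same]; ring
  have hzv0 : B (wt T) (Pi.single i0 s) (Pi.single i0 s) ≠ 0 := by
    rw [hzv]; exact mul_ne_zero hgw (pow_ne_zero 2 hs0)
  obtain ⟨z', hz', hzo, hz'0⟩ := exists_second hT hTi hx.sgn hbD hb0 hz hzv0
  have hz'i : z' i0 = 0 := by
    rw [B_single] at hzo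
    exact (mul_eq_zero.mp hzo).resolve_left (mul_ne_zero hgw hs0)
  obtain ⟨β, hβ⟩ := hι _ (Tw.B_fixed hT hx.sgn hz' hz')
  have hβ0 : β ≠ 0 := fun h => by
    rw [h, map_zero] at hβ
    exact hz'0 ((map_eq_zero ι).mp hβ.symm)
  have P1 : Pair π T D εx ι (g * ν) β :=
    ⟨⟨_, z', hz, hz', hzo, by rw [map_mul, hgL, hν, hzv, map_mul], hβ⟩, mul_ne_zero hg0 hν0, hβ0⟩
  -- the pair for xy
  have P2 : Pair π T D (fun σ i => εx σ i * εy σ i) ι (g * ν) (a * β) := by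
    refine ⟨⟨Pi.single i0 s, r • z', ?_, tw_mul_r hfix hr hz' hz'i, ?_, ?_, ?_⟩,
      mul_ne_zero hg0 hν0, mul_ne_zero ha0 hβ0⟩
    · exact tw_single hfix fun d hd => by rw [hs d hd, hy0 d hd, mul_one]
    · rw [B_smul_right, hzo, mul_zero]
    · rw [map_mul, hgL, hν, hzv, map_mul]
    · rw [B_smul_left, B_smul_right, map_mul, ha, hβ, ← map_mul]
      congr 1; ring
  -- the pair for 1
  have h1D : Tw π D (fun _ _ => (1 : Qb)) (fun _ => 1) := fun d _ i => by simp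
  have hz1 : Tw π D (fun _ _ => (1 : Qb)) (Pi.single i0 1) := tw_single hfix fun d _ => by simp
  have hz1v : B (wt T) (Pi.single i0 1) (Pi.single i0 1) = wt T i0 := by
    rw [B_single, Pi.single_eq_same]; ring
  obtain ⟨y', hy', hyo, hy'0⟩ := exists_second hT hTi (fun _ => Sgn.one) h1D (fun _ => one_ne_zero)
    hz1 (by rw [hz1v]; exact hgw)
  have hy'i : y' i0 = 0 := by
    rw [B_single] at hyo
    exact (mul_eq_zero.mp hyo).resolve_left (mul_ne_zero hgw one_ne_zero)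
  obtain ⟨β', hβ'⟩ := hι _ (Tw.B_fixed hT (fun _ => Sgn.one) hy' hy')
  have hβ'0 : β' ≠ 0 := fun h => by
    rw [h, map_zero] at hβ'
    exact hy'0 ((map_eq_zero ι).mp hβ'.symm)
  have P3 : Pair π T D (fun _ _ => (1 : Qb)) ι g β' :=
    ⟨⟨_, y', hz1, hy', hyo, by rw [hgL, hz1v], hβ'⟩, hg0, hβ'0⟩
  have P4 : Pair π T D εy ι g (a * β') := by
    refine ⟨⟨Pi.single i0 1, r • y', ?_, ?_, ?_, ?_, ?_⟩, hg0, mul_ne_zero ha0 hβ'0⟩
    · exact tw_single hfix fun d hd => by rw [hy0 d hd, map_one, mul_one]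
    · have := tw_mul_r hfix hr hy' hy'i
      simpa only [one_mul] using this
    · rw [B_smul_right, hyo, mul_zero]
    · rw [hgL, hz1v]
    · rw [B_smul_left, B_smul_right, map_mul, ha, hβ', ← map_mul]
      congr 1; ring
  have I3 : Iso g β' := by
    refine iso_of_isotropic hT hTi (fun _ => Sgn.one) hι P3 h1D ?_ ?_
    · intro h; exact one_ne_zero (congrFun h 0)
    · unfold B
      simp only [mul_one]
      exact wt_sum hTi
  have J1 := iso_iff hT hTi hx.sgn hι hpx P1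
  have J2 := iso_iff hT hTi (hx.mulC hy).sgn hι hpxy P2
  have J4 := iso_iff hT hTi hy.sgn hι hpy P4
  have K2 := hBL (g * ν) a β (mul_ne_zero hg0 hν0) ha0 hβ0
  have K4 := hBL g a β' hg0 ha0 hβ'0
  have K5 := hBL a g ν ha0 hg0 hν0
  rw [iso_comm, iso_comm (a := a) (b := g), iso_comm (a := a) (b := ν)] at K5
  exact prop_aux J1 J2 J4 K2 K4 K5 I3

section Cob

variable {ε : GQ → Fin 3 → Qb}

/-- change by a coboundary -/
theorem Pair.cob {a b : L} (hp : Pair π T D ε ι a b) {s : Fin 3 → Qb} (hs : Sgn s)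
    {ε' : GQ → Fin 3 → Qb}
    (h : ∀ d ∈ D, ∀ i, ε' d (π d i) = s (π d i) * ε d (π d i) * s i) : Pair π T D ε' ι a b := by
  obtain ⟨⟨z, z', hz, hz', ho, ha, hb⟩, a0, b0⟩ := hp
  have key : ∀ z : Fin 3 → Qb, Tw π D ε z → Tw π D ε' (fun i => s i * z i) := by
    intro z hz d hd i
    simp only
    rw [map_mul, hs.map, hz d hd, h d hd]
    linear_combination (-(ε d (π d i) * z (π d i) * s i)) * hs.sq (π d i)
  have key2 : ∀ u v : Fin 3 → Qb, B (wt T) (fun i => s i * u i) (fun i => s i * v i) =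
      B (wt T) u v := by
    intro u v
    unfold B
    refine Finset.sum_congr rfl fun i _ => ?_
    linear_combination (wt T i * u i * v i) * hs.sq i
  refine ⟨⟨_, _, key z hz, key z' hz', ?_, ?_, ?_⟩, a0, b0⟩
  · rw [key2, ho]
  · rw [key2, ha]
  · rw [key2, hb]

include hT hTi hι in
theorem iso_of_cob (hε : ∀ d, Sgn (ε d)) {a b : L} (hp : Pair π T D ε ι a b) {s : Fin 3 → Qb}
    (hs : Sgn s) (h : ∀ d ∈ D, ∀ i, ε d (π d i) = s (π d i) * s i) : Iso a b := by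
  refine iso_of_isotropic hT hTi hε hι hp (e := s) ?_ ?_ ?_
  · intro d hd i
    rw [hs.map, h d hd]
    linear_combination (-s i) * hs.sq (π d i)
  · intro h
    exact hs.ne_zero 0 (congrFun h 0)
  · unfold B
    rw [← wt_sum hTi]
    refine Finset.sum_congr rfl fun i _ => ?_
    linear_combination wt T i * hs.sq i

end Cob

end Fermat.Agent.H07.Z2
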