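import Fermat.Agent.H07.Z2.Unr

set_option autoImplicit false
set_option linter.all false

/-!
# PROGRAM Z, package Z2: local parity statements
-/

namespace Fermat.Agent.H07.Z2

open Fermat.Agent.L00.HilbQ Fermat.Agent.CC Fermat.Agent.TW
open Matrix
open scoped Pointwise

/-- the sign function of a cocycle -/
noncomputable def E (x : GQ → V2) : GQ → Fin 3 → Qb := fun σ i => sg (x σ) i

theorem E_add (x y : GQ → V2) : E (fun σ => x σ + y σ) = fun σ i => E x σ i * E y σ i := by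
  funext σ i; exact sg_add _ _ _

/-- global data -/
structure Glob (ρ0 : GQ →* M22) (π : GQ →* Equiv.Perm (Fin 3)) (T : Fin 3 → Qb) : Prop where
  hπ : ∀ σ i, ρ0 σ *ᵥ ev i = ev (π σ i)
  htr : ∀ i, ∃ σ, π σ 0 = i
  hT : ∀ (σ : GQ) i, σ (T i) = T (π σ i)
  hTi : Function.Injective T
  hop : ∃ U : Subgroup GQ, IsOpen (U : Set GQ) ∧ ∀ u ∈ U, ρ0 u = 1

variable {ρ0 : GQ →* M22} {π : GQ →* Equiv.Perm (Fin 3)} {T : Fin 3 → Qb} (G : Glob ρ0 π T)
  {D : Subgroup GQ} {L Ω : Type*} [Field L] [Field Ω] [Algebra L Ω] {ι : Qb →+* Ω}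

theorem cb_add (w w' : V2) (σ : GQ) : cb ρ0 (w + w') σ = cb ρ0 w σ + cb ρ0 w' σ := by
  unfold cb; rw [Matrix.mulVec_add]; abel

include G in
theorem pair_cob {a b : L} {x : GQ → V2} (hp : Pair π T D (E x) ι a b) (w : V2) :
    Pair π T D (E (fun σ => x σ + cb ρ0 w σ)) ι a b := by
  refine hp.cob (sg_sgn w) fun d _ i => ?_
  change sg (x d + cb ρ0 w d) (π d i) = sg w (π d i) * sg (x d) (π d i) * sg w i
  unfold cb
  rw [V2_sub, sg_add, sg_add, sg_map G.hπ]; ring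

include G in
theorem pair_cob' {a b : L} {x y : GQ → V2} (hp : Pair π T D (E x) ι a b) (w : V2)
    (h : ∀ d ∈ D, y d = x d + cb ρ0 w d) :
    Pair π T D (E y) ι a b := by
  refine hp.cob (sg_sgn w) fun d hd i => ?_
  change sg (y d) (π d i) = sg w (π d i) * sg (x d) (π d i) * sg w i
  rw [h d hd]
  unfold cb
  rw [V2_sub, sg_add, sg_add, sg_map G.hπ]; ring

include G in
theorem pi_fix {i0 : Fin 3} (hfix : ∀ d ∈ D, ρ0 d *ᵥ ev i0 = ev i0) : ∀ d ∈ D, π d i0 = i0 := by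
  intro d hd
  apply ev_inj
  rw [← G.hπ, hfix d hd]

theorem sg_ev : ∀ i j : Fin 3, j ≠ i → pr (ev i) (ev j) ≠ 0 := by decide

theorem pr_self : ∀ i : Fin 3, pr (ev i) (ev i) = 0 := by decide

include G in
theorem core_formula (hι : IsLoc L D ι)
    (hBL : ∀ u a b : L, u ≠ 0 → a ≠ 0 → b ≠ 0 → (Iso u (a * b) ↔ (Iso u a ↔ Iso u b)))
    {x y : GQ → V2} (hx : IsC ρ0 x) (hxc : LC x) (hy : IsC ρ0 y) (hyc : LC y)
    {i0 : Fin 3} (hfix : ∀ d ∈ D, ρ0 d *ᵥ ev i0 = ev i0)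
    (hy0 : ∀ d ∈ D, y d = 0 ∨ y d = ev i0)
    {r : Qb} (hr0 : r ≠ 0) (hr : ∀ d ∈ D, d r = sg (y d) (i0 + 1) * r)
    {s : Qb} (hs0 : s ≠ 0) (hs : ∀ d ∈ D, d s = sg (x d) i0 * s)
    {ν a : L} (hν : algebraMap L Ω ν = ι (s ^ 2)) (ha : algebraMap L Ω a = ι (r ^ 2))
    {ax bx ay by' axy bxy : L} (hpx : Pair π T D (E x) ι ax bx) (hpy : Pair π T D (E y) ι ay by')
    (hpxy : Pair π T D (E (fun σ => x σ + y σ)) ι axy bxy) :
    Iso axy bxy ↔ ((Iso ν a ↔ Iso ay by') ↔ Iso ax bx) := by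
  rw [E_add] at hpxy
  refine local_formula G.hT G.hTi hι hBL (coc_of G.hπ hx hxc) (coc_of G.hπ hy hyc) G.htr
    (pi_fix G hfix) hr0 ?_ ?_ hs0 hs hν ha hpx hpy hpxy
  · intro d hd j hj
    rw [hr d hd]
    rcases hy0 d hd with h | h
    · simp only [h, sg_zero]
    · simp only [h]
      rw [sg_neg_one_iff.mpr (sg_ev i0 j hj), sg_neg_one_iff.mpr (sg_ev i0 (i0 + 1) (ne_succ i0).1.symm)]
  · intro d hd
    change sg (y d) i0 = 1
    rw [sg_one_iff]
    rcases hy0 d hd with h | h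
    · rw [h]; simp [pr]
    · rw [h]; exact pr_self i0

theorem sg_fix_mul {x : GQ → V2} (hx : IsC ρ0 x) {i0 : Fin 3}
    (hfix : ∀ d ∈ D, ρ0 d *ᵥ ev i0 = ev i0) :
    ∀ σ ∈ D, ∀ τ ∈ D, sg (x (σ * τ)) i0 = sg (x σ) i0 * sg (x τ) i0 := by
  intro σ hσ τ _
  rw [hx, sg_add]
  congr 1
  unfold sg
  have h1 : pr (ρ0 σ *ᵥ x τ) (ev i0) = pr (x τ) (ev i0) := by
    conv_lhs => rw [← hfix σ hσ]
    rw [pr_mul, det_rho, one_mul]
  rw [h1]

theorem sg_line_mul {y : GQ → V2} (hy : IsC ρ0 y) {i0 : Fin 3}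
    (hfix : ∀ d ∈ D, ρ0 d *ᵥ ev i0 = ev i0) (hy0 : ∀ d ∈ D, y d = 0 ∨ y d = ev i0) (j : Fin 3) :
    ∀ σ ∈ D, ∀ τ ∈ D, sg (y (σ * τ)) j = sg (y σ) j * sg (y τ) j := by
  intro σ hσ τ hτ
  have h1 : ρ0 σ *ᵥ y τ = y τ := by
    rcases hy0 τ hτ with h | h
    · rw [h, Matrix.mulVec_zero]
    · rw [h, hfix σ hσ]
  rw [hy, h1, sg_add]

include G in
/-- (A): both classes satisfy the local condition. -/
theorem parity_L {p : ℕ} [Fact p.Prime] {ι : Qb →+* PadicAlgCl p} (hι : IsLoc ℚ_[p] D ι)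
    {x y : GQ → V2} (hx : IsC ρ0 x) (hxc : LC x) (hy : IsC ρ0 y) (hyc : LC y)
    {i0 : Fin 3} (hfix : ∀ d ∈ D, ρ0 d *ᵥ ev i0 = ev i0) {wx wy : V2}
    (hwx : ∀ d ∈ D, x d + cb ρ0 wx d = 0 ∨ x d + cb ρ0 wx d = ev i0)
    (hwy : ∀ d ∈ D, y d + cb ρ0 wy d = 0 ∨ y d + cb ρ0 wy d = ev i0)
    {ax bx ay by' axy bxy : ℚ_[p]} (hpx : Pair π T D (E x) ι ax bx)
    (hpy : Pair π T D (E y) ι ay by')
    (hpxy : Pair π T D (E (fun σ => x σ + y σ)) ι axy bxy) :
    Iso axy bxy ↔ (Iso ax bx ↔ Iso ay by') := by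
  set x' : GQ → V2 := fun σ => x σ + cb ρ0 wx σ with hx'
  set y' : GQ → V2 := fun σ => y σ + cb ρ0 wy σ with hy'
  have hx'C : IsC ρ0 x' := hx.add (isC_cb wx)
  have hy'C : IsC ρ0 y' := hy.add (isC_cb wy)
  have hx'c : LC x' := hxc.add (isOpen_kerM G.hop wx)
  have hy'c : LC y' := hyc.add (isOpen_kerM G.hop wy)
  have P1 := pair_cob G hpx wx
  have P2 := pair_cob G hpy wy
  have P3 : Pair π T D (E (fun σ => x' σ + y' σ)) ι axy bxy := by
    refine pair_cob' G hpxy (wx + wy) fun d _ => ?_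
    simp only [hx', hy', cb_add]; abel
  obtain ⟨U, hU, hU1⟩ := hy'c
  obtain ⟨r, hr0, hr⟩ := exists_root_char D (fun σ => sg (y' σ) (i0 + 1)) (fun σ => (sg_sgn _).val _)
    (sg_line_mul hy'C hfix hwy _) U hU (fun u hu => by simp only [hU1 u hu, sg_zero])
  have hr2 : ∀ d ∈ D, d (r ^ 2) = r ^ 2 := by
    intro d hd
    rw [map_pow, hr d hd]
    linear_combination r ^ 2 * (sg_sgn (y' d)).sq (i0 + 1)
  obtain ⟨a, ha⟩ := hι _ hr2
  have key := core_formula G hι (fun u a b hu ha hb => iso_mul_iff hu ha hb) hx'C hx'c hy'C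
    ⟨U, hU, hU1⟩ hfix hwy hr0 hr (s := 1) one_ne_zero (by
      intro d hd
      have : sg (x' d) i0 = 1 := by
        rw [sg_one_iff]
        rcases hwx d hd with h | h
        · rw [show x' d = 0 from h]; simp [pr]
        · rw [show x' d = ev i0 from h]; exact pr_self i0
      rw [this, map_one, mul_one]) (ν := 1) (by simp) ha P1 P2 P3
  have h1 : Iso (1 : ℚ_[p]) a := by
    have := iso_of_sq (s := (1 : ℚ_[p])) a
    rwa [one_pow] at this
  rw [key]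
  simp only [h1, true_iff]
  exact iff_comm

/-! ### unramified classes -/

variable {A : ValuationSubring Qb} {φ : GQ}

theorem cob_of_frob {q : ℕ} (hq : q.Prime) (hA : A.LiesOverPrime q) (hφ : A.IsFrobeniusAt φ q)
    (hop : ∃ U : Subgroup GQ, IsOpen (U : Set GQ) ∧ ∀ u ∈ U, ρ0 u = 1)
    (hI : ∀ i ∈ A.inertiaSubgroupIn ℚ, ρ0 i = 1)
    {x : GQ → V2} (hx : IsC ρ0 x) (hxc : LC x) (hxI : ∀ i ∈ A.inertiaSubgroupIn ℚ, x i = 0)
    {w : V2} (hw : x φ = cb ρ0 w φ) : ∀ d ∈ A.decompositionSubgroup ℚ, x d = cb ρ0 w d := by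
  intro d hd
  set y : GQ → V2 := fun σ => x σ + cb ρ0 w σ with hy
  have hyC : IsC ρ0 y := hx.add (isC_cb w)
  obtain ⟨U, hU, hU1⟩ := hxc.add (isOpen_kerM hop w)
  obtain ⟨V, hVn, hV, hVU⟩ := lev.nor _ (lev_isOpen_iff.mpr hU)
  obtain ⟨m, σ, hσ, h, hh, hhD, e⟩ := exists_dec hq hA hφ hd hVn hV
  have h1 : y φ = 0 := by rw [hy]; simp only; rw [hw, V2_add_self]
  have h2 : ∀ m : ℕ, y (φ ^ m) = 0 := by
    intro m
    induction m with
    | zero => rw [pow_zero]; exact hyC.one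
    | succ m ih => rw [pow_succ, hyC, ih, h1, Matrix.mulVec_zero, add_zero]
  have h3 : y σ = 0 := by
    rw [hy]; simp only
    rw [hxI σ hσ]
    unfold cb
    rw [hI σ hσ, Matrix.one_mulVec, sub_self, add_zero]
  have h4 : y d = 0 := by
    have h5 : y h = 0 := hU1 h (hVU hh)
    rw [e, hyC, hyC, h2, h3, h5]
    simp
  have h5 : x d + cb ρ0 w d = 0 := h4
  rw [← V2_neg (cb ρ0 w d)]
  exact eq_neg_of_add_eq_zero_left h5

theorem rho_dec {q : ℕ} (hq : q.Prime) (hA : A.LiesOverPrime q) (hφ : A.IsFrobeniusAt φ q)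
    (hop : ∃ U : Subgroup GQ, IsOpen (U : Set GQ) ∧ ∀ u ∈ U, ρ0 u = 1)
    (hI : ∀ i ∈ A.inertiaSubgroupIn ℚ, ρ0 i = 1) :
    ∀ d ∈ A.decompositionSubgroup ℚ, ∃ m : ℕ, ρ0 d = ρ0 φ ^ m := by
  intro d hd
  obtain ⟨U, hU, hU1⟩ := hop
  obtain ⟨V, hVn, hV, hVU⟩ := lev.nor _ (lev_isOpen_iff.mpr hU)
  obtain ⟨m, σ, hσ, h, hh, hhD, e⟩ := exists_dec hq hA hφ hd hVn hV
  refine ⟨m, ?_⟩
  rw [e, map_mul, map_mul, hI σ hσ, hU1 h (hVU hh), mul_one, mul_one, map_pow]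

theorem three_cases' (M : M22) (hM : M.det = 1) (h1 : M ≠ 1) (a b : V2) :
    (∃ w, a = M *ᵥ w - w) ∨ (∃ w, b = M *ᵥ w - w) ∨ (∃ w, a + b = M *ᵥ w - w) := by
  revert hM h1 a b
  rw [Matrix.eta_fin_two M, Matrix.det_fin_two_of]
  generalize M 0 0 = m00
  generalize M 0 1 = m01
  generalize M 1 0 = m10
  generalize M 1 1 = m11
  revert m00 m01 m10 m11
  decide

theorem three_cases (M : M22) (hM : M.det = 1) (a b : V2) :
    (∃ w, a = M *ᵥ w - w) ∨ (∃ w, b = M *ᵥ w - w) ∨ (∃ w, a + b = M *ᵥ w - w) ∨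
    (M = 1 ∧ a ≠ 0 ∧ b ≠ 0 ∧ a ≠ b) := by
  by_cases h1 : M = 1
  · subst h1
    by_cases ha : a = 0
    · exact Or.inl ⟨0, by rw [ha]; simp⟩
    · by_cases hb : b = 0
      · exact Or.inr (Or.inl ⟨0, by rw [hb]; simp⟩)
      · by_cases hab : a = b
        · exact Or.inr (Or.inr (Or.inl ⟨0, by rw [hab, V2_add_self]; simp⟩))
        · exact Or.inr (Or.inr (Or.inr ⟨rfl, ha, hb, hab⟩))
  · rcases three_cases' M hM h1 a b with h | h | h
    · exact Or.inl h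
    · exact Or.inr (Or.inl h)
    · exact Or.inr (Or.inr (Or.inl h))

theorem range_sub (M : M22) (hM : M.det = 1) (h1 : M ≠ 1) (i : Fin 3) (hi : M *ᵥ ev i = ev i)
    (v : V2) : (∃ w, v = M *ᵥ w - w) ↔ (v = 0 ∨ v = ev i) := by
  revert hM h1 i hi v
  rw [Matrix.eta_fin_two M, Matrix.det_fin_two_of]
  generalize M 0 0 = m00
  generalize M 0 1 = m01
  generalize M 1 0 = m10
  generalize M 1 1 = m11
  revert m00 m01 m10 m11
  decide

theorem invol_fix (M : M22) (h2 : M * M = 1) (h1 : M ≠ 1) (v : V2) (hv : M *ᵥ v = v) :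
    ∃ w, v = M *ᵥ w - w := by
  revert h2 h1 v hv
  rw [Matrix.eta_fin_two M]
  generalize M 0 0 = m00
  generalize M 0 1 = m01
  generalize M 1 0 = m10
  generalize M 1 1 = m11
  revert m00 m01 m10 m11
  decide

theorem exists_nonresidue {p : ℕ} (hp : p.Prime) (hp2 : p ≠ 2) :
    ∃ n : ℤ, ¬ IsSquare (n : ZMod p) := by
  haveI := Fact.mk hp
  obtain ⟨a, ha⟩ := FiniteField.exists_nonsquare (F := ZMod p) (by
    rw [ZMod.ringChar_zmod_n]; exact hp2)
  obtain ⟨n, rfl⟩ := ZMod.intCast_surjective a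
  exact ⟨n, ha⟩

include G in
/-- (C): both classes unramified at a good odd prime. -/
theorem parity_unr {p : ℕ} [hp : Fact p.Prime] (hp2 : p ≠ 2) (hA : A.LiesOverPrime p)
    {ι : Qb →+* PadicAlgCl p} (hι : IsLoc ℚ_[p] (A.decompositionSubgroup ℚ) ι)
    (hI : ∀ i ∈ A.inertiaSubgroupIn ℚ, ρ0 i = 1)
    {x y : GQ → V2} (hx : IsC ρ0 x) (hxc : LC x) (hy : IsC ρ0 y) (hyc : LC y)
    (hxI : ∀ i ∈ A.inertiaSubgroupIn ℚ, x i = 0) (hyI : ∀ i ∈ A.inertiaSubgroupIn ℚ, y i = 0)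
    {ax bx ay by' axy bxy : ℚ_[p]} (hpx : Pair π T (A.decompositionSubgroup ℚ) (E x) ι ax bx)
    (hpy : Pair π T (A.decompositionSubgroup ℚ) (E y) ι ay by')
    (hpxy : Pair π T (A.decompositionSubgroup ℚ) (E (fun σ => x σ + y σ)) ι axy bxy) :
    Iso axy bxy ↔ (Iso ax bx ↔ Iso ay by') := by
  haveI := H51.isGalois_Qbar
  obtain ⟨φ, hφ⟩ := H05.exists_isFrobeniusAt (L := Qb) hp.out hA
  -- isotropy for local coboundaries
  have hcob : ∀ {z : GQ → V2} (hz : IsC ρ0 z) (hzc : LC z) {a b : ℚ_[p]}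
      (hpz : Pair π T (A.decompositionSubgroup ℚ) (E z) ι a b) {w : V2}
      (hw : ∀ d ∈ A.decompositionSubgroup ℚ, z d = cb ρ0 w d), Iso a b := by
    intro z hz hzc a b hpz w hw
    refine iso_of_cob G.hT G.hTi hι (fun d => sg_sgn _) hpz (sg_sgn w) ?_
    intro d hd i
    change sg (z d) (π d i) = _
    rw [hw d hd]
    unfold cb
    rw [V2_sub, sg_add, sg_map G.hπ, mul_comm]
  rcases three_cases (ρ0 φ) (det_rho ρ0 φ) (x φ) (y φ) with ⟨w, hw⟩ | ⟨w, hw⟩ | ⟨w, hw⟩ | ⟨h1, hxφ, hyφ, hne⟩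
  · have h1 := cob_of_frob hp.out hA hφ G.hop hI hx hxc hxI hw
    have I1 := hcob hx hxc hpx h1
    have I2 : Pair π T (A.decompositionSubgroup ℚ) (E y) ι axy bxy := by
      refine pair_cob' G hpxy w fun d hd => ?_
      rw [h1 d hd]
      have := V2_add_self (cb ρ0 w d)
      calc y d = y d + (cb ρ0 w d + cb ρ0 w d) := by rw [this, add_zero]
        _ = _ := by abel
    have I3 := iso_iff G.hT G.hTi (fun d => sg_sgn _) hι I2 hpy
    simp only [I1, true_iff]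
    exact I3
  · have h1 := cob_of_frob hp.out hA hφ G.hop hI hy hyc hyI hw
    have I1 := hcob hy hyc hpy h1
    have I2 : Pair π T (A.decompositionSubgroup ℚ) (E x) ι axy bxy := by
      refine pair_cob' G hpxy w fun d hd => ?_
      rw [h1 d hd]
      have := V2_add_self (cb ρ0 w d)
      calc x d = x d + (cb ρ0 w d + cb ρ0 w d) := by rw [this, add_zero]
        _ = _ := by abel
    have I3 := iso_iff G.hT G.hTi (fun d => sg_sgn _) hι I2 hpx
    simp only [I1, iff_true]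
    exact I3
  · have hxy := hx.add hy
    have hxyc := hxc.add hyc
    have h1 := cob_of_frob hp.out hA hφ G.hop hI hxy hxyc
      (fun i hi => by rw [hxI i hi, hyI i hi, add_zero]) hw
    have I1 := hcob hxy hxyc hpxy h1
    have I2 : Pair π T (A.decompositionSubgroup ℚ) (E x) ι ay by' := by
      refine pair_cob' G hpy w fun d hd => ?_
      rw [← h1 d hd]
      have := V2_add_self (y d)
      calc x d = x d + (y d + y d) := by rw [this, add_zero]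
        _ = _ := by abel
    have I3 := iso_iff G.hT G.hTi (fun d => sg_sgn _) hι I2 hpx
    simp only [I1, true_iff]
    exact I3.symm
  · -- split case
    obtain ⟨i0, hi0⟩ := exists_ev _ hyφ
    have hρD : ∀ d ∈ A.decompositionSubgroup ℚ, ρ0 d = 1 := by
      intro d hd
      obtain ⟨m, hm⟩ := rho_dec hp.out hA hφ G.hop hI d hd
      rw [hm, h1, one_pow]
    have hfix : ∀ d ∈ A.decompositionSubgroup ℚ, ρ0 d *ᵥ ev i0 = ev i0 := fun d hd => by
      rw [hρD d hd, Matrix.one_mulVec]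
    -- y takes values 0, ev i0 on D
    have hyD : ∀ d ∈ A.decompositionSubgroup ℚ, y d = 0 ∨ y d = ev i0 := by
      intro d hd
      obtain ⟨U, hU, hU1⟩ := hyc
      obtain ⟨V, hVn, hV, hVU⟩ := lev.nor _ (lev_isOpen_iff.mpr hU)
      obtain ⟨m, σ, hσ, h, hh, hhD, e⟩ := exists_dec hp.out hA hφ hd hVn hV
      have h2 : ∀ m : ℕ, y (φ ^ m) = 0 ∨ y (φ ^ m) = ev i0 := by
        intro m
        induction m with
        | zero => rw [pow_zero]; exact Or.inl hy.one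
        | succ m ih =>
          rw [pow_succ, hy, map_pow, h1, one_pow, Matrix.one_mulVec, hi0]
          rcases ih with ih | ih
          · rw [ih, zero_add]; exact Or.inr rfl
          · rw [ih, V2_add_self]; exact Or.inl rfl
      rw [e, hy, hy, hyI σ hσ, hU1 h (hVU hh), Matrix.mulVec_zero, Matrix.mulVec_zero, add_zero,
        add_zero]
      exact h2 m
    obtain ⟨n, hn⟩ := exists_nonresidue hp.out hp2
    have hpn : ¬ (p : ℤ) ∣ n := by
      intro h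
      rw [← ZMod.intCast_zmod_eq_zero_iff_dvd] at h
      exact hn (by rw [h]; exact ⟨0, by simp⟩)
    obtain ⟨s, hs⟩ := IsAlgClosed.exists_pow_nat_eq ((n : ℤ) : Qb) (n := 2) (by norm_num)
    have hs0 : s ≠ 0 := by
      rintro rfl
      apply hpn
      have : ((n : ℤ) : Qb) = 0 := by rw [← hs]; norm_num
      have h0 : n = 0 := by exact_mod_cast this
      rw [h0]; exact dvd_zero _
    have hφD := hφ.mem_decompositionSubgroup
    obtain ⟨Ux, hUx, hUx1⟩ := hxc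
    obtain ⟨Uy, hUy, hUy1⟩ := hyc
    have hsx := unr_root hp.out hp2 hA hφ (c := fun σ => sg (x σ) i0)
      (sg_fix_mul hx hfix) hUx (fun u hu => by simp only [hUx1 u hu, sg_zero])
      (fun i hi => by simp only [hxI i hi, sg_zero]) (by
        rw [sg_neg_one_iff]
        intro h
        rcases (pr_ev_iff _ _).mp h with h | h
        · exact hxφ h
        · exact hne (h.trans hi0.symm)) hn hs
    have hsy := unr_root hp.out hp2 hA hφ (c := fun σ => sg (y σ) (i0 + 1))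
      (sg_line_mul hy hfix hyD _) hUy (fun u hu => by simp only [hUy1 u hu, sg_zero])
      (fun i hi => by simp only [hyI i hi, sg_zero]) (by
        rw [sg_neg_one_iff, hi0]
        exact sg_ev i0 (i0 + 1) (ne_succ i0).1.symm) hn hs
    have hns : algebraMap ℚ_[p] (PadicAlgCl p) ((n : ℤ) : ℚ_[p]) = ι (s ^ 2) := by
      rw [hs, map_intCast, map_intCast]
    have key := core_formula G hι (fun u a b hu ha hb => iso_mul_iff hu ha hb) hx ⟨Ux, hUx, hUx1⟩ hy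
      ⟨Uy, hUy, hUy1⟩ hfix hyD hs0 hsy hs0 hsx hns hns hpx hpy hpxy
    rw [key]
    simp only [iso_self hp2 hpn, true_iff]
    exact iff_comm

include G in
/-- (B): the auxiliary prime. -/
theorem parity_q {q : ℕ} [hq : Fact q.Prime] (hq2 : q ≠ 2) (hA : A.LiesOverPrime q)
    {ι : Qb →+* PadicAlgCl q} (hιA : ∀ x, x ∈ A ↔ ‖ι x‖ ≤ 1)
    (hι : IsLoc ℚ_[q] (A.decompositionSubgroup ℚ) ι)
    (hI : ∀ i ∈ A.inertiaSubgroupIn ℚ, ρ0 i = 1) (hφ : A.IsFrobeniusAt φ q) (hφ1 : ρ0 φ ≠ 1)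
    {i0 : Fin 3} (hfixφ : ρ0 φ *ᵥ ev i0 = ev i0)
    {x y : GQ → V2} (hx : IsC ρ0 x) (hxc : LC x) (hy : IsC ρ0 y) (hyc : LC y)
    (hxI : ∀ i ∈ A.inertiaSubgroupIn ℚ, x i = 0) (hxφ : ¬ ∃ w, x φ = ρ0 φ *ᵥ w - w)
    {wy : V2} (hwy : ∀ d ∈ A.decompositionSubgroup ℚ, y d + cb ρ0 wy d = 0 ∨
      y d + cb ρ0 wy d = ev i0)
    {i : GQ} (hi : i ∈ A.inertiaSubgroupIn ℚ) (hyi : y i ≠ 0)
    {ax bx ay by' axy bxy : ℚ_[q]} (hpx : Pair π T (A.decompositionSubgroup ℚ) (E x) ι ax bx)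
    (hpy : Pair π T (A.decompositionSubgroup ℚ) (E y) ι ay by')
    (hpxy : Pair π T (A.decompositionSubgroup ℚ) (E (fun σ => x σ + y σ)) ι axy bxy) :
    Iso axy bxy ↔ ¬ (Iso ax bx ↔ Iso ay by') := by
  haveI := H51.isGalois_Qbar
  have hfix : ∀ d ∈ A.decompositionSubgroup ℚ, ρ0 d *ᵥ ev i0 = ev i0 := by
    intro d hd
    obtain ⟨m, hm⟩ := rho_dec hq.out hA hφ G.hop hI d hd
    rw [hm]
    clear hm
    induction m with
    | zero => rw [pow_zero, Matrix.one_mulVec]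
    | succ m ih => rw [pow_succ, ← Matrix.mulVec_mulVec, hfixφ, ih]
  set y' : GQ → V2 := fun σ => y σ + cb ρ0 wy σ with hy'
  have hy'C : IsC ρ0 y' := hy.add (isC_cb wy)
  have hy'c : LC y' := hyc.add (isOpen_kerM G.hop wy)
  have P2 := pair_cob G hpy wy
  have P3 : Pair π T (A.decompositionSubgroup ℚ) (E (fun σ => x σ + y' σ)) ι axy bxy := by
    refine pair_cob' G hpxy wy fun d _ => ?_
    simp only [hy']; abel
  obtain ⟨U, hU, hU1⟩ := hy'c
  obtain ⟨r, hr0, hr⟩ := exists_root_char (A.decompositionSubgroup ℚ)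
    (fun σ => sg (y' σ) (i0 + 1)) (fun σ => (sg_sgn _).val _)
    (sg_line_mul hy'C hfix hwy _) U hU (fun u hu => by simp only [hU1 u hu, sg_zero])
  have hr2 : ∀ d ∈ A.decompositionSubgroup ℚ, d (r ^ 2) = r ^ 2 := by
    intro d hd
    rw [map_pow, hr d hd]
    linear_combination r ^ 2 * (sg_sgn (y' d)).sq (i0 + 1)
  obtain ⟨a, ha⟩ := hι _ hr2
  obtain ⟨n, hn⟩ := exists_nonresidue hq.out hq2
  have hpn : ¬ (q : ℤ) ∣ n := by
    intro h
    rw [← ZMod.intCast_zmod_eq_zero_iff_dvd] at h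
    exact hn (by rw [h]; exact ⟨0, by simp⟩)
  obtain ⟨s, hs⟩ := IsAlgClosed.exists_pow_nat_eq ((n : ℤ) : Qb) (n := 2) (by norm_num)
  have hs0 : s ≠ 0 := by
    rintro rfl
    apply hpn
    have : ((n : ℤ) : Qb) = 0 := by rw [← hs]; norm_num
    have h0 : n = 0 := by exact_mod_cast this
    rw [h0]; exact dvd_zero _
  obtain ⟨Ux, hUx, hUx1⟩ := hxc
  have hsx := unr_root hq.out hq2 hA hφ (c := fun σ => sg (x σ) i0)
    (sg_fix_mul hx hfix) hUx (fun u hu => by simp only [hUx1 u hu, sg_zero])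
    (fun i hi => by simp only [hxI i hi, sg_zero]) (by
      rw [sg_neg_one_iff]
      intro h
      exact hxφ ((range_sub _ (det_rho ρ0 φ) hφ1 i0 hfixφ _).mpr ((pr_ev_iff _ _).mp h))) hn hs
  have hns : algebraMap ℚ_[q] (PadicAlgCl q) ((n : ℤ) : ℚ_[q]) = ι (s ^ 2) := by
    rw [hs, map_intCast, map_intCast]
  have key := core_formula G hι (fun u a b hu ha hb => iso_mul_iff hu ha hb) hx ⟨Ux, hUx, hUx1⟩
    hy'C ⟨U, hU, hU1⟩ hfix hwy hr0 hr hs0 hsx hns ha hpx P2 P3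
  -- the ramified element
  have hiD := inertia_le_decomposition A hi
  have hy'i : y' i = ev i0 := by
    have h1 : y' i = y i := by
      simp only [hy', cb, hI i hi, Matrix.one_mulVec, sub_self, add_zero]
    rcases hwy i hiD with h | h
    · exact absurd (h1.symm.trans h) hyi
    · exact h
  have hir : i r = -r := by
    rw [hr i hiD, hy'i, sg_neg_one_iff.mpr (sg_ev i0 (i0 + 1) (ne_succ i0).1.symm)]; ring
  have hnot := not_iso_ram hq2 hA hιA hn hr0 ha hi hir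
  rw [key]
  simp only [hnot, false_iff]
  tauto

end Fermat.Agent.H07.Z2
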