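import Fermat.Agent.H07.Z2.Par

set_option autoImplicit false
set_option linter.all false

/-!
# PROGRAM Z, package Z2: reciprocity
-/

namespace Fermat.Agent.H07.Z2

open Fermat.Agent.L00.HilbQ Fermat.Agent.CC Fermat.Agent.TW
open Matrix
open scoped Pointwise

variable {ρ0 : GQ →* M22} {π : GQ →* Equiv.Perm (Fin 3)} {T : Fin 3 → Qb} (G : Glob ρ0 π T)

/-- a rational diagonalisation -/
structure GPair (π : GQ →* Equiv.Perm (Fin 3)) (T : Fin 3 → Qb) (ε : GQ → Fin 3 → Qb) (a b : ℚ) :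
    Prop where
  ex : ∃ z z' : Fin 3 → Qb, Tw π ⊤ ε z ∧ Tw π ⊤ ε z' ∧ B (wt T) z z' = 0 ∧
    B (wt T) z z = (a : Qb) ∧ B (wt T) z' z' = (b : Qb)
  a_ne : a ≠ 0
  b_ne : b ≠ 0

theorem GPair.pair {ε : GQ → Fin 3 → Qb} {a b : ℚ} (h : GPair π T ε a b) {L Ω : Type*} [Field L]
    [Field Ω] [Algebra L Ω] [CharZero L] (ι : Qb →+* Ω) (D : Subgroup GQ) :
    Pair π T D ε ι (a : L) (b : L) := by
  obtain ⟨⟨z, z', hz, hz', ho, ha, hb⟩, a0, b0⟩ := h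
  haveI : CharZero Ω := charZero_of_injective_algebraMap (algebraMap L Ω).injective
  refine ⟨⟨z, z', hz.mono le_top, hz'.mono le_top, ho, ?_, ?_⟩, by exact_mod_cast a0,
    by exact_mod_cast b0⟩
  · rw [ha, map_ratCast, map_ratCast]
  · rw [hb, map_ratCast, map_ratCast]

theorem exists_rat {z : Qb} (h : ∀ d : GQ, d z = z) : ∃ a : ℚ, z = (a : Qb) := by
  haveI := H51.isGalois_Qbar
  have := (InfiniteGalois.mem_range_algebraMap_iff_fixed (k := ℚ) z).mpr (fun f => h f)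
  obtain ⟨a, ha⟩ := this
  exact ⟨a, ha.symm.trans (eq_ratCast _ a)⟩

include G in
theorem exists_gpair {x : GQ → V2} (hx : IsC ρ0 x) (hxc : LC x) :
    ∃ a b : ℚ, GPair π T (E x) a b := by
  have hc := coc_of G.hπ hx hxc
  obtain ⟨b, hb0, hb⟩ := hc.exists_b G.htr
  obtain ⟨z, hz, hz0⟩ := exists_aniso G.hT G.hTi hb hb0
  obtain ⟨z', hz', ho, hz'0⟩ := exists_second G.hT G.hTi hc.sgn hb hb0 hz hz0
  obtain ⟨u, hu⟩ := exists_rat (fun d => Tw.B_fixed G.hT hc.sgn hz hz d trivial)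
  obtain ⟨v, hv⟩ := exists_rat (fun d => Tw.B_fixed G.hT hc.sgn hz' hz' d trivial)
  refine ⟨u, v, ⟨z, z', hz, hz', ho, hu, hv⟩, ?_, ?_⟩
  · rintro rfl
    exact hz0 (by rw [hu, Rat.cast_zero])
  · rintro rfl
    exact hz'0 (by rw [hv, Rat.cast_zero])

include G in
theorem real_iso (hc : ρ0 complexConjugation ≠ 1) {x : GQ → V2} (hx : IsC ρ0 x) (hxc : LC x)
    {a b : ℚ} (h : GPair π T (E x) a b) : Iso (a : ℝ) (b : ℝ) := by
  have hp := h.pair (L := ℝ) (Ω := ℂ) (complexEmbedding : Qb →+* ℂ)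
    (Subgroup.zpowers complexConjugation)
  have hcc : complexConjugation * complexConjugation = (1 : GQ) := complexConjugation_mul_self
  have h1 : ρ0 complexConjugation *ᵥ x complexConjugation = x complexConjugation := by
    have h2 := hx complexConjugation complexConjugation
    rw [hcc, hx.one] at h2
    have h3 : x complexConjugation = -(ρ0 complexConjugation *ᵥ x complexConjugation) :=
      eq_neg_of_add_eq_zero_left h2.symm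
    rw [V2_neg] at h3
    exact h3.symm
  obtain ⟨w, hw⟩ := invol_fix (ρ0 complexConjugation) (by rw [← map_mul, hcc, map_one]) hc _ h1
  refine iso_of_cob G.hT G.hTi isLoc_real (fun d => sg_sgn _) hp (sg_sgn w) ?_
  intro d hd i
  change sg (x d) (π d i) = _
  have hd' : d = 1 ∨ d = complexConjugation := by
    obtain ⟨n, rfl⟩ := hd
    simp only
    rcases Int.even_or_odd n with ⟨k, rfl⟩ | ⟨k, rfl⟩
    · left
      rw [_root_.zpow_add, ← (Commute.refl complexConjugation).mul_zpow, hcc, _root_.one_zpow]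
    · right
      rw [_root_.zpow_add, two_mul, _root_.zpow_add, ← (Commute.refl complexConjugation).mul_zpow, hcc, _root_.one_zpow,
        one_mul, zpow_one]
  have hd2 : x d = cb ρ0 w d := by
    rcases hd' with rfl | rfl
    · rw [hx.one]; unfold cb; rw [map_one, Matrix.one_mulVec, sub_self]
    · exact hw
  rw [hd2]
  unfold cb
  rw [V2_sub, sg_add, sg_map G.hπ, mul_comm]

theorem even_symmDiff {α : Type*} [DecidableEq α] (s t : Finset α) :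
    Even (symmDiff s t).card ↔ (Even s.card ↔ Even t.card) := by
  have h1 : (symmDiff s t).card + 2 * (s ∩ t).card = s.card + t.card := by
    have e1 := Finset.card_sdiff_add_card_inter s t
    have e2 := Finset.card_sdiff_add_card_inter t s
    have e3 : (symmDiff s t).card = (s \ t).card + (t \ s).card := by
      rw [symmDiff, Finset.sup_eq_union, Finset.card_union_of_disjoint]
      exact Finset.disjoint_of_subset_right Finset.sdiff_subset Finset.sdiff_disjoint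
    rw [Finset.inter_comm t s] at e2
    omega
  rw [← Nat.even_add, ← h1, Nat.even_add]
  simp

theorem pA {R Q P1 P2 P3 : Prop} (hR : R) (hQ : ¬Q) (h : P3 ↔ (P1 ↔ P2)) :
    (R ∧ ¬P3) ↔ (((R ∧ ¬P1) ∧ ¬(R ∧ ¬P2) ∨ (R ∧ ¬P2) ∧ ¬(R ∧ ¬P1)) ∧ ¬Q ∨
      Q ∧ ¬((R ∧ ¬P1) ∧ ¬(R ∧ ¬P2) ∨ (R ∧ ¬P2) ∧ ¬(R ∧ ¬P1))) := by
  by_cases h1 : P1 <;> by_cases h2 : P2 <;> simp_all

theorem pB {R Q P1 P2 P3 : Prop} (hR : R) (hQ : Q) (h : P3 ↔ ¬ (P1 ↔ P2)) :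
    (R ∧ ¬P3) ↔ (((R ∧ ¬P1) ∧ ¬(R ∧ ¬P2) ∨ (R ∧ ¬P2) ∧ ¬(R ∧ ¬P1)) ∧ ¬Q ∨
      Q ∧ ¬((R ∧ ¬P1) ∧ ¬(R ∧ ¬P2) ∨ (R ∧ ¬P2) ∧ ¬(R ∧ ¬P1))) := by
  by_cases h1 : P1 <;> by_cases h2 : P2 <;> simp_all

theorem pC {R Q P1 P2 P3 : Prop} (hR : ¬R) (hQ : ¬Q) :
    (R ∧ ¬P3) ↔ (((R ∧ ¬P1) ∧ ¬(R ∧ ¬P2) ∨ (R ∧ ¬P2) ∧ ¬(R ∧ ¬P1)) ∧ ¬Q ∨
      Q ∧ ¬((R ∧ ¬P1) ∧ ¬(R ∧ ¬P2) ∨ (R ∧ ¬P2) ∧ ¬(R ∧ ¬P1))) := by
  simp_all

include G in
/-- **Reciprocity.** -/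
theorem reciprocity (hc : ρ0 complexConjugation ≠ 1)
    {pl : ℕ → ValuationSubring Qb} (hpl : ∀ p, p.Prime → (pl p).LiesOverPrime p)
    {x y : GQ → V2} (hx : IsC ρ0 x) (hxc : LC x) (hy : IsC ρ0 y) (hyc : LC y)
    {q : ℕ} (hq : q.Prime) (hq2 : q ≠ 2)
    (hqI : ∀ i ∈ (pl q).inertiaSubgroupIn ℚ, ρ0 i = 1) {φ : GQ} (hφ : (pl q).IsFrobeniusAt φ q)
    (hφ1 : ρ0 φ ≠ 1) {e : V2} (he : e ≠ 0) (hfixφ : ρ0 φ *ᵥ e = e)
    (hxI : ∀ i ∈ (pl q).inertiaSubgroupIn ℚ, x i = 0) (hxφ : ¬ ∃ w, x φ = ρ0 φ *ᵥ w - w)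
    {wy : V2} (hwy : ∀ d ∈ (pl q).decompositionSubgroup ℚ, y d + cb ρ0 wy d = 0 ∨
      y d + cb ρ0 wy d = e)
    (hother : ∀ p : ℕ, p.Prime → p ≠ q →
      (p ≠ 2 ∧ (∀ i ∈ (pl p).inertiaSubgroupIn ℚ, ρ0 i = 1) ∧
        (∀ i ∈ (pl p).inertiaSubgroupIn ℚ, x i = 0) ∧
        (∀ i ∈ (pl p).inertiaSubgroupIn ℚ, y i = 0)) ∨
      (∃ e : V2, e ≠ 0 ∧ (∀ d ∈ (pl p).decompositionSubgroup ℚ, ρ0 d *ᵥ e = e) ∧
        (∃ w, ∀ d ∈ (pl p).decompositionSubgroup ℚ, x d + cb ρ0 w d = 0 ∨ x d + cb ρ0 w d = e) ∧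
        (∃ w, ∀ d ∈ (pl p).decompositionSubgroup ℚ, y d + cb ρ0 w d = 0 ∨ y d + cb ρ0 w d = e))) :
    ∀ i ∈ (pl q).inertiaSubgroupIn ℚ, y i = 0 := by
  classical
  by_contra hcon
  push Not at hcon
  obtain ⟨i, hi, hyi⟩ := hcon
  obtain ⟨a1, b1, P1⟩ := exists_gpair G hx hxc
  obtain ⟨a2, b2, P2⟩ := exists_gpair G hy hyc
  obtain ⟨a3, b3, P3⟩ := exists_gpair G (hx.add hy) (hxc.add hyc)
  obtain ⟨F1, E1⟩ := even_aniso P1.a_ne P1.b_ne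
  obtain ⟨F2, E2⟩ := even_aniso P2.a_ne P2.b_ne
  obtain ⟨F3, E3⟩ := even_aniso P3.a_ne P3.b_ne
  have R1 := E1.mpr (real_iso G hc hx hxc P1)
  have R2 := E2.mpr (real_iso G hc hy hyc P2)
  have R3 := E3.mpr (real_iso G hc (hx.add hy) (hxc.add hyc) P3)
  -- local statements
  have loc1 : ∀ p : ℕ, p.Prime → p ≠ q → (IsoAt p a3 b3 ↔ (IsoAt p a1 b1 ↔ IsoAt p a2 b2)) := by
    intro p hp hpq
    haveI := Fact.mk hp
    have conv : ∀ a b : ℚ, IsoAt p a b ↔ Iso (a : ℚ_[p]) (b : ℚ_[p]) := fun a b =>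
      ⟨fun h => h ⟨hp⟩, fun h _ => h⟩
    rw [conv, conv, conv]
    obtain ⟨ι, hιA, hι⟩ := exists_padic_emb (hpl p hp)
    rcases hother p hp hpq with ⟨hp2, hI, hxI, hyI⟩ | ⟨e, he, hfix, ⟨wx, hwx⟩, ⟨wy, hwy⟩⟩
    · exact parity_unr G hp2 (hpl p hp) hι hI hx hxc hy hyc hxI hyI (P1.pair ι _) (P2.pair ι _)
        (P3.pair ι _)
    · obtain ⟨i0, rfl⟩ := exists_ev e he
      exact parity_L G hι hx hxc hy hyc hfix hwx hwy (P1.pair ι _) (P2.pair ι _) (P3.pair ι _)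
  have loc2 : IsoAt q a3 b3 ↔ ¬ (IsoAt q a1 b1 ↔ IsoAt q a2 b2) := by
    haveI := Fact.mk hq
    have conv : ∀ a b : ℚ, IsoAt q a b ↔ Iso (a : ℚ_[q]) (b : ℚ_[q]) := fun a b =>
      ⟨fun h => h ⟨hq⟩, fun h _ => h⟩
    rw [conv, conv, conv]
    obtain ⟨ι, hιA, hι⟩ := exists_padic_emb (hpl q hq)
    obtain ⟨i0, rfl⟩ := exists_ev e he
    exact parity_q G hq2 (hpl q hq) hιA hι hqI hφ hφ1 hfixφ hx hxc hy hyc hxI hxφ hwy hi hyi
      (P1.pair ι _) (P2.pair ι _) (P3.pair ι _)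
  -- counting
  set S1 := F1.toFinset with hS1
  set S2 := F2.toFinset with hS2
  set S3 := F3.toFinset with hS3
  rw [Set.ncard_eq_toFinset_card _ F1] at R1
  rw [Set.ncard_eq_toFinset_card _ F2] at R2
  rw [Set.ncard_eq_toFinset_card _ F3] at R3
  have hS : S3 = symmDiff (symmDiff S1 S2) {q} := by
    ext p
    simp only [Finset.mem_symmDiff, Finset.mem_singleton, hS1, hS2, hS3, Set.Finite.mem_toFinset,
      Set.mem_setOf_eq]
    by_cases hpq : p = q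
    · rw [hpq]
      exact pB hq rfl loc2
    · by_cases hp : p.Prime
      · exact pA hp hpq (loc1 p hp hpq)
      · exact pC hp hpq
  rw [← hS3, hS, even_symmDiff, even_symmDiff] at R3
  rw [← hS1] at R1
  rw [← hS2] at R2
  simp only [R1, R2, iff_self, true_iff, Finset.card_singleton] at R3
  exact absurd R3 (by decide)

end Fermat.Agent.H07.Z2
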