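import Fermat.Agent.H07.Z2.Recip
import Fermat.Agent.H07.Z2.GT
import Fermat.Agent.H25.Density
import Fermat.Agent.WMW.Finite

set_option autoImplicit false
set_option linter.all false

/-!
# PROGRAM Z, package Z2: Selmer cocycles and the induction step
-/

namespace Fermat.Agent.H07.Z2

open Fermat.Agent.CC Fermat.Agent.TW
open Matrix
open scoped Pointwise

variable {ρ0 : GQ →* M22}

/-! ### conjugation -/

theorem dec_conj {A : ValuationSubring Qb} {g d : GQ}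
    (h : d ∈ (g • A).decompositionSubgroup ℚ) : g⁻¹ * d * g ∈ A.decompositionSubgroup ℚ := by
  rw [ValuationSubring.decompositionSubgroup, MulAction.mem_stabilizer_iff] at h ⊢
  rw [mul_smul, mul_smul, h, inv_smul_smul]

theorem dec_conj' {A : ValuationSubring Qb} (g : GQ) {d : GQ}
    (h : d ∈ A.decompositionSubgroup ℚ) : g * d * g⁻¹ ∈ (g • A).decompositionSubgroup ℚ := by
  rw [ValuationSubring.decompositionSubgroup, MulAction.mem_stabilizer_iff] at h ⊢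
  rw [mul_smul, mul_smul, inv_smul_smul, h]

theorem IsC.conj {x : GQ → V2} (hx : IsC ρ0 x) (g d : GQ) :
    x (g * d * g⁻¹) + cb ρ0 (x g) (g * d * g⁻¹) = ρ0 g *ᵥ x d := by
  rw [hx, hx, hx.inv]
  unfold cb
  rw [Matrix.mulVec_mulVec, ← map_mul, V2_sub]
  have := V2_add_self (x g)
  have h2 := V2_add_self (ρ0 (g * d * g⁻¹) *ᵥ x g)
  calc x g + ρ0 g *ᵥ x d + ρ0 (g * d * g⁻¹) *ᵥ x g + (ρ0 (g * d * g⁻¹) *ᵥ x g + x g)
      = ρ0 g *ᵥ x d + (x g + x g) + (ρ0 (g * d * g⁻¹) *ᵥ x g + ρ0 (g * d * g⁻¹) *ᵥ x g) := by abel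
    _ = _ := by rw [this, h2, add_zero, add_zero]

theorem IsC.conj_ker {x : GQ → V2} (hx : IsC ρ0 x) (g d : GQ) (hd : ρ0 d = 1) :
    x (g * d * g⁻¹) = ρ0 g *ᵥ x d := by
  have h := hx.conj g d
  have h1 : ρ0 (g * d * g⁻¹) = 1 := by
    rw [map_mul, map_mul, hd, mul_one, ← map_mul, mul_inv_cancel, map_one]
  unfold cb at h
  rwa [h1, Matrix.one_mulVec, sub_self, add_zero] at h

/-- the decomposition groups at `p` act through a group of order two -/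
def Good2 (ρ0 : GQ →* M22) (p : ℕ) : Prop :=
  ∀ A : ValuationSubring Qb, A.LiesOverPrime p →
    (∃ e : V2, e ≠ 0 ∧ ∀ d ∈ A.decompositionSubgroup ℚ, ρ0 d *ᵥ e = e) ∧
    ∃ g ∈ A.decompositionSubgroup ℚ, ρ0 g ≠ 1

theorem good2_of {p : ℕ} (hp : p.Prime) {A : ValuationSubring Qb} (hA : A.LiesOverPrime p)
    (h1 : ∃ e : V2, e ≠ 0 ∧ ∀ d ∈ A.decompositionSubgroup ℚ, ρ0 d *ᵥ e = e)
    (h2 : ∃ g ∈ A.decompositionSubgroup ℚ, ρ0 g ≠ 1) : Good2 ρ0 p := by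
  haveI := H51.isGalois_Qbar
  intro A' hA'
  obtain ⟨g, rfl⟩ := H05.exists_smul_eq hp hA hA'
  obtain ⟨e, he, hfix⟩ := h1
  obtain ⟨s, hs, hs1⟩ := h2
  refine ⟨⟨ρ0 g *ᵥ e, ?_, ?_⟩, g * s * g⁻¹, dec_conj' g hs, ?_⟩
  · intro h
    apply he
    have : ρ0 g⁻¹ *ᵥ (ρ0 g *ᵥ e) = 0 := by rw [h, Matrix.mulVec_zero]
    rwa [Matrix.mulVec_mulVec, ← map_mul, inv_mul_cancel, map_one, Matrix.one_mulVec] at this
  · intro d hd
    have h3 := hfix _ (dec_conj hd)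
    have h4 : ρ0 g *ᵥ (ρ0 (g⁻¹ * d * g) *ᵥ e) = ρ0 g *ᵥ e := by rw [h3]
    rw [Matrix.mulVec_mulVec, ← map_mul] at h4
    rw [Matrix.mulVec_mulVec, ← map_mul, ← h4]
    congr 2
    group
  · intro h
    apply hs1
    have : ρ0 s = ρ0 g⁻¹ * ρ0 (g * s * g⁻¹) * ρ0 g := by
      rw [← map_mul, ← map_mul]; congr 1; group
    rw [this, h, mul_one, ← map_mul, inv_mul_cancel, map_one]

theorem fix_line (M : M22) (hM : M.det = 1) (h1 : M ≠ 1) (i : Fin 3) (hi : M *ᵥ ev i = ev i)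
    (v : V2) (hv : M *ᵥ v = v) : v = 0 ∨ v = ev i := by
  revert hM h1 i hi v hv
  rw [Matrix.eta_fin_two M, Matrix.det_fin_two_of]
  generalize M 0 0 = m00
  generalize M 0 1 = m01
  generalize M 1 0 = m10
  generalize M 1 1 = m11
  revert m00 m01 m10 m11
  decide

/-- Selmer cocycles -/
structure SelC (ρ0 : GQ →* M22) (S : Finset Nat.Primes) (x : GQ → V2) : Prop where
  isC : IsC ρ0 x
  lc : LC x
  unr : ∀ p : Nat.Primes, p ∉ S → ∀ A : ValuationSubring Qb, A.LiesOverPrime (p : ℕ) →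
    ∀ i ∈ A.inertiaSubgroupIn ℚ, x i = 0
  loc : ∀ p ∈ S, ∀ A : ValuationSubring Qb, A.LiesOverPrime (p : ℕ) → ∃ w : V2,
    ∀ d ∈ A.decompositionSubgroup ℚ, ∀ d' ∈ A.decompositionSubgroup ℚ,
      ρ0 d' *ᵥ (x d + cb ρ0 w d) = x d + cb ρ0 w d

theorem SelC.add {S : Finset Nat.Primes} {x y : GQ → V2} (hx : SelC ρ0 S x) (hy : SelC ρ0 S y) :
    SelC ρ0 S (fun g => x g + y g) where
  isC := hx.isC.add hy.isC
  lc := hx.lc.add hy.lc
  unr p hp A hA i hi := by rw [hx.unr p hp A hA i hi, hy.unr p hp A hA i hi, add_zero]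
  loc p hp A hA := by
    obtain ⟨w, hw⟩ := hx.loc p hp A hA
    obtain ⟨w', hw'⟩ := hy.loc p hp A hA
    refine ⟨w + w', fun d hd d' hd' => ?_⟩
    have e : x d + y d + cb ρ0 (w + w') d = (x d + cb ρ0 w d) + (y d + cb ρ0 w' d) := by
      rw [cb_add]; abel
    rw [e, Matrix.mulVec_add, hw d hd d' hd', hw' d hd d' hd']

theorem SelC.zero {S : Finset Nat.Primes} : SelC ρ0 S (fun _ => 0) where
  isC := fun a b => by simp
  lc := ⟨⊤, isOpen_univ, fun _ _ => rfl⟩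
  unr := fun _ _ _ _ _ _ => rfl
  loc := fun p hp A hA => ⟨0, fun d _ d' _ => by simp [cb]⟩

/-- the local condition in terms of the fixed line -/
theorem SelC.line {S : Finset Nat.Primes} {x : GQ → V2} (hx : SelC ρ0 S x) {p : Nat.Primes}
    (hp : p ∈ S) {A : ValuationSubring Qb} (hA : A.LiesOverPrime (p : ℕ)) {e : V2} (he : e ≠ 0)
    (hfix : ∀ d ∈ A.decompositionSubgroup ℚ, ρ0 d *ᵥ e = e)
    (hg : ∃ g ∈ A.decompositionSubgroup ℚ, ρ0 g ≠ 1) :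
    ∃ w, ∀ d ∈ A.decompositionSubgroup ℚ, x d + cb ρ0 w d = 0 ∨ x d + cb ρ0 w d = e := by
  obtain ⟨w, hw⟩ := hx.loc p hp A hA
  obtain ⟨g, hg, hg1⟩ := hg
  obtain ⟨i, rfl⟩ := exists_ev e he
  exact ⟨w, fun d hd => fix_line (ρ0 g) (det_rho ρ0 g) hg1 i (hfix g hg) _ (hw d hd g hg)⟩

/-- the global data -/
structure Env (ρ0 : GQ →* M22) (S : Finset Nat.Primes) : Prop where
  hop : ∃ U : Subgroup GQ, IsOpen (U : Set GQ) ∧ ∀ u ∈ U, ρ0 u = 1
  htr : ∀ v w : V2, v ≠ 0 → w ≠ 0 → ∃ g, ρ0 g *ᵥ v = w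
  hcc : ρ0 complexConjugation ≠ 1
  two : (⟨2, Nat.prime_two⟩ : Nat.Primes) ∈ S
  unr : ∀ p : Nat.Primes, p ∉ S → ∀ A : ValuationSubring Qb, A.LiesOverPrime (p : ℕ) →
    ∀ i ∈ A.inertiaSubgroupIn ℚ, ρ0 i = 1
  good : ∀ p ∈ S, Good2 ρ0 (p : ℕ)

theorem Env.glob {S : Finset Nat.Primes} (h : Env ρ0 S) :
    ∃ (π : GQ →* Equiv.Perm (Fin 3)) (T : Fin 3 → Qb), Glob ρ0 π T := by
  obtain ⟨π, hπ⟩ := exists_pi ρ0
  have htr : ∀ i, ∃ σ, π σ 0 = i := by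
    intro i
    obtain ⟨g, hg⟩ := h.htr (ev 0) (ev i) (ev_ne 0) (ev_ne i)
    exact ⟨g, ev_inj (by rw [← hπ, hg])⟩
  obtain ⟨T, hTi, hT⟩ := exists_T htr (pi_ker_open h.hop hπ)
  exact ⟨π, T, hπ, htr, hT, hTi, h.hop⟩

/-- local data of a Frobenius element of order two at a prime outside `S` -/
theorem frob_fix {q : ℕ} (hq : q.Prime) {A : ValuationSubring Qb} (hA : A.LiesOverPrime q)
    {φ : GQ} (hφ : A.IsFrobeniusAt φ q) (hφ2 : ρ0 φ * ρ0 φ = 1) (hφ1 : ρ0 φ ≠ 1)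
    (hop : ∃ U : Subgroup GQ, IsOpen (U : Set GQ) ∧ ∀ u ∈ U, ρ0 u = 1)
    (hI : ∀ i ∈ A.inertiaSubgroupIn ℚ, ρ0 i = 1) :
    ∃ e : V2, e ≠ 0 ∧ ρ0 φ *ᵥ e = e ∧ ∀ d ∈ A.decompositionSubgroup ℚ, ρ0 d *ᵥ e = e := by
  have h0 : ∃ e : V2, e ≠ 0 ∧ ρ0 φ *ᵥ e = e := by
    have key : ∀ M : M22, M * M = 1 → ∃ e : V2, e ≠ 0 ∧ M *ᵥ e = e := by
      intro M
      rw [Matrix.eta_fin_two M]
      generalize M 0 0 = m00
      generalize M 0 1 = m01
      generalize M 1 0 = m10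
      generalize M 1 1 = m11
      revert m00 m01 m10 m11
      decide
    exact key _ hφ2
  obtain ⟨e, he, hfix⟩ := h0
  refine ⟨e, he, hfix, fun d hd => ?_⟩
  obtain ⟨m, hm⟩ := rho_dec hq hA hφ hop hI d hd
  rw [hm]
  clear hm
  induction m with
  | zero => rw [_root_.pow_zero, Matrix.one_mulVec]
  | succ m ih => rw [pow_succ, ← Matrix.mulVec_mulVec, hfix, ih]

/-- **The induction step** (reciprocity). -/
theorem sel_step {S : Finset Nat.Primes} (h : Env ρ0 S) {x : GQ → V2} (hx : SelC ρ0 S x)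
    {q : Nat.Primes} (hq : q ∉ S) {A : ValuationSubring Qb} (hA : A.LiesOverPrime (q : ℕ))
    {φ : GQ} (hφ : A.IsFrobeniusAt φ (q : ℕ)) (hφ1 : ρ0 φ ≠ 1) (hφ2 : ρ0 φ * ρ0 φ = 1)
    (hxφ : ¬ ∃ w, x φ = ρ0 φ *ᵥ w - w) {y : GQ → V2} (hy : SelC ρ0 (insert q S) y) :
    SelC ρ0 S y ∧ ∃ w, y φ = cb ρ0 w φ := by
  classical
  haveI := H51.isGalois_Qbar
  obtain ⟨π, T, G⟩ := h.glob
  have hq2 : (q : ℕ) ≠ 2 := by
    intro h2
    apply hq
    have : q = ⟨2, Nat.prime_two⟩ := Subtype.ext h2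
    rw [this]; exact h.two
  have hI : ∀ i ∈ A.inertiaSubgroupIn ℚ, ρ0 i = 1 := h.unr q hq A hA
  obtain ⟨e, he, hfixφ, hfix⟩ := frob_fix q.2 hA hφ hφ2 hφ1 h.hop hI
  obtain ⟨wy, hwy⟩ := hy.line (Finset.mem_insert_self q S) hA he hfix
    ⟨φ, hφ.mem_decompositionSubgroup, hφ1⟩
  -- places
  have hpl : ∀ p : ℕ, ∃ A' : ValuationSubring Qb, (p = q → A' = A) ∧
      (p.Prime → A'.LiesOverPrime p) := by
    intro p
    by_cases hpq : p = q
    · exact ⟨A, fun _ => rfl, fun _ => by rw [hpq]; exact hA⟩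
    · by_cases hp : p.Prime
      · obtain ⟨A', hA'⟩ := H05.exists_liesOverPrime Qb hp
        exact ⟨A', fun h => absurd h hpq, fun _ => hA'⟩
      · exact ⟨A, fun _ => rfl, fun h => absurd h hp⟩
  choose pl hpl1 hpl2 using hpl
  have hplq : pl q = A := hpl1 q rfl
  have hyI : ∀ i ∈ A.inertiaSubgroupIn ℚ, y i = 0 := by
    have := reciprocity G h.hcc hpl2 hx.isC hx.lc hy.isC hy.lc q.2 hq2 (by rw [hplq]; exact hI)
      (by rw [hplq]; exact hφ) hφ1 he hfixφ (by rw [hplq]; exact hx.unr q hq A hA) hxφ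
      (by rw [hplq]; exact hwy) ?_
    · rwa [hplq] at this
    · intro p hp hpq
      by_cases hpS : (⟨p, hp⟩ : Nat.Primes) ∈ S
      · right
        obtain ⟨⟨e', he', hfix'⟩, hg'⟩ := h.good _ hpS _ (hpl2 p hp)
        exact ⟨e', he', hfix', hx.line hpS (hpl2 p hp) he' hfix' hg',
          hy.line (Finset.mem_insert_of_mem hpS) (hpl2 p hp) he' hfix' hg'⟩
      · left
        refine ⟨?_, h.unr _ hpS _ (hpl2 p hp), hx.unr _ hpS _ (hpl2 p hp), hy.unr ⟨p, hp⟩ ?_ _ (hpl2 p hp)⟩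
        · rintro rfl
          exact hpS h.two
        · intro hmem
          rcases Finset.mem_insert.mp hmem with h' | h'
          · exact hpq (congrArg Subtype.val h')
          · exact hpS h'
  refine ⟨⟨hy.isC, hy.lc, ?_, fun p hp => hy.loc p (Finset.mem_insert_of_mem hp)⟩, ?_⟩
  · intro p hp A' hA' i hi
    by_cases hpq : p = q
    · subst hpq
      obtain ⟨g, rfl⟩ := H05.exists_smul_eq p.2 hA hA'
      have h1 := H09.inertia_conj hi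
      have h2 : i = g * (g⁻¹ * i * g) * g⁻¹ := by group
      rw [h2, hy.isC.conj_ker g _ (hI _ h1), hyI _ h1, Matrix.mulVec_zero]
    · refine hy.unr p ?_ A' hA' i hi
      intro hmem
      rcases Finset.mem_insert.mp hmem with h' | h'
      · exact hpq h'
      · exact hp h'
  · obtain ⟨i, rfl⟩ := exists_ev e he
    have h1 := hwy φ hφ.mem_decompositionSubgroup
    rw [← range_sub (ρ0 φ) (det_rho ρ0 φ) hφ1 i hfixφ] at h1
    obtain ⟨w, hw⟩ := h1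
    refine ⟨wy + w, ?_⟩
    rw [cb_add]
    have h2 : y φ = cb ρ0 wy φ + (y φ + cb ρ0 wy φ) := by
      have := V2_add_self (cb ρ0 wy φ)
      calc y φ = y φ + (cb ρ0 wy φ + cb ρ0 wy φ) := by rw [this, add_zero]
        _ = _ := by abel
    rw [h2, hw]
    rfl

end Fermat.Agent.H07.Z2
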