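import Fermat.Agent.H07.Z2.Emb

set_option autoImplicit false
set_option linter.all false

/-!
# PROGRAM Z, package Z2: cocycles with values in `𝔽₂²`
-/

namespace Fermat.Agent.H07.Z2

open Fermat.Agent.L00.HilbQ Fermat.Agent.CC
open Matrix

/-- the module -/
abbrev V2 : Type := Fin 2 → ZMod 2

/-- 2 by 2 matrices over `𝔽₂` -/
abbrev M22 : Type := Matrix (Fin 2) (Fin 2) (ZMod 2)

/-- the three nonzero vectors -/
def ev : Fin 3 → V2 := ![![1, 0], ![0, 1], ![1, 1]]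

theorem ev_inj : Function.Injective ev := by decide

theorem ev_ne (i : Fin 3) : ev i ≠ 0 := by revert i; decide

theorem exists_ev : ∀ v : V2, v ≠ 0 → ∃ i, v = ev i := by decide

theorem V2_add_self (v : V2) : v + v = 0 := by revert v; decide

theorem V2_neg (v : V2) : -v = v := by revert v; decide

theorem V2_sub (v w : V2) : v - w = v + w := by rw [sub_eq_add_neg, V2_neg]

/-- the Weil pairing -/
def pr (v w : V2) : ZMod 2 := v 0 * w 1 - v 1 * w 0

theorem pr_add (u v w : V2) : pr (u + v) w = pr u w + pr v w := by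
  simp only [pr, Pi.add_apply]; ring

theorem pr_mul (M : M22) (v w : V2) : pr (M *ᵥ v) (M *ᵥ w) = M.det * pr v w := by
  simp only [pr, Matrix.mulVec, dotProduct, Fin.sum_univ_two, Matrix.det_fin_two]; ring

/-- the signs -/
noncomputable def sg (v : V2) (i : Fin 3) : Qb := if pr v (ev i) = 0 then 1 else -1

theorem zmod2_cases : ∀ a : ZMod 2, a = 0 ∨ a = 1 := by decide

theorem sg_add (v w : V2) (i : Fin 3) : sg (v + w) i = sg v i * sg w i := by
  unfold sg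
  rw [pr_add]
  rcases zmod2_cases (pr v (ev i)) with h | h <;> rcases zmod2_cases (pr w (ev i)) with h' | h' <;>
    rw [h, h'] <;> simp [show (1 : ZMod 2) + 1 = 0 from rfl]

theorem sg_zero (i : Fin 3) : sg 0 i = 1 := by
  unfold sg; simp [pr]

theorem sg_one_iff {v : V2} {i : Fin 3} : sg v i = 1 ↔ pr v (ev i) = 0 := by
  unfold sg
  split_ifs with h
  · simp [h]
  · simp only [h, iff_false]
    norm_num

theorem sg_neg_one_iff {v : V2} {i : Fin 3} : sg v i = -1 ↔ pr v (ev i) ≠ 0 := by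
  unfold sg
  split_ifs with h
  · simp only [h, ne_eq, not_true_eq_false, iff_false]
    norm_num
  · simp [h]

theorem sg_sgn (v : V2) : Sgn (sg v) where
  val i := by
    unfold sg; split_ifs <;> simp
  prod := by
    have h : ∀ v : V2, (pr v (ev 0) = 0 ∧ pr v (ev 1) = 0 ∧ pr v (ev 2) = 0) ∨
      (pr v (ev 0) = 0 ∧ pr v (ev 1) ≠ 0 ∧ pr v (ev 2) ≠ 0) ∨
      (pr v (ev 0) ≠ 0 ∧ pr v (ev 1) = 0 ∧ pr v (ev 2) ≠ 0) ∨
      (pr v (ev 0) ≠ 0 ∧ pr v (ev 1) ≠ 0 ∧ pr v (ev 2) = 0) := by decide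
    unfold sg
    rcases h v with h | h | h | h <;> simp [h.1, h.2.1, h.2.2]

theorem pr_ev_iff : ∀ (v : V2) (i : Fin 3), pr v (ev i) = 0 ↔ (v = 0 ∨ v = ev i) := by decide

section Rep

variable (ρ0 : GQ →* M22)

theorem det_rho (σ : GQ) : (ρ0 σ).det = 1 := by
  have h1 : (ρ0 σ).det * (ρ0 σ⁻¹).det = 1 := by
    rw [← Matrix.det_mul, ← map_mul, mul_inv_cancel, map_one, Matrix.det_one]
  rcases zmod2_cases (ρ0 σ).det with h | h
  · rw [h, zero_mul] at h1
    exact absurd h1 (by decide)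
  · exact h

/-- the index function -/
def ixM (M : M22) (i : Fin 3) : Fin 3 :=
  if M *ᵥ ev i = ev 0 then 0 else if M *ᵥ ev i = ev 1 then 1 else 2

theorem ixM_spec : ∀ (M : M22) (i : Fin 3), M.det = 1 → M *ᵥ ev i = ev (ixM M i) := by
  intro M i
  rw [Matrix.eta_fin_two M, Matrix.det_fin_two_of]
  generalize M 0 0 = a
  generalize M 0 1 = b
  generalize M 1 0 = c
  generalize M 1 1 = d
  revert a b c d i
  decide

theorem exists_pi : ∃ π : GQ →* Equiv.Perm (Fin 3), ∀ σ i, ρ0 σ *ᵥ ev i = ev (π σ i) := by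
  let f : GQ →* Function.End (Fin 3) :=
    { toFun := fun σ => ixM (ρ0 σ)
      map_one' := by
        funext i
        apply ev_inj
        rw [← ixM_spec _ _ (det_rho ρ0 1), map_one, Matrix.one_mulVec]
        rfl
      map_mul' := by
        intro σ τ
        funext i
        apply ev_inj
        rw [← ixM_spec _ _ (det_rho ρ0 _), map_mul, ← Matrix.mulVec_mulVec,
          ixM_spec _ _ (det_rho ρ0 τ), ixM_spec _ _ (det_rho ρ0 σ)]
        rfl }
  exact ⟨MonoidHom.toHomPerm f, fun σ i => ixM_spec _ _ (det_rho ρ0 σ)⟩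

/-- cocycles -/
def IsC (x : GQ → V2) : Prop := ∀ a b, x (a * b) = x a + ρ0 a *ᵥ x b

/-- locally constant -/
def LC (x : GQ → V2) : Prop := ∃ U : Subgroup GQ, IsOpen (U : Set GQ) ∧ ∀ u ∈ U, x u = 0

/-- coboundary -/
noncomputable def cb (w : V2) (σ : GQ) : V2 := ρ0 σ *ᵥ w - w

variable {ρ0}

theorem IsC.one {x : GQ → V2} (hx : IsC ρ0 x) : x 1 = 0 := by
  have := hx 1 1
  rw [mul_one, map_one, Matrix.one_mulVec] at this
  simpa using this

theorem IsC.add {x y : GQ → V2} (hx : IsC ρ0 x) (hy : IsC ρ0 y) : IsC ρ0 (fun σ => x σ + y σ) := by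
  intro a b
  simp only
  rw [hx, hy, Matrix.mulVec_add]; abel

theorem isC_cb (w : V2) : IsC ρ0 (cb ρ0 w) := by
  intro a b
  unfold cb
  rw [map_mul, ← Matrix.mulVec_mulVec, Matrix.mulVec_sub]; abel

theorem LC.add {x y : GQ → V2} (hx : LC x) (hy : LC y) : LC (fun σ => x σ + y σ) := by
  obtain ⟨U, hU, h1⟩ := hx
  obtain ⟨U', hU', h1'⟩ := hy
  exact ⟨U ⊓ U', hU.inter hU', fun u hu => by simp only; rw [h1 u hu.1, h1' u hu.2, add_zero]⟩

theorem isOpen_kerM (hop : ∃ U : Subgroup GQ, IsOpen (U : Set GQ) ∧ ∀ u ∈ U, ρ0 u = 1) (w : V2) :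
    LC (cb ρ0 w) := by
  obtain ⟨U, hU, h1⟩ := hop
  exact ⟨U, hU, fun u hu => by unfold cb; rw [h1 u hu, Matrix.one_mulVec, sub_self]⟩

variable {π : GQ →* Equiv.Perm (Fin 3)} (hπ : ∀ σ i, ρ0 σ *ᵥ ev i = ev (π σ i))

include hπ in
theorem sg_map (σ : GQ) (v : V2) (i : Fin 3) : sg (ρ0 σ *ᵥ v) (π σ i) = sg v i := by
  unfold sg
  rw [← hπ, pr_mul, det_rho, one_mul]

include hπ in
theorem coc_of {x : GQ → V2} (hx : IsC ρ0 x) (hxc : LC x) : Coc π (fun σ i => sg (x σ) i) where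
  sgn σ := sg_sgn _
  mul σ τ i := by
    rw [hx, sg_add, sg_map hπ]
  cont := by
    obtain ⟨U, hU, h⟩ := hxc
    exact ⟨U, hU, fun u hu i => by rw [h u hu, sg_zero]⟩

theorem pi_ker_open (hop : ∃ U : Subgroup GQ, IsOpen (U : Set GQ) ∧ ∀ u ∈ U, ρ0 u = 1)
    (hπ : ∀ σ i, ρ0 σ *ᵥ ev i = ev (π σ i)) : IsOpen (π.ker : Set GQ) := by
  obtain ⟨U, hU, h1⟩ := hop
  refine Subgroup.isOpen_mono (fun u hu => ?_) hU
  rw [MonoidHom.mem_ker]
  ext i
  apply congrArg
  apply ev_inj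
  rw [← hπ, h1 u hu, Matrix.one_mulVec]; rfl

end Rep

end Fermat.Agent.H07.Z2
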