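import Fermat.Agent.H07.Z2.Form
import Fermat.Agent.CC.GQ

set_option autoImplicit false
set_option linter.all false

/-!
# PROGRAM Z, package Z2: the twisted ternary forms (Galois descent)
-/

namespace Fermat.Agent.H07.Z2

open Fermat.Agent.L00.HilbQ Fermat.Agent.CC

theorem perm_cases : ∀ p : Equiv.Perm (Fin 3),
    (∀ i, p (i + 1) = p i + 1 ∧ p (i + 2) = p i + 2) ∨
    (∀ i, p (i + 1) = p i + 2 ∧ p (i + 2) = p i + 1) := by decide

/-- sign data -/
structure Sgn (ε : Fin 3 → Qb) : Prop where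
  val : ∀ i, ε i = 1 ∨ ε i = -1
  prod : ε 0 * ε 1 * ε 2 = 1

theorem Sgn.sq {ε : Fin 3 → Qb} (h : Sgn ε) (i : Fin 3) : ε i * ε i = 1 := by
  rcases h.val i with h | h <;> rw [h] <;> ring

theorem Sgn.mul_succ {ε : Fin 3 → Qb} (h : Sgn ε) (i : Fin 3) : ε (i + 1) * ε (i + 2) = ε i := by
  have h0 := h.sq 0
  have h1 := h.sq 1
  have h2 := h.sq 2
  have hp := h.prod
  fin_cases i
  · change ε 1 * ε 2 = ε 0
    linear_combination ε 0 * hp - ε 1 * ε 2 * h0
  · change ε 2 * ε 0 = ε 1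
    linear_combination ε 1 * hp - ε 2 * ε 0 * h1
  · change ε 0 * ε 1 = ε 2
    linear_combination ε 2 * hp - ε 0 * ε 1 * h2

theorem Sgn.ne_zero {ε : Fin 3 → Qb} (h : Sgn ε) (i : Fin 3) : ε i ≠ 0 := by
  rcases h.val i with h | h <;> rw [h] <;> norm_num

theorem Sgn.map {ε : Fin 3 → Qb} (h : Sgn ε) (i : Fin 3) (σ : GQ) : σ (ε i) = ε i := by
  rcases h.val i with h | h <;> rw [h] <;> simp

theorem Sgn.mul {ε ε' : Fin 3 → Qb} (h : Sgn ε) (h' : Sgn ε') : Sgn (fun i => ε i * ε' i) where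
  val i := by
    rcases h.val i with h | h <;> rcases h'.val i with h' | h' <;> rw [h, h'] <;> simp
  prod := by linear_combination (ε' 0 * ε' 1 * ε' 2) * h.prod + h'.prod

theorem Sgn.one : Sgn (fun _ => (1 : Qb)) := ⟨fun _ => Or.inl rfl, by norm_num⟩

section

variable (π : GQ →* Equiv.Perm (Fin 3))

/-- twisted equivariant vectors -/
def Tw (D : Subgroup GQ) (ε : GQ → Fin 3 → Qb) (z : Fin 3 → Qb) : Prop :=
  ∀ d ∈ D, ∀ i, d (z i) = ε d (π d i) * z (π d i)

variable {π} {T : Fin 3 → Qb} (hT : ∀ (σ : GQ) i, σ (T i) = T (π σ i))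
  {D : Subgroup GQ} {ε : GQ → Fin 3 → Qb}

theorem Tw.mono {D' : Subgroup GQ} (h : D' ≤ D) {z : Fin 3 → Qb} (hz : Tw π D ε z) :
    Tw π D' ε z := fun d hd => hz d (h hd)

theorem Tw.add {z z' : Fin 3 → Qb} (hz : Tw π D ε z) (hz' : Tw π D ε z') :
    Tw π D ε (z + z') := by
  intro d hd i
  rw [Pi.add_apply, map_add, hz d hd, hz' d hd, Pi.add_apply]; ring

theorem Tw.sub {z z' : Fin 3 → Qb} (hz : Tw π D ε z) (hz' : Tw π D ε z') :
    Tw π D ε (z - z') := by
  intro d hd i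
  rw [Pi.sub_apply, map_sub, hz d hd, hz' d hd, Pi.sub_apply]; ring

theorem Tw.smul {z : Fin 3 → Qb} (hz : Tw π D ε z) {c : Qb} (hc : ∀ d ∈ D, d c = c) :
    Tw π D ε (c • z) := by
  intro d hd i
  rw [Pi.smul_apply, smul_eq_mul, map_mul, hz d hd, hc d hd, Pi.smul_apply, smul_eq_mul]; ring

include hT in
theorem wt_map (σ : GQ) (i : Fin 3) : σ (wt T i) = wt T (π σ i) := by
  unfold wt
  rw [map_inv₀, map_mul, map_sub, map_sub, hT, hT, hT]
  rcases perm_cases (π σ) with h | h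
  · rw [(h i).1, (h i).2]
  · rw [(h i).1, (h i).2, mul_comm]

include hT in
theorem dl_map (σ : GQ) : ((∀ i, π σ (i + 1) = π σ i + 1 ∧ π σ (i + 2) = π σ i + 2) → σ (dl T) = dl T) ∧
    ((∀ i, π σ (i + 1) = π σ i + 2 ∧ π σ (i + 2) = π σ i + 1) → σ (dl T) = -dl T) := by
  have e : σ (dl T) = (T (π σ 0) - T (π σ 1)) * (T (π σ 1) - T (π σ 2)) *
      (T (π σ 2) - T (π σ 0)) := by
    unfold dl
    rw [map_mul, map_mul, map_sub, map_sub, map_sub, hT, hT, hT]
  constructor
  · intro h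
    obtain ⟨h1, h2⟩ := h 0
    simp only [zero_add] at h1 h2
    rw [e, h1, h2]
    generalize π σ 0 = j
    fin_cases j
    · simp [dl]
    · simp only [dl, Fin.mk_one, show (1 : Fin 3) + 1 = 2 from rfl, show (1 : Fin 3) + 2 = 0 from rfl]
      ring
    · simp only [dl, Fin.reduceFinMk, show (2 : Fin 3) + 1 = 0 from rfl, show (2 : Fin 3) + 2 = 1 from rfl]
      ring
  · intro h
    obtain ⟨h1, h2⟩ := h 0
    simp only [zero_add] at h1 h2
    rw [e, h1, h2]
    generalize π σ 0 = j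
    fin_cases j
    · simp only [dl, Fin.zero_eta, zero_add]
      ring
    · simp only [dl, Fin.mk_one, show (1 : Fin 3) + 1 = 2 from rfl, show (1 : Fin 3) + 2 = 0 from rfl]
      ring
    · simp only [dl, Fin.reduceFinMk, show (2 : Fin 3) + 1 = 0 from rfl, show (2 : Fin 3) + 2 = 1 from rfl]
      ring

include hT in
theorem Tw.cr (hε : ∀ d, Sgn (ε d)) {z z' : Fin 3 → Qb} (hz : Tw π D ε z) (hz' : Tw π D ε z') :
    Tw π D ε (cr (wt T) (dl T) z z') := by
  intro d hd i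
  unfold Z2.cr
  rw [map_div₀, map_mul, map_sub, map_mul, map_mul, hz d hd, hz d hd, hz' d hd, hz' d hd,
    wt_map hT]
  have h3 := (hε d).mul_succ (π d i)
  rcases perm_cases (π d) with h | h
  · rw [(dl_map hT d).1 h, (h i).1, (h i).2, ← h3]
    ring
  · rw [(dl_map hT d).2 h, (h i).1, (h i).2, ← h3]
    ring

include hT in
theorem Tw.B_fixed (hε : ∀ d, Sgn (ε d)) {z z' : Fin 3 → Qb} (hz : Tw π D ε z)
    (hz' : Tw π D ε z') : ∀ d ∈ D, d (B (wt T) z z') = B (wt T) z z' := by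
  intro d hd
  unfold B
  rw [map_sum]
  refine (Finset.sum_congr rfl fun i _ => ?_).trans
    (Equiv.sum_comp (π d) (fun i => wt T i * z i * z' i))
  rw [map_mul, map_mul, wt_map hT, hz d hd, hz' d hd]
  linear_combination wt T (π d i) * z (π d i) * z' (π d i) * (hε d).sq (π d i)

end

/-- local embedding data: the fixed field of `D` is mapped into `L`. -/
def IsLoc (L : Type*) {Ω : Type*} [Field L] [Field Ω] [Algebra L Ω] (D : Subgroup GQ)
    (ι : Qb →+* Ω) : Prop :=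
  ∀ z, (∀ d ∈ D, d z = z) → ∃ c : L, algebraMap L Ω c = ι z

section Main

variable {π : GQ →* Equiv.Perm (Fin 3)} {T : Fin 3 → Qb}
  (hT : ∀ (σ : GQ) i, σ (T i) = T (π σ i)) (hTi : Function.Injective T)
  {D : Subgroup GQ} {ε : GQ → Fin 3 → Qb} (hε : ∀ d, Sgn (ε d))
  {L Ω : Type*} [Field L] [Field Ω] [Algebra L Ω] {ι : Qb →+* Ω} (hι : IsLoc L D ι)

/-- the three orthogonal vectors -/
noncomputable def tr3 (T : Fin 3 → Qb) (z z' : Fin 3 → Qb) : Fin 3 → Fin 3 → Qb :=
  ![z, z', cr (wt T) (dl T) z z']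

include hTi in
theorem tr3_orth {z z' : Fin 3 → Qb} (ho : B (wt T) z z' = 0) (i j : Fin 3) (hij : i ≠ j) :
    B (wt T) (tr3 T z z' i) (tr3 T z z' j) = 0 := by
  have h1 := B_cr_left (wt T) (wt_ne hTi) (dl_ne hTi) z z'
  have h2 := B_cr_right (wt T) (wt_ne hTi) (dl_ne hTi) z z'
  have h1' : B (wt T) (cr (wt T) (dl T) z z') z = 0 := by rw [B_comm]; exact h1
  have h2' : B (wt T) (cr (wt T) (dl T) z z') z' = 0 := by rw [B_comm]; exact h2
  have ho' : B (wt T) z' z = 0 := by rw [B_comm]; exact ho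
  fin_cases i <;> fin_cases j <;> first | exact absurd rfl hij | assumption

include hTi in
theorem tr3_val {z z' : Fin 3 → Qb} (ho : B (wt T) z z' = 0) :
    B (wt T) (tr3 T z z' 2) (tr3 T z z' 2) = -(B (wt T) z z * B (wt T) z' z') :=
  B_cr_cr (wt T) (wt_ne hTi) (dl_ne hTi) (wt_dl hTi) z z' ho

include hTi in
theorem tr3_ne {z z' : Fin 3 → Qb} (ho : B (wt T) z z' = 0) (h1 : B (wt T) z z ≠ 0)
    (h2 : B (wt T) z' z' ≠ 0) (i : Fin 3) :
    B (wt T) (tr3 T z z' i) (tr3 T z z' i) ≠ 0 := by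
  fin_cases i
  · exact h1
  · exact h2
  · have := tr3_val hTi ho
    change B (wt T) (tr3 T z z' 2) (tr3 T z z' 2) ≠ 0
    rw [this]
    exact neg_ne_zero.mpr (mul_ne_zero h1 h2)

include hT in
theorem tr3_tw (hε : ∀ d, Sgn (ε d)) {z z' : Fin 3 → Qb} (hz : Tw π D ε z) (hz' : Tw π D ε z')
    (i : Fin 3) : Tw π D ε (tr3 T z z' i) := by
  fin_cases i
  · exact hz
  · exact hz'
  · exact Tw.cr hT hε hz hz'

/-- a pair of orthogonal anisotropic twisted vectors with values `a, b` in `L`. -/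
structure Pair (π : GQ →* Equiv.Perm (Fin 3)) (T : Fin 3 → Qb) (D : Subgroup GQ)
    (ε : GQ → Fin 3 → Qb) {L Ω : Type*} [Field L] [Field Ω] [Algebra L Ω] (ι : Qb →+* Ω)
    (a b : L) : Prop where
  ex : ∃ z z' : Fin 3 → Qb, Tw π D ε z ∧ Tw π D ε z' ∧ B (wt T) z z' = 0 ∧
    algebraMap L Ω a = ι (B (wt T) z z) ∧ algebraMap L Ω b = ι (B (wt T) z' z')
  a_ne : a ≠ 0
  b_ne : b ≠ 0

theorem Pair.mono {D' : Subgroup GQ} (h : D' ≤ D) {a b : L} (hp : Pair π T D ε ι a b) :
    Pair π T D' ε ι a b := by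
  obtain ⟨⟨z, z', h1, h2, h3⟩, h4, h5⟩ := hp
  exact ⟨⟨z, z', h1.mono h, h2.mono h, h3⟩, h4, h5⟩

include hTi in
theorem diag_aux {a b : L} {z z' : Fin 3 → Qb} (ho : B (wt T) z z' = 0)
    (ha : algebraMap L Ω a = ι (B (wt T) z z)) (hb : algebraMap L Ω b = ι (B (wt T) z' z'))
    (s : Fin 3 → L) :
    algebraMap L Ω (a * s 0 ^ 2 + b * s 1 ^ 2 + -(a * b) * s 2 ^ 2) =
      ∑ i, algebraMap L Ω (s i) ^ 2 * ι (B (wt T) (tr3 T z z' i) (tr3 T z z' i)) := by
  rw [Fin.sum_univ_three]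
  have e0 : tr3 T z z' 0 = z := rfl
  have e1 : tr3 T z z' 1 = z' := rfl
  rw [tr3_val hTi ho, e0, e1, ← ha, ← hb, map_neg, map_mul, ← ha, ← hb]
  simp only [map_add, map_mul, map_pow, map_neg]
  ring

include hT hTi hε hι in
/-- if there is a nonzero isotropic twisted vector over `L` then the invariants are isotropic. -/
theorem iso_of_isotropic {a b : L} (hp : Pair π T D ε ι a b) {e : Fin 3 → Qb}
    (he : Tw π D ε e) (he0 : e ≠ 0) (hei : B (wt T) e e = 0) : Iso a b := by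
  obtain ⟨⟨z, z', hz, hz', ho, ha, hb⟩, a0, b0⟩ := hp
  have ha0 : B (wt T) z z ≠ 0 := fun h => a0 (by
    rw [h, map_zero] at ha; exact (map_eq_zero _).mp ha)
  have hb0 : B (wt T) z' z' ≠ 0 := fun h => b0 (by
    rw [h, map_zero] at hb; exact (map_eq_zero _).mp hb)
  set w := tr3 T z z' with hw
  have hwo : ∀ i j, i ≠ j → B (wt T) (w i) (w j) = 0 := tr3_orth hTi ho
  have hwn : ∀ i, B (wt T) (w i) (w i) ≠ 0 := tr3_ne hTi ho ha0 hb0
  have hwt := tr3_tw hT hε hz hz'
  have hfix : ∀ i, ∀ d ∈ D, d (B (wt T) e (w i) / B (wt T) (w i) (w i)) =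
      B (wt T) e (w i) / B (wt T) (w i) (w i) := by
    intro i d hd
    rw [map_div₀, Tw.B_fixed hT hε he (hwt i) d hd, Tw.B_fixed hT hε (hwt i) (hwt i) d hd]
  choose s hs using fun i => hι _ (hfix i)
  rw [iso_iff_diag a0 b0]
  refine ⟨s, ?_, ?_⟩
  · intro h0
    apply he0
    have h1 : ∀ i, B (wt T) e (w i) = 0 := by
      intro i
      have := hs i
      rw [h0, Pi.zero_apply, map_zero] at this
      have h2 := (map_eq_zero ι).mp this.symm
      exact (div_eq_zero_iff.mp h2).resolve_right (hwn i)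
    have h2 : ∀ v, B (wt T) e v = 0 := by
      intro v
      rw [parseval (wt T) w hwo hwn e v]
      refine Finset.sum_eq_zero fun i _ => ?_
      rw [h1 i, zero_mul, zero_div]
    ext i
    have h3 := h2 (Pi.single i 1)
    have h4 : B (wt T) e (Pi.single i 1) = wt T i * e i := by
      unfold B
      rw [Finset.sum_eq_single i]
      · simp
      · intro j _ hj
        rw [Pi.single_eq_of_ne hj, mul_zero]
      · intro h; exact absurd (Finset.mem_univ i) h
    rw [h4] at h3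
    exact (mul_eq_zero.mp h3).resolve_left (wt_ne hTi i)
  · apply (algebraMap L Ω).injective
    rw [diag_aux hTi ho ha hb s, map_zero, ← map_zero ι, ← hei,
      parseval (wt T) w hwo hwn e e, map_sum]
    refine Finset.sum_congr rfl fun i _ => ?_
    rw [hs i, ← map_pow, ← map_mul]
    congr 1
    have := hwn i
    field_simp
    rw [hw]

include hT hTi hε hι in
theorem iso_imp {a b a' b' : L} (hp : Pair π T D ε ι a b) (hp' : Pair π T D ε ι a' b')
    (h : Iso a b) : Iso a' b' := by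
  obtain ⟨⟨z, z', hz, hz', ho, ha, hb⟩, a0, b0⟩ := hp
  have ha0 : B (wt T) z z ≠ 0 := fun h => a0 (by
    rw [h, map_zero] at ha; exact (map_eq_zero _).mp ha)
  have hb0 : B (wt T) z' z' ≠ 0 := fun h => b0 (by
    rw [h, map_zero] at hb; exact (map_eq_zero _).mp hb)
  obtain ⟨⟨y, y', hy, hy', ho', ha', hb'⟩, a0', b0'⟩ := hp'
  have ha0' : B (wt T) y y ≠ 0 := fun h => a0' (by
    rw [h, map_zero] at ha'; exact (map_eq_zero _).mp ha')
  have hb0' : B (wt T) y' y' ≠ 0 := fun h => b0' (by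
    rw [h, map_zero] at hb'; exact (map_eq_zero _).mp hb')
  set w := tr3 T z z' with hw
  have hwo : ∀ i j, i ≠ j → B (wt T) (w i) (w j) = 0 := tr3_orth hTi ho
  have hwn : ∀ i, B (wt T) (w i) (w i) ≠ 0 := tr3_ne hTi ho ha0 hb0
  have hwt := tr3_tw hT hε hz hz'
  set v := tr3 T y y' with hv
  have hvo : ∀ i j, i ≠ j → B (wt T) (v i) (v j) = 0 := tr3_orth hTi ho'
  have hvn : ∀ i, B (wt T) (v i) (v i) ≠ 0 := tr3_ne hTi ho' ha0' hb0'
  have hvt := tr3_tw hT hε hy hy'
  rw [iso_iff_diag a0 b0] at h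
  obtain ⟨s, hs0, hs⟩ := h
  rw [iso_iff_diag a0' b0']
  have hfix : ∀ i j, ∀ d ∈ D, d (B (wt T) (w j) (v i) / B (wt T) (v i) (v i)) =
      B (wt T) (w j) (v i) / B (wt T) (v i) (v i) := by
    intro i j d hd
    rw [map_div₀, Tw.B_fixed hT hε (hwt j) (hvt i) d hd, Tw.B_fixed hT hε (hvt i) (hvt i) d hd]
  choose P hP using fun i j => hι _ (hfix i j)
  set t : Fin 3 → L := fun i => ∑ j, P i j * s j with ht
  -- Parseval relations
  have hpar : ∀ j k, ∑ i, ι (B (wt T) (w j) (v i)) * ι (B (wt T) (w k) (v i)) /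
      ι (B (wt T) (v i) (v i)) = ι (B (wt T) (w j) (w k)) := by
    intro j k
    rw [parseval (wt T) v hvo hvn (w j) (w k), map_sum]
    refine Finset.sum_congr rfl fun i _ => ?_
    rw [map_div₀, map_mul]
  have hιn : ∀ i, ι (B (wt T) (v i) (v i)) ≠ 0 := fun i => (map_ne_zero ι).mpr (hvn i)
  refine ⟨t, ?_, ?_⟩
  · intro h0
    apply hs0
    ext k
    have h1 : ∀ i, ∑ j, algebraMap L Ω (P i j) * algebraMap L Ω (s j) = 0 := by
      intro i
      have := congrFun h0 i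
      simp only [ht, Pi.zero_apply] at this
      rw [← map_zero (algebraMap L Ω), ← this, map_sum]
      simp only [map_mul]
    have h2 : ∑ i, ι (B (wt T) (w k) (v i)) * ∑ j, algebraMap L Ω (P i j) * algebraMap L Ω (s j) =
        ι (B (wt T) (w k) (w k)) * algebraMap L Ω (s k) := by
      have e1 : ∀ i, ι (B (wt T) (w k) (v i)) * ∑ j, algebraMap L Ω (P i j) * algebraMap L Ω (s j) =
          ∑ j, (ι (B (wt T) (w k) (v i)) * ι (B (wt T) (w j) (v i)) /
      ι (B (wt T) (v i) (v i))) * algebraMap L Ω (s j) := by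
        intro i
        rw [Finset.mul_sum]
        refine Finset.sum_congr rfl fun j _ => ?_
        rw [hP i j, map_div₀]
        ring
      simp only [e1]
      rw [Finset.sum_comm]
      simp only [← Finset.sum_mul, hpar]
      rw [Finset.sum_eq_single k]
      · intro j _ hj
        rw [hwo k j (Ne.symm hj), map_zero, zero_mul]
      · intro h; exact absurd (Finset.mem_univ k) h
    simp only [h1, mul_zero, Finset.sum_const_zero] at h2
    rcases mul_eq_zero.mp h2.symm with h3 | h3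
    · exact absurd ((map_eq_zero ι).mp h3) (hwn k)
    · exact (map_eq_zero _).mp h3
  · apply (algebraMap L Ω).injective
    rw [diag_aux hTi ho' ha' hb' t, map_zero]
    have e2 : ∀ i, algebraMap L Ω (t i) ^ 2 * ι (B (wt T) (v i) (v i)) =
        ∑ j, ∑ k, algebraMap L Ω (s j) * algebraMap L Ω (s k) *
          (ι (B (wt T) (w j) (v i)) * ι (B (wt T) (w k) (v i)) / ι (B (wt T) (v i) (v i))) := by
      intro i
      have e3 : algebraMap L Ω (t i) = ∑ j, (ι (B (wt T) (w j) (v i)) / ι (B (wt T) (v i) (v i))) *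
          algebraMap L Ω (s j) := by
        simp only [ht, map_sum, map_mul]
        refine Finset.sum_congr rfl fun j _ => ?_
        rw [hP i j, map_div₀]
      have := hιn i
      rw [e3]
      simp only [Fin.sum_univ_three]
      field_simp
    change ∑ i, algebraMap L Ω (t i) ^ 2 * ι (B (wt T) (v i) (v i)) = 0
    simp only [e2]
    rw [Finset.sum_comm]
    have e4 : ∀ j, ∑ i, ∑ k, algebraMap L Ω (s j) * algebraMap L Ω (s k) *
          (ι (B (wt T) (w j) (v i)) * ι (B (wt T) (w k) (v i)) / ι (B (wt T) (v i) (v i))) =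
        algebraMap L Ω (s j) ^ 2 * ι (B (wt T) (w j) (w j)) := by
      intro j
      rw [Finset.sum_comm]
      simp only [← Finset.mul_sum, hpar]
      rw [Finset.sum_eq_single j]
      · ring
      · intro k _ hk
        rw [hwo j k (Ne.symm hk), map_zero, mul_zero]
      · intro h; exact absurd (Finset.mem_univ j) h
    simp only [e4]
    rw [← diag_aux hTi ho ha hb s, hs, map_zero]

include hT hTi hε hι in
theorem iso_iff {a b a' b' : L} (hp : Pair π T D ε ι a b) (hp' : Pair π T D ε ι a' b') :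
    Iso a b ↔ Iso a' b' :=
  ⟨iso_imp hT hTi hε hι hp hp', iso_imp hT hTi hε hι hp' hp⟩

end Main

end Fermat.Agent.H07.Z2
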