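import Fermat.Agent.H07.Z2.Sym
import Fermat.Agent.TW.Local1
import Fermat.Agent.H09.Inertia
import Fermat.Agent.L00.HilbQ5

set_option autoImplicit false
set_option linter.all false

/-!
# PROGRAM Z, package Z2: unramified and ramified quadratic characters of decomposition groups
-/

namespace Fermat.Agent.H07.Z2

open Fermat.Agent.L00.HilbQ Fermat.Agent.CC Fermat.Agent.TW
open scoped Pointwise

variable {p : ℕ} {A : ValuationSubring Qb} {φ : GQ}

/-- Kummer theory for quadratic characters of a subgroup. -/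
theorem exists_root_char (D : Subgroup GQ) (c : GQ → Qb) (hc : ∀ σ, c σ = 1 ∨ c σ = -1)
    (hm : ∀ σ ∈ D, ∀ τ ∈ D, c (σ * τ) = c σ * c τ) (U : Subgroup GQ)
    (hU : IsOpen (U : Set GQ)) (hcU : ∀ u ∈ U, c u = 1) :
    ∃ r : Qb, r ≠ 0 ∧ ∀ d ∈ D, d r = c d * r := by
  haveI := H51.isGalois_Qbar
  refine H12.hilbert90' (K := ℚ) (L := Qb) D c (fun σ _ h => ?_) (fun σ hσ τ hτ => ?_) U hU
    (fun σ _ hσ => hcU σ hσ)
  · rcases hc σ with h' | h' <;> rw [h'] at h <;> norm_num at h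
  · rw [hm σ hσ τ hτ]
    rcases hc τ with h' | h' <;> rw [h'] <;> simp

theorem frob_sub' (hφ : A.IsFrobeniusAt φ p) {x : Qb} (hx : x ∈ A) :
    A.valuation (φ x - x ^ p) < 1 := by
  obtain ⟨h1, h2⟩ := hφ
  have h3 := h2 (IsLocalRing.residue A ⟨x, hx⟩)
  have hφx : φ x ∈ A := (H09.mem_of_smul_eq h1 x).mpr hx
  have h4 : IsLocalRing.residue A ⟨φ x, hφx⟩ = IsLocalRing.residue A (⟨x, hx⟩ ^ p) := by
    rw [map_pow]
    exact h3
  rw [← sub_eq_zero, ← map_sub, IsLocalRing.residue_eq_zero_iff,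
    ← ValuationSubring.coe_mem_nonunits_iff] at h4
  exact (ValuationSubring.mem_nonunits_iff _).mp h4

theorem sq_cases {s n : Qb} (hs : s ^ 2 = n) {σ : GQ} (hn : σ n = n) : σ s = s ∨ σ s = -s := by
  have h1 : (σ s) ^ 2 = s ^ 2 := by rw [← map_pow, hs, hn]
  exact sq_eq_sq_iff_eq_or_eq_neg.mp h1

/-- The unramified quadratic character is given by the square root of a nonresidue. -/
theorem unr_root (hp : p.Prime) (hp2 : p ≠ 2) (hA : A.LiesOverPrime p)
    (hφ : A.IsFrobeniusAt φ p) {c : GQ → Qb}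
    (hm : ∀ σ ∈ A.decompositionSubgroup ℚ, ∀ τ ∈ A.decompositionSubgroup ℚ,
      c (σ * τ) = c σ * c τ) {U : Subgroup GQ} (hU : IsOpen (U : Set GQ)) (hcU : ∀ u ∈ U, c u = 1)
    (hI : ∀ i ∈ A.inertiaSubgroupIn ℚ, c i = 1) (hφc : c φ = -1)
    {n : ℤ} (hn : ¬ IsSquare (n : ZMod p)) {s : Qb} (hs : s ^ 2 = n) :
    ∀ d ∈ A.decompositionSubgroup ℚ, d s = c d * s := by
  haveI := Fact.mk hp
  have hpn : ¬ (p : ℤ) ∣ n := by
    intro h
    rw [← ZMod.intCast_zmod_eq_zero_iff_dvd] at h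
    exact hn (by rw [h]; exact ⟨0, by simp⟩)
  have hvn : A.valuation ((n : ℤ) : Qb) = 1 := H09.val_intCast_eq_one hp hA hpn
  have hvs : A.valuation s = 1 := by
    have h1 : A.valuation s ^ 2 = 1 := by rw [← map_pow, hs, hvn]
    exact (pow_eq_one_iff.mp h1).resolve_right two_ne_zero
  have hv2 : A.valuation (2 : Qb) = 1 := by
    have := H09.val_intCast_eq_one hp hA (c := 2) (by
      intro h
      have h3 : p ∣ 2 := by exact_mod_cast h
      exact hp2 ((Nat.prime_dvd_prime_iff_eq hp Nat.prime_two).mp h3))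
    exact_mod_cast this
  have hsA : s ∈ A := by rw [← A.valuation_le_one_iff, hvs]
  have hfixn : ∀ σ : GQ, σ ((n : ℤ) : Qb) = ((n : ℤ) : Qb) := fun σ => map_intCast σ n
  have hs0 : s ≠ 0 := by
    rintro rfl
    rw [map_zero] at hvs
    exact zero_ne_one hvs
  -- inertia
  have hI' : ∀ i ∈ A.inertiaSubgroupIn ℚ, i s = s := by
    intro i hi
    rcases sq_cases hs (hfixn i) with h | h
    · exact h
    · exfalso
      have h1 := (ValuationSubring.mem_nonunits_iff _).mp (((H09.mem_inertia_iff A i).mp hi).2 s hsA)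
      rw [h, show -s - s = -(2 * s) by ring, Valuation.map_neg, map_mul, hv2, hvs, one_mul] at h1
      exact lt_irrefl _ h1
  -- Frobenius
  have hodd : Odd p := hp.odd_of_ne_two hp2
  obtain ⟨k, hk⟩ := hodd
  have hφ' : φ s = -s := by
    rcases sq_cases hs (hfixn φ) with h | h
    · exfalso
      have h1 := frob_sub' hφ hsA
      have h2 : s ^ p = s * ((n ^ k : ℤ) : Qb) := by
        rw [hk, pow_add, pow_mul, hs, pow_one]; push_cast; ring
      have h3 : (p : ℤ) ∣ n ^ k + 1 := by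
        rw [← ZMod.intCast_zmod_eq_zero_iff_dvd]
        push_cast
        have h4 := ZMod.euler_criterion p (a := (n : ZMod p)) (by
          intro h0
          exact hpn ((ZMod.intCast_zmod_eq_zero_iff_dvd n p).mp h0))
        have h5 : ((n : ZMod p)) ^ (p / 2) = 1 ∨ ((n : ZMod p)) ^ (p / 2) = -1 :=
          ZMod.pow_div_two_eq_neg_one_or_one p (by
            intro h0
            exact hpn ((ZMod.intCast_zmod_eq_zero_iff_dvd n p).mp h0))
        have h6 : p / 2 = k := by omega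
        rw [h6] at h4 h5
        rcases h5 with h5 | h5
        · exact absurd (h4.mpr h5) hn
        · rw [h5]; ring
      have h7 : A.valuation (((n ^ k + 1 : ℤ) : Qb)) < 1 := H09.val_intCast_lt_one hA h3
      have h8 : φ s - s ^ p = s * 2 - s * ((n ^ k + 1 : ℤ) : Qb) := by
        rw [h, h2]; push_cast; ring
      have h9 : A.valuation (s * 2) < 1 := by
        have e : s * 2 = (φ s - s ^ p) + s * ((n ^ k + 1 : ℤ) : Qb) := by rw [h8]; ring
        rw [e]
        refine Valuation.map_add_lt _ h1 ?_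
        rw [map_mul, hvs, one_mul]
        exact h7
      rw [map_mul, hv2, hvs, one_mul] at h9
      exact lt_irrefl _ h9
    · exact h
  -- general
  intro d hd
  -- open normal subgroup
  have hVs : IsOpen ((MulAction.stabilizer GQ s : Subgroup GQ) : Set GQ) :=
    stabilizer_isOpen_of_isIntegral (K := ℚ) (L := Qb) s
  have hUo : lev.isOpen (U ⊓ (MulAction.stabilizer GQ s : Subgroup GQ)) := by
    rw [lev_isOpen_iff]
    exact hU.inter hVs
  obtain ⟨V, hVn, hV, hVU⟩ := lev.nor _ hUo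
  obtain ⟨m, σ, hσ, h, hh, hhD, e⟩ := exists_dec hp hA hφ hd hVn hV
  have hφD := hφ.mem_decompositionSubgroup
  have hσD := inertia_le_decomposition A hσ
  have c1 : ∀ m : ℕ, c (φ ^ m) = (-1) ^ m := by
    intro m
    induction m with
    | zero => rw [pow_zero, pow_zero, hI 1 (one_mem _)]
    | succ m ih => rw [pow_succ, hm _ (pow_mem hφD m) _ hφD, ih, hφc, pow_succ]
  have c2 : ∀ m : ℕ, (φ ^ m) s = (-1) ^ m * s := by
    intro m
    induction m with
    | zero => simp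
    | succ m ih =>
      rw [pow_succ, AlgEquiv.mul_apply, hφ', map_neg, ih, pow_succ]; ring
  have hhs : h s = s := (hVU hh).2
  rw [e, AlgEquiv.mul_apply, hhs, AlgEquiv.mul_apply, hI' σ hσ, c2,
    hm _ (mul_mem (pow_mem hφD m) hσD) _ hhD, hm _ (pow_mem hφD m) _ hσD, c1, hI σ hσ,
    hcU h (hVU hh).1, mul_one, mul_one]

section Ram

variable {q : ℕ} [hq : Fact q.Prime] {ι : Qb →+* PadicAlgCl q}

theorem norm_eq_one_of {x : Qb} (hι : ∀ x, x ∈ A ↔ ‖ι x‖ ≤ 1) (h : ‖ι x‖ = 1) :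
    A.valuation x = 1 := by
  have hx0 : x ≠ 0 := by rintro rfl; rw [map_zero, norm_zero] at h; exact zero_ne_one h
  apply le_antisymm
  · rw [A.valuation_le_one_iff, hι, h]
  · have h1 : x⁻¹ ∈ A := by rw [hι, map_inv₀, norm_inv, h, inv_one]
    rw [← A.valuation_le_one_iff, map_inv₀] at h1
    exact (inv_le_one₀ (zero_lt_iff.mpr ((Valuation.ne_zero_iff _).mpr hx0))).mp h1

theorem norm_algebraMap (x : ℚ_[q]) : ‖algebraMap ℚ_[q] (PadicAlgCl q) x‖ = ‖x‖ :=
  PadicAlgCl.norm_extends q x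

/-- `(n, a)_q = -1` for a nonresidue `n` and `a` with `√a` ramified. -/
theorem not_iso_ram (hq2 : q ≠ 2) (hA : A.LiesOverPrime q) (hι : ∀ x, x ∈ A ↔ ‖ι x‖ ≤ 1)
    {n : ℤ} (hn : ¬ IsSquare (n : ZMod q)) {r : Qb} (hr0 : r ≠ 0) {a : ℚ_[q]}
    (ha : algebraMap ℚ_[q] (PadicAlgCl q) a = ι (r ^ 2)) {i : GQ}
    (hi : i ∈ A.inertiaSubgroupIn ℚ) (hir : i r = -r) : ¬ Iso ((n : ℤ) : ℚ_[q]) a := by
  have ha0 : a ≠ 0 := fun h => by
    rw [h, map_zero] at ha
    exact pow_ne_zero 2 hr0 ((map_eq_zero ι).mp ha.symm)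
  have hq0 : (q : ℚ_[q]) ≠ 0 := by exact_mod_cast hq.out.ne_zero
  have hqQ : (q : Qb) ≠ 0 := by exact_mod_cast hq.out.ne_zero
  set v := a.valuation with hv
  have hna : ‖a‖ = (q : ℝ) ^ (-v) := Padic.norm_eq_zpow_neg_valuation ha0
  rcases Int.even_or_odd v with ⟨k, hk⟩ | ⟨k, hk⟩
  · exfalso
    -- the even case is unramified
    set t : Qb := r * ((q : Qb) ^ k)⁻¹ with ht
    have h1 : ‖ι t‖ ^ 2 = 1 := by
      have e1 : ι t ^ 2 = algebraMap ℚ_[q] (PadicAlgCl q) (a * ((q : ℚ_[q]) ^ v)⁻¹) := by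
        rw [ht, map_mul, mul_pow, ← map_pow, ← ha, map_mul]
        congr 1
        rw [map_inv₀, map_inv₀, map_zpow₀, map_zpow₀, map_natCast, map_natCast, hk,
          inv_pow, ← zpow_natCast, ← zpow_mul]
        congr 2
        push_cast; ring
      rw [← norm_pow, e1, norm_algebraMap, norm_mul, norm_inv, norm_zpow, Padic.norm_p, hna]
      have hqR : (q : ℝ) ≠ 0 := by exact_mod_cast hq.out.ne_zero
      rw [inv_zpow, inv_inv, zpow_neg, inv_mul_cancel₀ (zpow_ne_zero _ hqR)]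
    have h2 : ‖ι t‖ = 1 := by
      have := norm_nonneg (ι t)
      nlinarith
    have h3 : A.valuation t = 1 := norm_eq_one_of hι h2
    have h4 : i t = -t := by
      rw [ht, map_mul, hir, map_inv₀, map_zpow₀, map_natCast]; ring
    have htA : t ∈ A := by rw [← A.valuation_le_one_iff, h3]
    have h5 := (ValuationSubring.mem_nonunits_iff _).mp (((H09.mem_inertia_iff A i).mp hi).2 t htA)
    have hv2 : A.valuation (2 : Qb) = 1 := by
      have := H09.val_intCast_eq_one hq.out hA (c := 2) (by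
        intro h
        have h3 : q ∣ 2 := by exact_mod_cast h
        exact hq2 ((Nat.prime_dvd_prime_iff_eq hq.out Nat.prime_two).mp h3))
      exact_mod_cast this
    rw [h4, show -t - t = -(2 * t) by ring, Valuation.map_neg, map_mul, hv2, h3, one_mul] at h5
    exact lt_irrefl _ h5
  · -- odd case
    set u : ℚ_[q] := a * ((q : ℚ_[q]) ^ v)⁻¹ with hu
    have hun : ‖u‖ = 1 := by
      rw [hu, norm_mul, norm_inv, norm_zpow, Padic.norm_p, hna]
      have hqR : (q : ℝ) ≠ 0 := by exact_mod_cast hq.out.ne_zero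
      rw [inv_zpow, inv_inv, zpow_neg, inv_mul_cancel₀ (zpow_ne_zero _ hqR)]
    set u' : ℤ_[q] := ⟨u, hun.le⟩ with hu'
    have hau : a = ((q : ℚ_[q]) * (u' : ℚ_[q])) * ((q : ℚ_[q]) ^ k) ^ 2 := by
      change a = ((q : ℚ_[q]) * u) * ((q : ℚ_[q]) ^ k) ^ 2
      have e : (q : ℚ_[q]) ^ v = (q : ℚ_[q]) * ((q : ℚ_[q]) ^ k) ^ 2 := by
        rw [hk, ← zpow_natCast, ← zpow_mul, zpow_add₀ hq0, zpow_one, mul_comm]
        congr 2
        push_cast; ring
      have e2 : ((q : ℚ_[q]) ^ v) ≠ 0 := zpow_ne_zero _ hq0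
      have e3 : a = u * (q : ℚ_[q]) ^ v := by
        rw [hu, mul_assoc, inv_mul_cancel₀ e2, mul_one]
      calc a = u * (q : ℚ_[q]) ^ v := e3
        _ = _ := by rw [e]; ring
    have hpn : ¬ (q : ℤ) ∣ n := by
      intro h
      rw [← ZMod.intCast_zmod_eq_zero_iff_dvd] at h
      exact hn (by rw [h]; exact ⟨0, by simp⟩)
    have hnn : ‖((n : ℤ) : ℤ_[q])‖ = 1 := by
      rw [norm_eq_one_iff_toZMod, map_intCast]
      intro h0
      exact hpn ((ZMod.intCast_zmod_eq_zero_iff_dvd n q).mp h0)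
    have h6 : Iso (((n : ℤ) : ℤ_[q]) : ℚ_[q]) ((q : ℚ_[q]) * (u' : ℚ_[q])) ↔
        IsSquare (PadicInt.toZMod ((n : ℤ) : ℤ_[q])) :=
      iso_unit_p_odd hq2 hnn hun
    rw [map_intCast] at h6
    rw [hau, iso_mul_sq_right (zpow_ne_zero _ hq0)]
    have h7 : ((((n : ℤ) : ℤ_[q])) : ℚ_[q]) = ((n : ℤ) : ℚ_[q]) := by push_cast; rfl
    rw [h7] at h6
    rw [h6]
    exact hn

/-- `(n, n)_p = 1` for units, `p` odd. -/
theorem iso_self {p : ℕ} [hp : Fact p.Prime] (hp2 : p ≠ 2) {n : ℤ} (hn : ¬ (p : ℤ) ∣ n) :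
    Iso ((n : ℤ) : ℚ_[p]) ((n : ℤ) : ℚ_[p]) := by
  have hnn : ‖((n : ℤ) : ℤ_[p])‖ = 1 := by
    rw [norm_eq_one_iff_toZMod, map_intCast]
    intro h0
    exact hn ((ZMod.intCast_zmod_eq_zero_iff_dvd n p).mp h0)
  have h := iso_units_odd hp2 hnn hnn
  have h7 : ((((n : ℤ) : ℤ_[p])) : ℚ_[p]) = ((n : ℤ) : ℚ_[p]) := by push_cast; rfl
  rwa [h7] at h

end Ram

end Fermat.Agent.H07.Z2
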